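import Mathlib

/-!
# S18, package T : definitions

Setting (everything lives inside ONE big field `F`):

* `A` a discrete valuation ring (in the application: `A₀ = 𝔸 ∩ L₀`, `L₀` a number field),
  `ϖ : A` a uniformiser, `L = Frac A`;
* `F` a field, an `L`-algebra; `t : F` transcendental over `L`, `F` finite over `L(t)`.

`s18tChart A t`   : the chart ring `A[t] ⊂ F`;
`s18tInt A t`     : the integral closure of `A[t]` in `F`  (the ring `P` of the blueprint);
`s18tLoc A t p hp`: the localisation `A[t]_(p(t)) ⊂ F` at a prime ELEMENT `p` of `A[X]`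
                    (`p = C ϖ`: the Gauss valuation ring of `L(t)`; `p` primitive irreducible: the
                    `p`-adic valuation ring of `L(t)`);
`s18tIntLoc A t p hp` : the integral closure of `s18tLoc A t p hp` in `F`;
`S18SelfDual A L t p hp` : `s18tIntLoc` is its own dual for the trace form of `F / L(t)`
                    (= "`F / L(t)` is unramified above `p`").
-/

set_option autoImplicit false

noncomputable section

namespace Fermat.Agent.S18

open Polynomial IntermediateField

section Defs

variable (A : Type*) [CommRing A]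
variable {F : Type*} [Field F] [Algebra A F]

/-- The chart ring `A[t] ⊂ F`. -/
def s18tChart (t : F) : Subalgebra A F := Algebra.adjoin A {t}

/-- The integral closure of `A[t]` in `F`, as a subring of `F`. -/
def s18tInt (t : F) : Subring F := (integralClosure (s18tChart A t) F).toSubring

theorem mem_s18tInt {t x : F} : x ∈ s18tInt A t ↔ IsIntegral (s18tChart A t) x := Iff.rfl

/-- The localisation of `A[t]` at the prime element `p(t)`, inside `F`. -/
def s18tLoc (t : F) (p : A[X]) (hp : Prime p) : Subring F where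
  carrier := {x | ∃ a b : A[X], ¬ p ∣ b ∧ x * aeval t b = aeval t a}
  mul_mem' := by
    rintro x y ⟨a, b, hb, hx⟩ ⟨c, d, hd, hy⟩
    refine ⟨a * c, b * d, fun h => (hp.dvd_or_dvd h).elim hb hd, ?_⟩
    rw [map_mul, map_mul, ← hx, ← hy]; ring
  one_mem' := ⟨1, 1, fun h => hp.not_isUnit (isUnit_of_dvd_one h), by simp⟩
  add_mem' := by
    rintro x y ⟨a, b, hb, hx⟩ ⟨c, d, hd, hy⟩
    refine ⟨a * d + c * b, b * d, fun h => (hp.dvd_or_dvd h).elim hb hd, ?_⟩
    rw [map_add, map_mul, map_mul, map_mul, ← hx, ← hy]; ring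
  zero_mem' := ⟨0, 1, fun h => hp.not_isUnit (isUnit_of_dvd_one h), by simp⟩
  neg_mem' := by
    rintro x ⟨a, b, hb, hx⟩
    exact ⟨-a, b, hb, by rw [map_neg, ← hx]; ring⟩

theorem mem_s18tLoc {t : F} {p : A[X]} {hp : Prime p} {x : F} :
    x ∈ s18tLoc A t p hp ↔ ∃ a b : A[X], ¬ p ∣ b ∧ x * aeval t b = aeval t a := Iff.rfl

/-- The integral closure of `A[t]_(p)` in `F`. -/
def s18tIntLoc (t : F) (p : A[X]) (hp : Prime p) : Subring F :=
  (integralClosure (s18tLoc A t p hp) F).toSubring

theorem mem_s18tIntLoc {t : F} {p : A[X]} {hp : Prime p} {x : F} :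
    x ∈ s18tIntLoc A t p hp ↔ IsIntegral (s18tLoc A t p hp) x := Iff.rfl

variable (L : Type*) [Field L] [Algebra L F]

/-- Trace-self-duality of the integral closure of `A[t]_(p)` in `F` over `L(t)`:
every `x` with `Tr_{F/L(t)}(x y) ∈ A[t]_(p)` for all integral `y` is integral. -/
def S18SelfDual (t : F) (p : A[X]) (hp : Prime p) : Prop :=
  ∀ x : F, (∀ y ∈ s18tIntLoc A t p hp,
      ((Algebra.trace L⟮t⟯ F (x * y) : L⟮t⟯) : F) ∈ s18tLoc A t p hp) →
    x ∈ s18tIntLoc A t p hp

/-- `V` is a place of `F / L` in the weak sense: a valuation subring `≠ ⊤` containing `L`. -/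
def S18IsPlace (V : ValuationSubring F) : Prop :=
  V ≠ ⊤ ∧ ∀ c : L, algebraMap L F c ∈ V

/-- `τ` is a uniformiser of `V`: a non-unit of `V` dividing every non-unit. -/
def S18IsUnif (V : ValuationSubring F) (τ : F) : Prop :=
  V.valuation τ < 1 ∧ ∀ x : F, V.valuation x < 1 → V.valuation x ≤ V.valuation τ

/-- `F / L(t)` is unramified (valuation form) above the prime element `g(t)` of `A[t]`:
at every place `V` of `F / L` where `g(t)` is a non-unit, `g(t)` is a uniformiser. -/
def S18UnramAbove (t : F) (g : A[X]) : Prop :=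
  ∀ V : ValuationSubring F, S18IsPlace L V → V.valuation (aeval t g) < 1 →
    S18IsUnif V (aeval t g)

/-- `F / L(t)` is tamely ramified above `t = s` with all ramification indices dividing `w`. -/
def S18TameAbove (t : F) (s : A) (w : ℕ) : Prop :=
  ∀ V : ValuationSubring F, S18IsPlace L V → V.valuation (t - algebraMap A F s) < 1 →
    ∃ τ : F, S18IsUnif V τ ∧ ∃ e : ℕ, e ∣ w ∧
      V.valuation (t - algebraMap A F s) = V.valuation τ ^ e

end Defs

end Fermat.Agent.S18
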