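import Mathlib
import Fermat.Agent.S18.T.Defs

/-!
# S18, package T, row T-e : Abhyankar's lemma (valuation form)

`F' = F(z)`, `z ^ w = t - s`.  If every place `V` of `F / L` above `t = s` has a uniformiser `τ`
with `v(t - s) = v(τ) ^ e`, `e ∣ w` (`S18TameAbove`), then `z` is a uniformiser at every place of
`F' / L` above `z = 0` (`S18UnramAbove A L z X`): `s18t_unramAbove_of_tame`.

The proof is elementary (no Dedekind domains, no intermediate field, no fundamental inequality):
with `V = V' ∩ F`, `m = w / e`, `η = z ^ m / τ` (a unit of `V'` with `η ^ e = u ∈ Vˣ`),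
* `s18ta_step`: the reductions in `k[T]` (`k` the residue field of `V`) of the polynomials
  `h ∈ V[T]` with `v'(h(η)) < 1` form a proper ideal `(μ)`, `μ ∣ T ^ e - ū = μ ν`, which is
  separable (residue characteristic `0`), so `ν ∉ (μ)`; a lift `N` of `ν` has `v'(N(η)) = 1` and
  `N h ≡ (T ^ e - u) Q` modulo the maximal ideal `τ V` of `V`;
* hence for `x = h₀(η) + z y ∈ V[η, z]` with `v'(x) < 1`: `N(η) x = z x₁` with `x₁ ∈ V[η, z]`;
* `s18ta_arch`: `V'` is archimedean with respect to `z` (every `x ≠ 0` is algebraic over `L[z]`),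
  which terminates the induction: every `x ∈ V[η, z] \ 0` has `v'(x) = v'(z) ^ k`;
* every element of `F'` is `τ ^ (-n)` times an element of `V[η, z]`.

`s18t_selfDual_of_tame_of` is the row statement `s18t_selfDual_of_tame` of `S18/T/Spec.lean` with
(TU) `s18t_selfDual_of_unram` for `(F', z, X)` as an explicit hypothesis.
-/

set_option autoImplicit false
set_option linter.unusedSectionVars false
set_option linter.style.haveILetI false

noncomputable section

namespace Fermat.Agent.S18

open Polynomial IntermediateField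

/-- Abstract unramified step. -/
theorem s18ta_step {R : Type*} [CommRing R] [IsLocalRing R] {K' : Type*} [Field K']
    (φ : R[X] →+* K') (hφ : ∀ r ∈ IsLocalRing.maximalIdeal R, φ (C r) = 0)
    (G : R[X]) (hG : φ G = 0) (hsep : (G.map (IsLocalRing.residue R)).Separable) :
    ∃ N : R[X], φ N ≠ 0 ∧ ∀ h : R[X], φ h = 0 →
      ∃ Q : R[X], (N * h - G * Q).map (IsLocalRing.residue R) = 0 := by
  classical
  set ρ := IsLocalRing.residue R with hρ
  have hsurj : Function.Surjective (Polynomial.mapRingHom ρ) :=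
    Polynomial.map_surjective ρ IsLocalRing.residue_surjective
  -- φ kills polynomials whose reduction is zero
  have hker : ∀ h : R[X], h.map ρ = 0 → φ h = 0 := by
    intro h hh
    rw [← Polynomial.sum_C_mul_X_pow_eq h, Polynomial.sum_def, map_sum]
    refine Finset.sum_eq_zero fun i _ => ?_
    have : ρ (h.coeff i) = 0 := by
      have := congrArg (fun q => q.coeff i) hh
      simpa using this
    rw [map_mul, hφ _ ((IsLocalRing.residue_eq_zero_iff _).mp this), zero_mul]
  set J : Ideal (IsLocalRing.ResidueField R)[X] := Ideal.map (Polynomial.mapRingHom ρ) (RingHom.ker φ)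
    with hJ
  have hJmem : ∀ q, q ∈ J ↔ ∃ h, φ h = 0 ∧ h.map ρ = q := by
    intro q
    rw [hJ, Ideal.mem_map_iff_of_surjective _ hsurj]
    simp [RingHom.mem_ker]
  have hJ1 : (1 : (IsLocalRing.ResidueField R)[X]) ∉ J := by
    rw [hJmem]
    rintro ⟨h, hh0, hh1⟩
    have : φ (h - 1) = 0 := hker _ (by simp [hh1])
    rw [map_sub, hh0, map_one] at this
    simp at this
  obtain ⟨μ, hμ⟩ : ∃ μ, J = Ideal.span {μ} := ⟨_, (Ideal.span_singleton_generator J).symm⟩
  have hGJ : G.map ρ ∈ J := (hJmem _).mpr ⟨G, hG, rfl⟩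
  obtain ⟨ν, hν⟩ : μ ∣ G.map ρ := by
    rw [hμ] at hGJ; exact Ideal.mem_span_singleton.mp hGJ
  have hcop : IsCoprime μ ν := by
    rw [hν] at hsep; exact hsep.isCoprime
  have hνJ : ν ∉ J := by
    intro hνJ
    obtain ⟨a, b, hab⟩ := hcop
    apply hJ1
    rw [← hab]
    refine J.add_mem (J.mul_mem_left _ ?_) (J.mul_mem_left _ hνJ)
    rw [hμ]; exact Ideal.mem_span_singleton_self μ
  obtain ⟨N, hN⟩ := hsurj ν
  refine ⟨N, fun hN0 => hνJ ((hJmem _).mpr ⟨N, hN0, hN⟩), fun h hh => ?_⟩
  have : h.map ρ ∈ J := (hJmem _).mpr ⟨h, hh, rfl⟩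
  rw [hμ] at this
  obtain ⟨q, hq⟩ := Ideal.mem_span_singleton.mp this
  obtain ⟨Q, hQ⟩ := hsurj q
  refine ⟨Q, ?_⟩
  have hN' : N.map ρ = ν := hN
  have hQ' : Q.map ρ = q := hQ
  rw [Polynomial.map_sub, Polynomial.map_mul, Polynomial.map_mul, hN', hQ', hq, hν]
  ring


section Arch

variable {F' : Type*} [Field F'] {Γ : Type*} [LinearOrderedCommGroupWithZero Γ]

/-- polynomials with `v`-integral coefficients take `v`-integral values at `v`-integral points -/
theorem s18ta_val_aeval_le_one {R : Type*} [CommRing R] [Algebra R F'] (v : Valuation F' Γ)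
    (hR : ∀ c : R, v (algebraMap R F' c) ≤ 1) (x : F') (hx : v x ≤ 1) (p : R[X]) :
    v (aeval x p) ≤ 1 := by
  rw [aeval_eq_sum_range]
  refine v.map_sum_le fun i _ => ?_
  rw [Algebra.smul_def, map_mul, map_pow]
  exact mul_le_one' (hR _) (pow_le_one' hx i)

variable {L : Type*} [Field L] [Algebra L F']

theorem s18ta_val_algebraMap (v : Valuation F' Γ) (hL : ∀ c : L, v (algebraMap L F' c) ≤ 1)
    (c : L) (hc : c ≠ 0) : v (algebraMap L F' c) = 1 := by
  refine le_antisymm (hL c) ?_
  have h1 : v (algebraMap L F' c) * v (algebraMap L F' c⁻¹) = 1 := by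
    rw [← map_mul, ← map_mul, mul_inv_cancel₀ hc, map_one, map_one]
  calc (1 : Γ) = v (algebraMap L F' c) * v (algebraMap L F' c⁻¹) := h1.symm
    _ ≤ v (algebraMap L F' c) * 1 := by gcongr; exact hL _
    _ = _ := mul_one _

/-- nonzero elements of `L[z]` have valuation a power of `v z` -/
theorem s18ta_poly_val (v : Valuation F' Γ) (hL : ∀ c : L, v (algebraMap L F' c) ≤ 1)
    (z : F') (hz : v z < 1) (q : L[X]) (hq : q ≠ 0) :
    ∃ k : ℕ, v (aeval z q) = v z ^ k := by
  obtain ⟨q1, hq1, hndvd⟩ := exists_eq_pow_rootMultiplicity_mul_and_not_dvd q hq 0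
  simp only [map_zero, sub_zero] at hq1 hndvd
  refine ⟨q.rootMultiplicity 0, ?_⟩
  have hc0 : q1.coeff 0 ≠ 0 := fun h => hndvd (X_dvd_iff.mpr h)
  have h1 : v (aeval z q1) = 1 := by
    have hd := divX_mul_X_add q1
    have : aeval z q1 = aeval z (divX q1) * z + algebraMap L F' (q1.coeff 0) := by
      conv_lhs => rw [← hd]
      simp
    rw [this, v.map_add_eq_of_lt_right]
    · exact s18ta_val_algebraMap v hL _ hc0
    · rw [s18ta_val_algebraMap v hL _ hc0, map_mul]
      calc v (aeval z (divX q1)) * v z ≤ 1 * v z := by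
            gcongr; exact s18ta_val_aeval_le_one v hL z hz.le _
        _ < 1 := by rwa [one_mul]
  conv_lhs => rw [hq1]
  rw [map_mul, map_pow, aeval_X, map_mul, map_pow, h1, mul_one]

theorem s18ta_val_eval₂_le_one {R : Type*} [CommRing R] (v : Valuation F' Γ) (g : R →+* F')
    (hg : ∀ c : R, v (g c) ≤ 1) (x : F') (hx : v x ≤ 1) (p : R[X]) :
    v (p.eval₂ g x) ≤ 1 := by
  rw [eval₂_eq_sum_range]
  refine v.map_sum_le fun i _ => ?_
  rw [map_mul, map_pow]
  exact mul_le_one' (hg _) (pow_le_one' hx i)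

/-- Archimedean property: every nonzero element algebraic over `L[z]` has valuation at least a
power of `v z`. -/
theorem s18ta_arch (v : Valuation F' Γ) (hL : ∀ c : L, v (algebraMap L F' c) ≤ 1)
    (z : F') (hz : v z < 1) (x : F') (hx : x ≠ 0)
    (halg : IsAlgebraic (Algebra.adjoin L {z}) x) : ∃ K : ℕ, v z ^ K ≤ v x := by
  obtain ⟨p, hp0, hpx⟩ := halg
  obtain ⟨p1, hp1, hndvd⟩ := exists_eq_pow_rootMultiplicity_mul_and_not_dvd p hp0 0
  simp only [map_zero, sub_zero] at hp1 hndvd
  have hc0 : p1.coeff 0 ≠ 0 := fun h => hndvd (X_dvd_iff.mpr h)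
  have hp1x : aeval x p1 = 0 := by
    rw [hp1, map_mul, map_pow, aeval_X] at hpx
    exact (mul_eq_zero.mp hpx).resolve_left (pow_ne_zero _ hx)
  by_cases hvx : v x ≤ 1
  · -- coefficients are integral
    have hco : ∀ c : Algebra.adjoin L {z}, v (algebraMap (Algebra.adjoin L {z}) F' c) ≤ 1 := by
      rintro ⟨c, hc⟩
      rw [Algebra.adjoin_singleton_eq_range_aeval] at hc
      obtain ⟨q, rfl⟩ := hc
      exact s18ta_val_aeval_le_one v hL z hz.le q
    have hd := divX_mul_X_add p1
    have h0 : aeval x (divX p1) * x + algebraMap (Algebra.adjoin L {z}) F' (p1.coeff 0) = 0 := by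
      rw [← hp1x]
      conv_rhs => rw [← hd]
      simp
    -- the constant coefficient
    have hmem : algebraMap (Algebra.adjoin L {z}) F' (p1.coeff 0) ∈ (aeval (R := L) z).range := by
      have h2 : ∀ c : Algebra.adjoin L {z}, (c : F') ∈ (aeval (R := L) z).range := by
        rintro ⟨c, hc⟩
        rwa [Algebra.adjoin_singleton_eq_range_aeval] at hc
      exact h2 _
    obtain ⟨q, hq⟩ := hmem
    have hq0 : q ≠ 0 := by
      rintro rfl
      apply hc0
      apply Subtype.ext
      simpa using hq.symm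
    obtain ⟨k, hk⟩ := s18ta_poly_val v hL z hz q hq0
    refine ⟨k, ?_⟩
    have hq' : aeval z q = algebraMap (Algebra.adjoin L {z}) F' (p1.coeff 0) := hq
    rw [← hk, hq', eq_neg_of_add_eq_zero_right h0, Valuation.map_neg, map_mul]
    calc v (aeval x (divX p1)) * v x ≤ 1 * v x := by
          gcongr; exact s18ta_val_aeval_le_one v hco x hvx _
      _ = v x := one_mul _
  · exact ⟨0, by rw [pow_zero]; exact (not_le.mp hvx).le⟩

end Arch

section Core

variable {L F F' : Type*} [Field L] [Field F] [Field F'] [Algebra F F']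
  [Algebra L F'] [CharZero L]

theorem s18ta_unif_core (V' : ValuationSubring F') (hL : ∀ c : L, algebraMap L F' c ∈ V')
    (z : F') (hz1 : V'.valuation z < 1)
    (a : F) (ha : a ≠ 0) (w : ℕ) (hw : w ≠ 0) (hzw : z ^ w = algebraMap F F' a)
    (hspan : ∀ x : F', ∃ p : F[X], x = aeval z p)
    (harch : ∀ x : F', x ≠ 0 → ∃ K : ℕ, V'.valuation z ^ K ≤ V'.valuation x)
    (τ : F) (e : ℕ) (he : e ∣ w)
    (hτ1 : V'.valuation (algebraMap F F' τ) < 1)
    (hτ : ∀ x : F, V'.valuation (algebraMap F F' x) < 1 →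
      V'.valuation (algebraMap F F' x) ≤ V'.valuation (algebraMap F F' τ))
    (hae : V'.valuation (algebraMap F F' a) = V'.valuation (algebraMap F F' τ) ^ e) :
    ∀ x : F', V'.valuation x < 1 → V'.valuation x ≤ V'.valuation z := by
  classical
  set f := algebraMap F F' with hf
  set v' := V'.valuation with hv'
  obtain ⟨m, rfl⟩ := he
  have he0 : e ≠ 0 := fun h => hw (by rw [h, zero_mul])
  have hm0 : m ≠ 0 := fun h => hw (by rw [h, mul_zero])
  have hfa : f a ≠ 0 := (map_ne_zero f).mpr ha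
  have hz0 : z ≠ 0 := by
    rintro rfl
    rw [zero_pow hw] at hzw
    exact hfa hzw.symm
  have hvz0 : v' z ≠ 0 := (Valuation.ne_zero_iff _).mpr hz0
  have hτ0 : τ ≠ 0 := by
    rintro rfl
    rw [map_zero, map_zero, zero_pow he0] at hae
    exact hfa ((Valuation.zero_iff _).mp hae)
  have hfτ : f τ ≠ 0 := (map_ne_zero f).mpr hτ0
  have hvL : ∀ c : L, v' (algebraMap L F' c) ≤ 1 := fun c =>
    (V'.valuation_le_one_iff _).mpr (hL c)
  -- `v'(z)^m = v'(τ)`
  have hzm : v' z ^ m = v' (f τ) := by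
    have : (v' z ^ m) ^ e = v' (f τ) ^ e := by
      rw [← pow_mul, mul_comm, ← map_pow, hzw, hae]
    exact pow_left_injective he0 this
  -- the valuation ring of `F`
  set v : Valuation F V'.ValueGroup := v'.comap f with hv
  have hvf : ∀ x : F, v x = v' (f x) := fun x => rfl
  set V : ValuationSubring F := v.valuationSubring with hV
  have hmemV : ∀ x : F, x ∈ V ↔ v' (f x) ≤ 1 := fun x => Iff.rfl
  -- the unit `u = a / τ^e`
  set u : F := a / τ ^ e with hu
  have hvu : v' (f u) = 1 := by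
    rw [hu, map_div₀, map_div₀, map_pow, map_pow, hae, div_self]
    exact pow_ne_zero _ ((Valuation.ne_zero_iff _).mpr hfτ)
  have hu0 : u ≠ 0 := by
    intro h
    rw [h, map_zero, map_zero] at hvu
    exact zero_ne_one hvu
  have huV : u ∈ V := (hmemV u).mpr hvu.le
  have huV' : u⁻¹ ∈ V := (hmemV _).mpr (by rw [map_inv₀, map_inv₀, hvu, inv_one])
  -- `η = z^m / τ`
  set η : F' := z ^ m / f τ with hη
  have hηe : η ^ e = f u := by
    rw [hη, div_pow, ← pow_mul, mul_comm, hzw, hu, map_div₀, map_pow]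
  have hvη : v' η = 1 := by
    have : v' η ^ e = 1 := by rw [← map_pow, hηe, hvu]
    exact (pow_eq_one_iff.mp this).resolve_right he0
  have hfτη : f τ = z ^ m * η⁻¹ := by
    rw [hη, inv_div, mul_div_assoc', mul_comm, mul_div_assoc, div_self (pow_ne_zero _ hz0), mul_one]
  -- evaluation maps
  set ι₀ : ↥V →+* F' := f.comp V.subtype with hι₀
  have hι₀v : ∀ c : ↥V, v' (ι₀ c) ≤ 1 := fun c => (hmemV c.1).mp c.2
  set ev : (↥V)[X] →+* F' := eval₂RingHom ι₀ η with hev
  have hevv : ∀ h : (↥V)[X], v' (ev h) ≤ 1 := fun h =>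
    s18ta_val_eval₂_le_one v' ι₀ hι₀v η hvη.le h
  set Ψ : (↥V)[X][X] →+* F' := eval₂RingHom ev z with hΨ
  have hΨv : ∀ H : (↥V)[X][X], v' (Ψ H) ≤ 1 := fun H =>
    s18ta_val_eval₂_le_one v' ev hevv z hz1.le H
  -- the residue map
  have hevV' : ∀ h : (↥V)[X], ev h ∈ V' := fun h => (V'.valuation_le_one_iff _).mp (hevv h)
  set φ : (↥V)[X] →+* IsLocalRing.ResidueField ↥V' :=
    (IsLocalRing.residue ↥V').comp (ev.codRestrict V' hevV') with hφ
  have hφ0 : ∀ h : (↥V)[X], φ h = 0 ↔ v' (ev h) < 1 := by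
    intro h
    rw [hφ, RingHom.comp_apply, IsLocalRing.residue_eq_zero_iff, V'.valuation_lt_one_iff]
    rfl
  -- the residue field of `V`
  have hmax : ∀ r : ↥V, r ∈ IsLocalRing.maximalIdeal ↥V ↔ v' (f r) < 1 := fun r =>
    Valuation.mem_maximalIdeal_iff F v
  set u' : ↥V := ⟨u, huV⟩ with hu'
  set G : (↥V)[X] := X ^ e - C u' with hG
  have hevG : ev G = 0 := by
    simp only [hG, hev, coe_eval₂RingHom, eval₂_sub, eval₂_pow, eval₂_X, eval₂_C, hι₀,
      RingHom.comp_apply]
    rw [hηe]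
    exact sub_self _
  have hres_u : IsLocalRing.residue ↥V u' ≠ 0 := by
    rw [Ne, IsLocalRing.residue_eq_zero_iff, hmax]
    exact not_lt.mpr hvu.ge
  have hres_e : ((e : ℕ) : IsLocalRing.ResidueField ↥V) ≠ 0 := by
    rw [← map_natCast (IsLocalRing.residue ↥V), Ne, IsLocalRing.residue_eq_zero_iff, hmax]
    have : f (((e : ℕ) : ↥V) : F) = algebraMap L F' (e : L) := by
      simp
    rw [this, s18ta_val_algebraMap v' hvL _ (Nat.cast_ne_zero.mpr he0)]
    exact lt_irrefl _
  have hsep : (G.map (IsLocalRing.residue ↥V)).Separable := by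
    rw [hG, Polynomial.map_sub, Polynomial.map_pow, map_X, map_C]
    exact separable_X_pow_sub_C _ hres_e hres_u
  obtain ⟨N, hN0, hN⟩ := s18ta_step φ
    (fun r hr => (hφ0 _).mpr (by
      have : ev (C r) = f r := by simp [hev, hι₀]
      rw [this]; exact (hmax r).mp hr))
    G ((hφ0 G).mpr (by rw [hevG, map_zero]; exact zero_lt_one)) hsep
  have hvb : v' (ev N) = 1 := by
    refine le_antisymm (hevv N) (not_lt.mp fun hlt => hN0 ((hφ0 N).mpr hlt))
  -- the maximal ideal of `V` is generated by `τ`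
  have hτV : τ ∈ V := (hmemV τ).mpr hτ1.le
  set τ' : ↥V := ⟨τ, hτV⟩ with hτ'
  have hdiv : ∀ P : (↥V)[X], P.map (IsLocalRing.residue ↥V) = 0 → ∃ R1 : (↥V)[X], P = C τ' * R1 := by
    intro P hP
    have : C τ' ∣ P := by
      rw [C_dvd_iff_dvd_coeff]
      intro i
      have hi : IsLocalRing.residue ↥V (P.coeff i) = 0 := by
        have := congrArg (fun q => q.coeff i) hP
        simpa using this
      rw [IsLocalRing.residue_eq_zero_iff, hmax] at hi
      have hle := hτ _ hi
      have hmem : (P.coeff i : F) / τ ∈ V := by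
        rw [hmemV, map_div₀, map_div₀]
        exact div_le_one_of_le₀ hle zero_le
      refine ⟨⟨_, hmem⟩, Subtype.ext ?_⟩
      show (P.coeff i : F) = τ * ((P.coeff i : F) / τ)
      rw [mul_div_cancel₀ _ hτ0]
    exact this
  -- `η⁻¹` as a polynomial in `η`
  set u'' : ↥V := ⟨u⁻¹, huV'⟩ with hu''
  have hηinv : ev (C u'' * X ^ (e - 1)) = η⁻¹ := by
    have h1 : ev (C u'' * X ^ (e - 1)) = (f u)⁻¹ * η ^ (e - 1) := by
      simp [hev, hι₀, hu'']
    rw [h1, ← hηe]
    have hη0 : η ≠ 0 := by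
      intro h
      rw [h, map_zero] at hvη
      exact zero_ne_one hvη
    obtain ⟨e', rfl⟩ : ∃ e', e = e' + 1 := Nat.exists_eq_succ_of_ne_zero he0
    rw [Nat.add_sub_cancel, pow_succ, mul_inv, mul_assoc, mul_comm η⁻¹,
      ← mul_assoc, inv_mul_cancel₀ (pow_ne_zero _ hη0), one_mul]
  have hΨC : ∀ h, Ψ (C h) = ev h := fun h => by simp [hΨ]
  have hΨX : Ψ X = z := by simp [hΨ]
  -- the key step
  have hkey : ∀ H : (↥V)[X][X], v' (Ψ H) < 1 → ∃ H1 : (↥V)[X][X], ev N * Ψ H = z * Ψ H1 := by
    intro H hH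
    have hd := divX_mul_X_add H
    have hΨd : Ψ H = Ψ (divX H) * z + ev (H.coeff 0) := by
      conv_lhs => rw [← hd]
      rw [map_add, map_mul, hΨC, hΨX]
    have hh0 : v' (ev (H.coeff 0)) < 1 := by
      have : ev (H.coeff 0) = Ψ H - Ψ (divX H) * z := by rw [hΨd]; ring
      rw [this]
      refine lt_of_le_of_lt (Valuation.map_sub _ _ _) (max_lt hH ?_)
      rw [map_mul]
      calc v' (Ψ (divX H)) * v' z ≤ 1 * v' z := by gcongr; exact hΨv _
        _ < 1 := by rwa [one_mul]
    obtain ⟨Q, hQ⟩ := hN _ ((hφ0 _).mpr hh0)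
    obtain ⟨R1, hR1⟩ := hdiv _ hQ
    have h2 : ev N * ev (H.coeff 0) = f τ * ev R1 := by
      have := congrArg ev hR1
      rw [map_sub, map_mul, map_mul, hevG, zero_mul, sub_zero, map_mul] at this
      rw [this]
      congr 1
      simp [hev, hι₀, hτ']
    obtain ⟨m', rfl⟩ : ∃ m', m = m' + 1 := Nat.exists_eq_succ_of_ne_zero hm0
    refine ⟨C N * divX H + X ^ m' * C (C u'' * X ^ (e - 1) * R1), ?_⟩
    have : Ψ (C N * divX H + X ^ m' * C (C u'' * X ^ (e - 1) * R1)) =
        ev N * Ψ (divX H) + z ^ m' * (η⁻¹ * ev R1) := by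
      rw [map_add, map_mul, map_mul, map_pow, hΨC, hΨC, hΨX, map_mul, hηinv]
    rw [this, hΨd, mul_add, h2, hfτη, pow_succ]
    ring
  -- the main induction
  have hind : ∀ n : ℕ, ∀ H : (↥V)[X][X], Ψ H ≠ 0 → v' z ^ n ≤ v' (Ψ H) →
      ∃ k : ℕ, v' (Ψ H) = v' z ^ k := by
    intro n
    induction n with
    | zero =>
      intro H _ hle
      rw [pow_zero] at hle
      exact ⟨0, by rw [pow_zero]; exact le_antisymm (hΨv H) hle⟩
    | succ n ih =>
      intro H hH0 hle
      by_cases h1 : v' (Ψ H) < 1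
      · obtain ⟨H1, hH1⟩ := hkey H h1
        have hval : v' (Ψ H) = v' z * v' (Ψ H1) := by
          have := congrArg v' hH1
          rwa [map_mul, map_mul, hvb, one_mul] at this
        have hH10 : Ψ H1 ≠ 0 := by
          intro h
          rw [h, mul_zero] at hH1
          rcases mul_eq_zero.mp hH1 with h' | h'
          · rw [h', map_zero] at hvb; exact zero_ne_one hvb
          · exact hH0 h'
        have hle1 : v' z ^ n ≤ v' (Ψ H1) := by
          rw [hval, pow_succ'] at hle
          exact (mul_le_mul_iff_right₀ (zero_lt_iff.mpr hvz0)).mp hle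
        obtain ⟨k, hk⟩ := ih H1 hH10 hle1
        exact ⟨k + 1, by rw [hval, hk, pow_succ']⟩
      · exact ⟨0, by rw [pow_zero]; exact le_antisymm (hΨv H) (not_lt.mp h1)⟩
  -- every element of `F` times a power of `τ` lies in `V`
  have hscale : ∀ c : F, ∃ n : ℕ, τ ^ n * c ∈ V := by
    intro c
    by_cases hc : c = 0
    · exact ⟨0, by rw [hc, mul_zero]; exact V.zero_mem⟩
    · have hfc : f c ≠ 0 := (map_ne_zero f).mpr hc
      obtain ⟨K, hK⟩ := harch (f c)⁻¹ (inv_ne_zero hfc)
      refine ⟨K, ?_⟩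
      rw [hmemV, map_mul, map_pow, map_mul, map_pow, ← hzm, ← pow_mul]
      rw [map_inv₀] at hK
      have h1 : v' z ^ (m * K) ≤ v' z ^ K :=
        pow_le_pow_right_of_le_one' hz1.le (Nat.le_mul_of_pos_left K (Nat.pos_of_ne_zero hm0))
      calc v' z ^ (m * K) * v' (f c) ≤ (v' (f c))⁻¹ * v' (f c) := by gcongr; exact h1.trans hK
        _ = 1 := inv_mul_cancel₀ ((Valuation.ne_zero_iff _).mpr hfc)
  have hevτ : ∀ k, ev (C (τ' ^ k)) = f τ ^ k := fun k => by simp [hev, hι₀, hτ']
  have hrep : ∀ p : F[X], ∃ n : ℕ, ∃ H : (↥V)[X][X], f τ ^ n * aeval z p = Ψ H := by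
    intro p
    induction p using Polynomial.induction_on' with
    | add p q hp hq =>
      obtain ⟨n, H, hH⟩ := hp
      obtain ⟨n', H', hH'⟩ := hq
      refine ⟨n + n', C (C (τ' ^ n')) * H + C (C (τ' ^ n)) * H', ?_⟩
      have e1 : Ψ (C (C (τ' ^ n')) * H + C (C (τ' ^ n)) * H') =
          f τ ^ n' * Ψ H + f τ ^ n * Ψ H' := by
        rw [map_add, map_mul, map_mul, hΨC, hΨC, hevτ, hevτ]
      rw [e1, ← hH, ← hH', map_add, pow_add]
      ring
    | monomial i c =>
      obtain ⟨n, hn⟩ := hscale c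
      refine ⟨n, C (C ⟨_, hn⟩) * X ^ i, ?_⟩
      rw [map_mul, map_pow, hΨC, hΨX]
      have : ev (C ⟨τ ^ n * c, hn⟩) = f τ ^ n * f c := by simp [hev, hι₀]
      rw [this, aeval_monomial]
      ring
  -- conclusion
  intro x hx
  by_cases hx0 : x = 0
  · rw [hx0, map_zero]; exact zero_le
  obtain ⟨p, rfl⟩ := hspan x
  obtain ⟨n, H, hH⟩ := hrep p
  have hH0 : Ψ H ≠ 0 := by rw [← hH]; exact mul_ne_zero (pow_ne_zero _ hfτ) hx0
  obtain ⟨K, hK⟩ := harch (Ψ H) hH0
  obtain ⟨k, hk⟩ := hind K H hH0 hK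
  have hval : v' z ^ (m * n) * v' (aeval z p) = v' z ^ k := by
    rw [← hk, ← hH, map_mul, map_pow, ← hzm, ← pow_mul]
  have hlt : v' z ^ k < v' z ^ (m * n) := by
    rw [← hval]
    calc v' z ^ (m * n) * v' (aeval z p) < v' z ^ (m * n) * 1 :=
          mul_lt_mul_of_pos_left hx (pow_pos (zero_lt_iff.mpr hvz0) _)
      _ = _ := mul_one _
  have hkn : m * n < k := by
    by_contra hcon
    exact absurd (pow_le_pow_right_of_le_one' hz1.le (not_lt.mp hcon)) (not_le.mpr hlt)
  have : v' z ^ k ≤ v' z ^ (m * n + 1) := pow_le_pow_right_of_le_one' hz1.le hkn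
  rw [← hval, pow_succ] at this
  exact (mul_le_mul_iff_right₀ (pow_pos (zero_lt_iff.mpr hvz0) _)).mp this

end Core

open scoped IntermediateField.algebraAdjoinAdjoin in
theorem s18ta_isAlgebraic_adjoin {L F' : Type*} [Field L] [Field F'] [Algebra L F'] (z : F')
    [FiniteDimensional L⟮z⟯ F'] (x : F') : IsAlgebraic (Algebra.adjoin L {z}) x := by
  have h1 : IsAlgebraic L⟮z⟯ x := IsAlgebraic.of_finite _ x
  exact (IsFractionRing.isAlgebraic_iff (Algebra.adjoin L {z}) L⟮z⟯ F').mpr h1

universe u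

variable {A : Type*} [CommRing A] [IsDomain A] [IsDiscreteValuationRing A] [CharZero A]
variable {L : Type*} [Field L] [Algebra A L] [IsFractionRing A L]
variable {F : Type u} [Field F] [Algebra A F] [Algebra L F] [IsScalarTower A L F]

omit [IsDiscreteValuationRing A] in
theorem s18ta_unramAbove (t : F) (ht : Transcendental L t)
    (s : A) (w : ℕ) (hw : w ≠ 0) (h : S18TameAbove A L t s w)
    (F' : Type u) [Field F'] [Algebra F F'] [Algebra A F'] [Algebra L F']
    [IsScalarTower A F F'] [IsScalarTower L F F'] [IsScalarTower A L F']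
    (z : F') (hz : z ^ w = algebraMap F F' (t - algebraMap A F s))
    (hF' : F⟮z⟯ = ⊤) [FiniteDimensional L⟮z⟯ F'] : S18UnramAbove A L z (X : A[X]) := by
  intro V' hV' hzV'
  rw [aeval_X] at hzV' ⊢
  obtain ⟨hV'top, hV'L⟩ := hV'
  have : CharZero L := charZero_of_injective_algebraMap (IsFractionRing.injective A L)
  set f := algebraMap F F' with hf
  set a : F := t - algebraMap A F s with ha
  have ha0 : a ≠ 0 := by
    intro h0
    apply ht
    have : t = algebraMap L F (algebraMap A L s) := by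
      rw [← IsScalarTower.algebraMap_apply]
      exact sub_eq_zero.mp h0
    rw [this]
    exact isAlgebraic_algebraMap _
  set V : ValuationSubring F := V'.comap f with hV
  have hequiv : (V'.valuation.comap f).IsEquiv V.valuation :=
    Valuation.isEquiv_of_val_le_one fun x => by
      rw [Valuation.comap_apply, V'.valuation_le_one_iff, V.valuation_le_one_iff]
      rfl
  have hfa : V'.valuation (f a) < 1 := by
    rw [← hz, map_pow]
    exact pow_lt_one₀ zero_le hzV' hw
  have hVplace : S18IsPlace L V := by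
    refine ⟨fun htop => ?_, fun c => ?_⟩
    · have hmem : a⁻¹ ∈ V := by rw [htop]; exact ValuationSubring.mem_top _
      have h1 : V'.valuation (f a⁻¹) ≤ 1 := (V'.valuation_le_one_iff _).mpr hmem
      rw [map_inv₀, map_inv₀] at h1
      have h2 : V'.valuation (f a) ≠ 0 := (Valuation.ne_zero_iff _).mpr ((map_ne_zero f).mpr ha0)
      have h3 : 1 ≤ V'.valuation (f a) := by
        rwa [inv_le_one₀ (zero_lt_iff.mpr h2)] at h1
      exact absurd hfa (not_lt.mpr h3)
    · show f (algebraMap L F c) ∈ V'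
      rw [hf, ← IsScalarTower.algebraMap_apply]
      exact hV'L c
  have hVa : V.valuation a < 1 := hequiv.lt_one_iff_lt_one.mp hfa
  obtain ⟨τ, ⟨hτ1, hτ⟩, e, he, hae⟩ := h V hVplace hVa
  refine ⟨hzV', s18ta_unif_core (L := L) V' hV'L z hzV' a ha0 w hw hz ?_ ?_ τ e he
    (hequiv.lt_one_iff_lt_one.mpr hτ1)
    (fun x hx => (hequiv x τ).mpr (hτ x (hequiv.lt_one_iff_lt_one.mp hx))) ?_⟩
  · -- spanning
    have hzint : IsIntegral F z := by
      refine ⟨X ^ w - C a, monic_X_pow_sub_C a hw, ?_⟩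
      simp [hz, ha, hf]
    have := IntermediateField.adjoin_simple_toSubalgebra_of_isAlgebraic hzint.isAlgebraic
    rw [hF', Algebra.adjoin_singleton_eq_range_aeval] at this
    intro x
    have hx : x ∈ (aeval (R := F) z).range := by rw [← this]; trivial
    obtain ⟨p, hp⟩ := hx
    exact ⟨p, hp.symm⟩
  · -- archimedean property
    intro x hx
    exact s18ta_arch V'.valuation (fun c => (V'.valuation_le_one_iff _).mpr (hV'L c)) z hzV' x hx
      (s18ta_isAlgebraic_adjoin z x)
  · have : V.valuation a = V.valuation (τ ^ e) := by rw [map_pow]; exact hae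
    have := hequiv.eq_iff.mpr this
    rwa [Valuation.comap_apply, Valuation.comap_apply, map_pow, map_pow] at this


theorem s18ta_transcendental (t : F) (ht : Transcendental L t) (s : A) (w : ℕ)
    (F' : Type u) [Field F'] [Algebra F F'] [Algebra L F'] [IsScalarTower L F F']
    (z : F') (hz : z ^ w = algebraMap F F' (t - algebraMap A F s)) : Transcendental L z := by
  intro hzalg
  apply ht
  have h1 : IsAlgebraic L (z ^ w) := hzalg.pow w
  rw [hz] at h1
  have h2 : IsAlgebraic L (t - algebraMap A F s) :=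
    (isAlgebraic_algebraMap_iff (algebraMap F F').injective).mp h1
  have h3 : IsAlgebraic L (algebraMap A F s) := by
    rw [IsScalarTower.algebraMap_apply A L F]; exact isAlgebraic_algebraMap _
  have := h2.add h3
  simpa using this

theorem s18ta_finiteDimensional (t : F) [FiniteDimensional L⟮t⟯ F] (s : A) (w : ℕ) (hw : w ≠ 0)
    (F' : Type u) [Field F'] [Algebra F F'] [Algebra A F'] [Algebra L F']
    [IsScalarTower A F F'] [IsScalarTower L F F'] [IsScalarTower A L F']
    (z : F') (hz : z ^ w = algebraMap F F' (t - algebraMap A F s))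
    (hF' : F⟮z⟯ = ⊤) : FiniteDimensional L⟮z⟯ F' := by
  have hzint : IsIntegral F z := by
    refine ⟨X ^ w - C (t - algebraMap A F s), monic_X_pow_sub_C _ hw, ?_⟩
    simp [hz]
  -- `F'` is finite over `F`
  have hFF' : Module.Finite F F' := by
    have h1 : FiniteDimensional F F⟮z⟯ := IntermediateField.adjoin.finiteDimensional hzint
    rw [hF'] at h1
    exact Module.Finite.equiv (IntermediateField.topEquiv (F := F) (E := F')).toLinearEquiv
  have : Module.Finite L⟮t⟯ F' := Module.Finite.trans F F'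
  -- the map `L(t) → L(z)`
  have hle : L⟮t⟯ ≤ (L⟮z⟯).comap (IsScalarTower.toAlgHom L F F') := by
    rw [IntermediateField.adjoin_simple_le_iff]
    have : algebraMap F F' t = z ^ w + algebraMap L F' (algebraMap A L s) := by
      rw [hz, map_sub, ← IsScalarTower.algebraMap_apply A L F',
        ← IsScalarTower.algebraMap_apply A F F']
      ring
    show algebraMap F F' t ∈ L⟮z⟯
    rw [this]
    exact add_mem (pow_mem (IntermediateField.mem_adjoin_simple_self L z) w)
      (IntermediateField.algebraMap_mem _ _)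
  let g : L⟮t⟯ →+* L⟮z⟯ :=
    ((algebraMap F F').comp (algebraMap L⟮t⟯ F)).codRestrict L⟮z⟯ (fun x => hle x.2)
  let _ : Algebra L⟮t⟯ L⟮z⟯ := g.toAlgebra
  have : IsScalarTower L⟮t⟯ L⟮z⟯ F' := IsScalarTower.of_algebraMap_eq (fun _ => rfl)
  exact Module.Finite.of_restrictScalars_finite L⟮t⟯ L⟮z⟯ F'

/-- **Abhyankar's lemma**, valuation form: if all ramification indices of `F / L(t)` above `t = s`
divide `w`, then `F(z) / L(z)`, `z ^ w = t - s`, is unramified (valuation form) above `z = 0`. -/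
theorem s18t_unramAbove_of_tame (t : F) (ht : Transcendental L t) [FiniteDimensional L⟮t⟯ F]
    (s : A) (w : ℕ) (hw : IsUnit (w : A)) (h : S18TameAbove A L t s w)
    (F' : Type u) [Field F'] [Algebra F F'] [Algebra A F'] [Algebra L F']
    [IsScalarTower A F F'] [IsScalarTower L F F'] [IsScalarTower A L F']
    (z : F') (hz : z ^ w = algebraMap F F' (t - algebraMap A F s))
    (hF' : F⟮z⟯ = ⊤) : S18UnramAbove A L z (X : A[X]) := by
  have hw0 : w ≠ 0 := by
    rintro rfl
    simp at hw
  have := s18ta_finiteDimensional (L := L) t s w hw0 F' z hz hF'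
  exact s18ta_unramAbove t ht s w hw0 h F' z hz hF'

/-- The row statement `s18t_selfDual_of_tame` (TA) of `S18/T/Spec.lean`, with (TU)
`s18t_selfDual_of_unram` for `(F', z, X)` as an explicit hypothesis `hTU`. -/
theorem s18t_selfDual_of_tame_of (t : F) (ht : Transcendental L t) [FiniteDimensional L⟮t⟯ F]
    (s : A) (w : ℕ) (hw : IsUnit (w : A)) (hζ : ∃ ζ : L, IsPrimitiveRoot ζ w)
    (h : S18TameAbove A L t s w)
    (F' : Type u) [Field F'] [Algebra F F'] [Algebra A F'] [Algebra L F']
    [IsScalarTower A F F'] [IsScalarTower L F F'] [IsScalarTower A L F']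
    (z : F') (hz : z ^ w = algebraMap F F' (t - algebraMap A F s))
    (hF' : F⟮z⟯ = ⊤)
    (hTU : Transcendental L z → FiniteDimensional L⟮z⟯ F' → S18UnramAbove A L z (X : A[X]) →
      S18SelfDual A L z (X : A[X]) Polynomial.prime_X) :
    S18SelfDual A L z (X : A[X]) Polynomial.prime_X := by
  have hw0 : w ≠ 0 := by
    rintro rfl
    simp at hw
  exact hTU (s18ta_transcendental t ht s w F' z hz)
    (s18ta_finiteDimensional (L := L) t s w hw0 F' z hz hF')
    (s18t_unramAbove_of_tame t ht s w hw h F' z hz hF')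

end Fermat.Agent.S18
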