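/-
S18 / package T, leaf T-d (row 342): `s18t_selfDual_of_unram` (TU), VERBATIM from `S18/T/Spec.lean`.

Unramified (valuation form) above a horizontal prime `g` of `A[t]` ⇒ the integral closure of
`A[t]_(g)` in `F` is self-dual for the trace form of `F / L(t)`.

Route: `O = A[t]_(g)` is a discrete valuation ring with fraction field `L(t)`; its integral closure
`B` in `F` is a Dedekind domain; at a maximal ideal `P` of `B` the `P`-adic valuation ring is a place
of `F / L` at which `g(t)` is a non-unit, hence a uniformiser: `e(P) = 1`; residue characteristic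
`0` ⇒ `P` does not divide the different; so the different is trivial.
Helper names are prefixed `s18tu_`.
-/
import Mathlib
import Fermat.Agent.S18.T.Defs

set_option autoImplicit false
set_option linter.unusedSectionVars false
set_option linter.unusedVariables false
set_option linter.style.haveILetI false

noncomputable section

namespace Fermat.Agent.S18

open Polynomial IntermediateField IsDedekindDomain

/-! ## Part I : the abstract statements (AKLB setting) -/

section Abstract

open scoped nonZeroDivisors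

variable {R K E B : Type*} [CommRing R] [IsDomain R] [IsDiscreteValuationRing R]
  [Field K] [Algebra R K] [IsFractionRing R K] [Field E] [Algebra K E] [FiniteDimensional K E]
  [Algebra.IsSeparable K E] [Algebra R E] [IsScalarTower R K E] [CommRing B] [IsDedekindDomain B]
  [Algebra R B] [Algebra B E] [IsScalarTower R B E] [IsIntegralClosure B R E] [IsFractionRing B E]
  [Module.IsTorsionFree R B]

attribute [local instance] FractionRing.liftAlgebra FractionRing.isScalarTower_liftAlgebra

variable (K E) in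
include K E in
theorem s18tu_isSeparable_fractionRing :
    Algebra.IsSeparable (FractionRing R) (FractionRing B) := by
  have H : RingHom.comp (algebraMap (FractionRing R) (FractionRing B))
      ↑(FractionRing.algEquiv R K).symm.toRingEquiv =
        RingHom.comp ↑(FractionRing.algEquiv B E).symm.toRingEquiv (algebraMap K E) := by
    apply IsLocalization.ringHom_ext R⁰
    ext
    simp only [RingHom.coe_comp, RingHom.coe_coe,
      AlgEquiv.coe_ringEquiv, Function.comp_apply, AlgEquiv.commutes,
      ← IsScalarTower.algebraMap_apply]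
    rw [IsScalarTower.algebraMap_apply R B E, AlgEquiv.commutes,
      ← IsScalarTower.algebraMap_apply]
  exact Algebra.IsSeparable.of_equiv_equiv _ _ H

/-- Trivial different ⇒ the trace dual of `B` is `B`. -/
theorem s18tu_mem_of_forall_not_dvd
    (h : ∀ v : HeightOneSpectrum B, ¬ v.asIdeal ∣ differentIdeal R B) (x : E)
    (hx : ∀ y : B, Algebra.trace K E (x * algebraMap B E y) ∈ (algebraMap R K).range) :
    x ∈ (algebraMap B E).range := by
  have hfin : Module.Finite R B := IsIntegralClosure.finite R K E B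
  have hsepF := s18tu_isSeparable_fractionRing (R := R) (B := B) K E
  have htop : differentIdeal R B = ⊤ := by
    by_contra hne
    obtain ⟨P, hP, hle⟩ := Ideal.exists_le_maximal _ hne
    by_cases hP0 : P = ⊥
    · rw [hP0, le_bot_iff] at hle
      exact differentIdeal_ne_bot hle
    · exact h ⟨P, hP.isPrime, hP0⟩ (Ideal.dvd_iff_le.mpr hle)
  have h1 := coeIdeal_differentIdeal R K E B
  rw [htop, FractionalIdeal.coeIdeal_top] at h1
  have h2 : FractionalIdeal.dual R K (1 : FractionalIdeal B⁰ E) = 1 := by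
    rw [← inv_inv (FractionalIdeal.dual R K (1 : FractionalIdeal B⁰ E)), ← h1, inv_one]
  have h3 : x ∈ FractionalIdeal.dual R K (1 : FractionalIdeal B⁰ E) := by
    rw [FractionalIdeal.mem_dual (one_ne_zero' (FractionalIdeal B⁰ E))]
    intro a ha
    rw [FractionalIdeal.mem_one_iff] at ha
    obtain ⟨y, rfl⟩ := ha
    exact hx y
  rw [h2, FractionalIdeal.mem_one_iff] at h3
  obtain ⟨y, hy⟩ := h3
  exact ⟨y, hy⟩

variable (K E) in
include K E in
/-- A maximal ideal `P` of `B` at which the uniformiser of `R` has valuation exactly `exp (-1)`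
and whose residue characteristic is `0` does not divide the different. -/
theorem s18tu_not_dvd_of_intValuation (π : R) (hπ : Irreducible π)
    (hchar : ∀ n : ℕ, n ≠ 0 → IsUnit (n : R))
    (v : HeightOneSpectrum B)
    (hval : v.intValuation (algebraMap R B π) = WithZero.exp (-1 : ℤ)) :
    ¬ v.asIdeal ∣ differentIdeal R B := by
  classical
  have hPmax : v.asIdeal.IsMaximal := v.isMaximal
  have hpeq : IsLocalRing.maximalIdeal R = Ideal.span {π} := hπ.maximalIdeal_eq
  -- `π ∈ P`
  have hπP : algebraMap R B π ∈ v.asIdeal := by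
    rw [← HeightOneSpectrum.intValuation_lt_one_iff_mem, hval, ← WithZero.exp_zero,
      WithZero.exp_lt_exp]
    norm_num
  -- `P` lies over the maximal ideal
  have hlies : v.asIdeal.LiesOver (IsLocalRing.maximalIdeal R) := by
    constructor
    refine (IsLocalRing.maximalIdeal.isMaximal R).eq_of_le ?_ ?_
    · intro htop
      have h1 : (1 : R) ∈ Ideal.under R v.asIdeal := by rw [htop]; trivial
      rw [Ideal.under_def, Ideal.mem_comap, map_one] at h1
      exact hPmax.ne_top ((Ideal.eq_top_iff_one _).mpr h1)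
    · rw [hpeq, Ideal.span_singleton_le_iff_mem, Ideal.under_def, Ideal.mem_comap]
      exact hπP
  -- `π B = P Q`, `P ∤ Q`
  have h1 : v.asIdeal ^ 1 ∣ Ideal.span {algebraMap R B π} := by
    rw [← HeightOneSpectrum.intValuation_le_pow_iff_dvd, hval]
    norm_num
  have h2 : ¬ v.asIdeal ^ 2 ∣ Ideal.span {algebraMap R B π} := by
    rw [← HeightOneSpectrum.intValuation_le_pow_iff_dvd, hval, WithZero.exp_le_exp]
    norm_num
  rw [pow_one] at h1
  obtain ⟨Q, hQ⟩ := h1
  have hPQ : ¬ v.asIdeal ∣ Q := by
    rintro ⟨Q', rfl⟩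
    apply h2
    rw [hQ, pow_two, ← mul_assoc]
    exact Dvd.intro _ rfl
  have hcop : IsCoprime v.asIdeal Q := by
    rw [Ideal.isCoprime_iff_sup_eq]
    by_contra hne
    have h3 := hPmax.eq_of_le hne le_sup_left
    apply hPQ
    rw [Ideal.dvd_iff_le, h3]
    exact le_sup_right
  have hmap : v.asIdeal * Q = Ideal.map (algebraMap R B) (IsLocalRing.maximalIdeal R) := by
    rw [hpeq, Ideal.map_span, Set.image_singleton, hQ]
  -- separability of the residue extension
  have hint : Algebra.IsIntegral R B := IsIntegralClosure.isIntegral_algebra R E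
  have hfin : Module.Finite R B := IsIntegralClosure.finite R K E B
  let _ : Field (R ⧸ IsLocalRing.maximalIdeal R) := Ideal.Quotient.field _
  let _ : Field (B ⧸ v.asIdeal) := Ideal.Quotient.field _
  have hchar0 : CharZero (R ⧸ IsLocalRing.maximalIdeal R) := by
    refine charZero_of_inj_zero fun n hn => ?_
    by_contra hn0
    have h4 : (n : R) ∈ IsLocalRing.maximalIdeal R := by
      rw [← Ideal.Quotient.eq_zero_iff_mem, map_natCast]
      exact hn
    exact (IsLocalRing.mem_maximalIdeal _).mp h4 (hchar n hn0)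
  have hperf : PerfectField (R ⧸ IsLocalRing.maximalIdeal R) := PerfectField.ofCharZero
  have hint' : Algebra.IsIntegral (R ⧸ IsLocalRing.maximalIdeal R) (B ⧸ v.asIdeal) :=
    Ideal.Quotient.algebra_isIntegral_of_liesOver _ _
  have halg : Algebra.IsAlgebraic (R ⧸ IsLocalRing.maximalIdeal R) (B ⧸ v.asIdeal) :=
    Algebra.IsIntegral.isAlgebraic
  have hsep : Algebra.IsSeparable (R ⧸ IsLocalRing.maximalIdeal R) (B ⧸ v.asIdeal) :=
    Algebra.IsAlgebraic.isSeparable_of_perfectField
  have hsepF := s18tu_isSeparable_fractionRing (R := R) (B := B) K E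
  exact not_dvd_differentIdeal_of_isCoprime_of_isSeparable R v.asIdeal Q hcop hmap

end Abstract

/-! ## Part II : the ring `O = A[t]_(g)` -/

section Concrete

universe u

variable {A : Type*} [CommRing A] [IsDomain A] [IsDiscreteValuationRing A] [CharZero A]
variable {L : Type*} [Field L] [Algebra A L] [IsFractionRing A L]
variable {F : Type u} [Field F] [Algebra A F] [Algebra L F] [IsScalarTower A L F]
variable {ϖ : A}

theorem s18tu_aeval_injective (t : F) (ht : Transcendental L t) :
    Function.Injective (aeval t : A[X] →ₐ[A] F) := by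
  intro a b hab
  rw [← aeval_map_algebraMap L t a, ← aeval_map_algebraMap L t b] at hab
  exact Polynomial.map_injective _ (IsFractionRing.injective A L)
    (transcendental_iff_injective.mp ht hab)

theorem s18tu_natDegree_pos (g : A[X]) (hg : Prime g) (hgϖ : ¬ Associated g (C ϖ))
    (hϖ : Irreducible ϖ) : 0 < g.natDegree := by
  by_contra h0
  have h1 : g.natDegree = 0 := by omega
  have h2 := eq_C_of_natDegree_eq_zero h1
  rw [h2] at hg hgϖ
  have h3 : Prime (g.coeff 0) := Polynomial.prime_C_iff.mp hg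
  have h4 := IsDiscreteValuationRing.associated_of_irreducible A h3.irreducible hϖ
  exact hgϖ (h4.map (C : A →+* A[X]))

theorem s18tu_not_dvd_C (g : A[X]) (hdeg : 0 < g.natDegree) (c : A) (hc : c ≠ 0) :
    ¬ g ∣ C c := by
  intro h
  have h1 := Polynomial.natDegree_le_of_dvd h (by rwa [Ne, C_eq_zero])
  rw [natDegree_C] at h1
  omega

variable (t : F) (g : A[X]) (hg : Prime g)

theorem s18tu_aeval_mem (a : A[X]) : aeval t a ∈ s18tLoc A t g hg :=
  ⟨a, 1, fun h => hg.not_isUnit (isUnit_of_dvd_one h), by simp⟩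

theorem s18tu_aeval_ne_zero (ht : Transcendental L t) (b : A[X]) (hb : ¬ g ∣ b) :
    aeval t b ≠ 0 := by
  intro h0
  apply hb
  have : b = 0 := s18tu_aeval_injective (L := L) t ht (by rw [h0, map_zero])
  rw [this]
  exact dvd_zero g

theorem s18tu_div_mem (ht : Transcendental L t) (a b : A[X]) (hb : ¬ g ∣ b) :
    aeval t a / aeval t b ∈ s18tLoc A t g hg :=
  ⟨a, b, hb, div_mul_cancel₀ _ (s18tu_aeval_ne_zero (L := L) t g ht b hb)⟩

theorem s18tu_algebraMap_mem (ht : Transcendental L t) (hdeg : 0 < g.natDegree) (c : L) :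
    algebraMap L F c ∈ s18tLoc A t g hg := by
  obtain ⟨a, b, hb, rfl⟩ := IsFractionRing.div_surjective A c
  have hb0 : b ≠ 0 := nonZeroDivisors.ne_zero hb
  have h1 := s18tu_div_mem (L := L) t g hg ht (C a) (C b) (s18tu_not_dvd_C g hdeg b hb0)
  rw [aeval_C, aeval_C, IsScalarTower.algebraMap_apply A L F a,
    IsScalarTower.algebraMap_apply A L F b, ← map_div₀] at h1
  exact h1

/-- Every nonzero element of `O` is a power of `g(t)` times a quotient of two polynomials prime
to `g`. -/
theorem s18tu_exists_factor (ht : Transcendental L t) (x : F) (hx : x ∈ s18tLoc A t g hg)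
    (hx0 : x ≠ 0) :
    ∃ (n : ℕ) (a b : A[X]), ¬ g ∣ a ∧ ¬ g ∣ b ∧ x = aeval t g ^ n * (aeval t a / aeval t b) := by
  obtain ⟨a₀, b, hb, hxab⟩ := hx
  have hb0 := s18tu_aeval_ne_zero (L := L) t g ht b hb
  have ha₀ : a₀ ≠ 0 := by
    rintro rfl
    rw [map_zero] at hxab
    exact (mul_ne_zero hx0 hb0) hxab
  obtain ⟨n, a, ha, rfl⟩ := WfDvdMonoid.max_power_factor ha₀ hg.irreducible
  refine ⟨n, a, b, ha, hb, ?_⟩
  rw [map_mul, map_pow] at hxab
  rw [← mul_div_assoc, ← hxab, mul_div_cancel_right₀ _ hb0]

/-- the element `g(t)` of `O`. -/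
def s18tuUnif : ↥(s18tLoc A t g hg) := ⟨aeval t g, s18tu_aeval_mem t g hg g⟩

/-- a quotient of two polynomials prime to `g` is a unit of `O`. -/
theorem s18tu_isUnit_div (ht : Transcendental L t) (a b : A[X]) (ha : ¬ g ∣ a) (hb : ¬ g ∣ b) :
    IsUnit (⟨aeval t a / aeval t b, s18tu_div_mem (L := L) t g hg ht a b hb⟩ :
      ↥(s18tLoc A t g hg)) := by
  refine IsUnit.of_mul_eq_one
    (⟨aeval t b / aeval t a, s18tu_div_mem (L := L) t g hg ht b a ha⟩ : ↥(s18tLoc A t g hg)) ?_
  apply Subtype.ext
  show aeval t a / aeval t b * (aeval t b / aeval t a) = 1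
  rw [div_mul_div_comm, mul_comm, div_self]
  exact mul_ne_zero (s18tu_aeval_ne_zero (L := L) t g ht b hb)
    (s18tu_aeval_ne_zero (L := L) t g ht a ha)

theorem s18tu_not_isUnit_unif (ht : Transcendental L t) : ¬ IsUnit (s18tuUnif t g hg) := by
  intro hu
  obtain ⟨y, hy⟩ := hu.exists_right_inv
  obtain ⟨c, d, hd, hcd⟩ := y.2
  have h1 : aeval t g * (y : F) = 1 := congrArg Subtype.val hy
  have h2 : aeval t (g * c) = aeval t d := by
    rw [map_mul, ← hcd, ← mul_assoc, h1, one_mul]
  exact hd ⟨c, (s18tu_aeval_injective (L := L) t ht h2).symm⟩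

theorem s18tu_unif_ne_zero (ht : Transcendental L t) : s18tuUnif t g hg ≠ 0 := by
  intro h0
  have h1 : aeval t g = 0 := congrArg Subtype.val h0
  have h2 : g = 0 := s18tu_aeval_injective (L := L) t ht (by rw [h1, map_zero])
  exact hg.ne_zero h2

/-- every nonzero element of `O` is associated to a power of `g(t)`. -/
theorem s18tu_associated_pow (ht : Transcendental L t) (x : ↥(s18tLoc A t g hg)) (hx : x ≠ 0) :
    ∃ n : ℕ, Associated (s18tuUnif t g hg ^ n) x := by
  have hx0 : (x : F) ≠ 0 := fun h => hx (Subtype.ext h)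
  obtain ⟨n, a, b, ha, hb, hxab⟩ := s18tu_exists_factor (L := L) t g hg ht x x.2 hx0
  obtain ⟨u, hu⟩ := s18tu_isUnit_div (L := L) t g hg ht a b ha hb
  refine ⟨n, u, ?_⟩
  apply Subtype.ext
  rw [hu]
  exact hxab.symm

theorem s18tu_irreducible_unif (ht : Transcendental L t) : Irreducible (s18tuUnif t g hg) := by
  have hnu := s18tu_not_isUnit_unif (L := L) t g hg ht
  have hne := s18tu_unif_ne_zero (L := L) t g hg ht
  refine ⟨hnu, fun x y hxy => ?_⟩
  have hx : x ≠ 0 := by rintro rfl; rw [zero_mul] at hxy; exact hne hxy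
  have hy : y ≠ 0 := by rintro rfl; rw [mul_zero] at hxy; exact hne hxy
  obtain ⟨m, u, hu⟩ := s18tu_associated_pow (L := L) t g hg ht x hx
  obtain ⟨n, w, hw⟩ := s18tu_associated_pow (L := L) t g hg ht y hy
  -- `p = p ^ (m + n) * (u * w)`
  have h1 : s18tuUnif t g hg = s18tuUnif t g hg ^ (m + n) * ((u * w : (↥(s18tLoc A t g hg))ˣ) :
      ↥(s18tLoc A t g hg)) := by
    calc s18tuUnif t g hg = x * y := hxy
      _ = (s18tuUnif t g hg ^ m * u) * (s18tuUnif t g hg ^ n * w) := by rw [hu, hw]
      _ = _ := by rw [pow_add, Units.val_mul]; ring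
  rcases Nat.lt_or_ge (m + n) 1 with h | h
  · exfalso
    have h0 : m + n = 0 := by omega
    rw [h0, pow_zero, one_mul] at h1
    exact hnu (h1 ▸ (u * w).isUnit)
  rcases Nat.lt_or_ge 1 (m + n) with h' | h'
  · exfalso
    obtain ⟨k, hk⟩ : ∃ k, m + n = k + 2 := ⟨m + n - 2, by omega⟩
    rw [hk, pow_add, pow_two, mul_assoc, mul_assoc] at h1
    have h2 : s18tuUnif t g hg * 1 = s18tuUnif t g hg *
        (s18tuUnif t g hg ^ k * (s18tuUnif t g hg * ((u * w : (↥(s18tLoc A t g hg))ˣ) :
          ↥(s18tLoc A t g hg)))) := by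
      rw [mul_one]
      calc s18tuUnif t g hg = _ := h1
        _ = _ := by ring
    have h3 := mul_left_cancel₀ hne h2
    apply hnu
    refine IsUnit.of_mul_eq_one (s18tuUnif t g hg ^ k * ((u * w : (↥(s18tLoc A t g hg))ˣ) :
          ↥(s18tLoc A t g hg))) ?_
    rw [h3]
    ring
  · have h1' : m + n = 1 := by omega
    rcases Nat.eq_zero_or_pos m with hm | hm
    · left
      rw [← hu, hm, pow_zero, one_mul]
      exact u.isUnit
    · right
      have hn : n = 0 := by omega
      rw [← hw, hn, pow_zero, one_mul]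
      exact w.isUnit

theorem s18tu_isDVR (ht : Transcendental L t) :
    IsDiscreteValuationRing ↥(s18tLoc A t g hg) :=
  IsDiscreteValuationRing.ofHasUnitMulPowIrreducibleFactorization
    ⟨s18tuUnif t g hg, s18tu_irreducible_unif (L := L) t g hg ht,
      fun {x} hx => s18tu_associated_pow (L := L) t g hg ht x hx⟩

/-! ## Part III : `O ⊆ L(t)`, fraction field -/

theorem s18tu_aeval_mem_adjoin (a : A[X]) : aeval t a ∈ L⟮t⟯ := by
  rw [← aeval_map_algebraMap L t a]
  exact IntermediateField.algebra_adjoin_le_adjoin L {t}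
    (Polynomial.aeval_mem_adjoin_singleton L t)

theorem s18tu_mem_adjoin (ht : Transcendental L t) (x : F) (hx : x ∈ s18tLoc A t g hg) :
    x ∈ L⟮t⟯ := by
  obtain ⟨a, b, hb, hxab⟩ := hx
  have hb0 := s18tu_aeval_ne_zero (L := L) t g ht b hb
  have h1 : x = aeval t a / aeval t b := by rw [← hxab, mul_div_cancel_right₀ _ hb0]
  rw [h1]
  exact div_mem (s18tu_aeval_mem_adjoin (L := L) t a) (s18tu_aeval_mem_adjoin (L := L) t b)

/-- the inclusion `O → L(t)`. -/
def s18tuIncl (ht : Transcendental L t) : ↥(s18tLoc A t g hg) →+* ↥L⟮t⟯ where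
  toFun x := ⟨x.1, s18tu_mem_adjoin (L := L) t g hg ht x.1 x.2⟩
  map_one' := rfl
  map_mul' _ _ := rfl
  map_zero' := rfl
  map_add' _ _ := rfl

theorem s18tu_aevalL_mem (ht : Transcendental L t) (hdeg : 0 < g.natDegree) (r : L[X]) :
    aeval t r ∈ s18tLoc A t g hg := by
  rw [Polynomial.aeval_eq_sum_range]
  refine Subring.sum_mem _ fun i _ => ?_
  rw [Algebra.smul_def]
  refine Subring.mul_mem _ (s18tu_algebraMap_mem (L := L) t g hg ht hdeg _) (Subring.pow_mem _ ?_ _)
  have h1 := s18tu_aeval_mem t g hg (X : A[X])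
  rwa [aeval_X] at h1

end Concrete

/-! ## Part IV : the theorem -/

section Main

universe u

variable {A : Type*} [CommRing A] [IsDomain A] [IsDiscreteValuationRing A] [CharZero A]
variable {L : Type*} [Field L] [Algebra A L] [IsFractionRing A L]
variable {F : Type u} [Field F] [Algebra A F] [Algebra L F] [IsScalarTower A L F]
variable {ϖ : A}

/-- (TU) unramified (valuation form) above a HORIZONTAL prime `g` ⇒ trace-self-dual at `g`. -/
theorem s18t_selfDual_of_unram (t : F) (ht : Transcendental L t) [FiniteDimensional L⟮t⟯ F]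
    (g : A[X]) (hg : Prime g) (hgϖ : ¬ Associated g (C ϖ)) (hϖ : Irreducible ϖ)
    (h : S18UnramAbove A L t g) : S18SelfDual A L t g hg := by
  classical
  have hdeg := s18tu_natDegree_pos g hg hgϖ hϖ
  intro x hx
  -- the algebra structure `O → L(t)`
  letI algOK : Algebra ↥(s18tLoc A t g hg) ↥L⟮t⟯ := (s18tuIncl (L := L) t g hg ht).toAlgebra
  haveI towOKF : IsScalarTower ↥(s18tLoc A t g hg) ↥L⟮t⟯ F :=
    IsScalarTower.of_algebraMap_eq fun _ => rfl
  haveI dvrO : IsDiscreteValuationRing ↥(s18tLoc A t g hg) := s18tu_isDVR (L := L) t g hg ht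
  have hinjOK : Function.Injective (algebraMap ↥(s18tLoc A t g hg) ↥L⟮t⟯) := by
    intro a b hab
    have h1 : ((algebraMap ↥(s18tLoc A t g hg) ↥L⟮t⟯ a : ↥L⟮t⟯) : F) =
        ((algebraMap ↥(s18tLoc A t g hg) ↥L⟮t⟯ b : ↥L⟮t⟯) : F) := congrArg Subtype.val hab
    exact Subtype.ext h1
  haveI faithOK : FaithfulSMul ↥(s18tLoc A t g hg) ↥L⟮t⟯ :=
    (faithfulSMul_iff_algebraMap_injective _ _).mpr hinjOK
  haveI fracOK : IsFractionRing ↥(s18tLoc A t g hg) ↥L⟮t⟯ := by
    refine IsFractionRing.of_field _ _ fun z => ?_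
    obtain ⟨r, s, hrs⟩ := (IntermediateField.mem_adjoin_simple_iff L (z : F)).mp z.2
    refine ⟨⟨aeval t r, s18tu_aevalL_mem (L := L) t g hg ht hdeg r⟩,
      ⟨aeval t s, s18tu_aevalL_mem (L := L) t g hg ht hdeg s⟩, ?_⟩
    apply Subtype.ext
    rw [IntermediateField.coe_div]
    exact hrs
  -- characteristic zero, separability
  haveI charL : CharZero L := charZero_of_injective_algebraMap (IsFractionRing.injective A L)
  haveI charK : CharZero ↥L⟮t⟯ :=
    charZero_of_injective_algebraMap (algebraMap L ↥L⟮t⟯).injective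
  haveI sepKF : Algebra.IsSeparable ↥L⟮t⟯ F := Algebra.IsAlgebraic.isSeparable_of_perfectField
  -- the integral closure `B`
  haveI dedB : IsDedekindDomain ↥(integralClosure ↥(s18tLoc A t g hg) F) :=
    integralClosure.isDedekindDomain ↥(s18tLoc A t g hg) ↥L⟮t⟯ F
  haveI fracB : IsFractionRing ↥(integralClosure ↥(s18tLoc A t g hg) F) F :=
    integralClosure.isFractionRing_of_finite_extension ↥L⟮t⟯ F
  haveI tfB : Module.IsTorsionFree ↥(s18tLoc A t g hg)
      ↥(integralClosure ↥(s18tLoc A t g hg) F) := by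
    rw [Module.isTorsionFree_iff_algebraMap_injective]
    intro a b hab
    have h1 : algebraMap ↥(integralClosure ↥(s18tLoc A t g hg) F) F
        (algebraMap ↥(s18tLoc A t g hg) ↥(integralClosure ↥(s18tLoc A t g hg) F) a) =
        algebraMap ↥(integralClosure ↥(s18tLoc A t g hg) F) F
        (algebraMap ↥(s18tLoc A t g hg) ↥(integralClosure ↥(s18tLoc A t g hg) F) b) := by
      rw [hab]
    exact Subtype.ext h1
  have key := s18tu_mem_of_forall_not_dvd (R := ↥(s18tLoc A t g hg)) (K := ↥L⟮t⟯) (E := F)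
    (B := ↥(integralClosure ↥(s18tLoc A t g hg) F)) ?_ x ?_
  · obtain ⟨y, hy⟩ := key
    rw [mem_s18tIntLoc, ← hy]
    exact y.2
  · intro v
    have hirr := s18tu_irreducible_unif (L := L) t g hg ht
    -- positive integers are units of `O`
    have hchar : ∀ n : ℕ, n ≠ 0 → IsUnit (n : ↥(s18tLoc A t g hg)) := by
      intro n hn
      have hnA : (n : A) ≠ 0 := Nat.cast_ne_zero.mpr hn
      have h1 := s18tu_isUnit_div (L := L) t g hg ht (C (n : A)) 1
        (s18tu_not_dvd_C g hdeg _ hnA) (fun h' => hg.not_isUnit (isUnit_of_dvd_one h'))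
      convert h1 using 1
      apply Subtype.ext
      show ((n : ↥(s18tLoc A t g hg)) : F) = aeval t (C (n : A)) / aeval t (1 : A[X])
      rw [aeval_C, map_one, div_one, map_natCast]
      rfl
    refine s18tu_not_dvd_of_intValuation ↥L⟮t⟯ F (s18tuUnif t g hg) hirr hchar v ?_
    -- the place attached to `v`
    set w := v.valuation F with hw
    have hE := Valuation.isEquiv_valuation_valuationSubring w
    obtain ⟨π, hπ⟩ := v.valuation_exists_uniformizer F
    have hplace : S18IsPlace L w.valuationSubring := by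
      constructor
      · intro htop
        have h1 : π⁻¹ ∈ w.valuationSubring := by rw [htop]; trivial
        rw [Valuation.mem_valuationSubring_iff, map_inv₀, hπ, ← WithZero.exp_neg, neg_neg,
          ← WithZero.exp_zero, WithZero.exp_le_exp] at h1
        omega
      · intro c
        rw [Valuation.mem_valuationSubring_iff]
        have hc := s18tu_algebraMap_mem (L := L) t g hg ht hdeg c
        have h1 := v.valuation_le_one (K := F)
          (algebraMap ↥(s18tLoc A t g hg) ↥(integralClosure ↥(s18tLoc A t g hg) F)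
            ⟨algebraMap L F c, hc⟩)
        exact h1
    -- `g(t) ∈ P`
    have hint : Algebra.IsIntegral ↥(s18tLoc A t g hg)
        ↥(integralClosure ↥(s18tLoc A t g hg) F) :=
      IsIntegralClosure.isIntegral_algebra ↥(s18tLoc A t g hg) F
    have hunder : Ideal.under ↥(s18tLoc A t g hg) v.asIdeal =
        IsLocalRing.maximalIdeal ↥(s18tLoc A t g hg) := by
      have hprime : (Ideal.under ↥(s18tLoc A t g hg) v.asIdeal).IsPrime :=
        Ideal.IsPrime.under _ _
      have hne : Ideal.under ↥(s18tLoc A t g hg) v.asIdeal ≠ ⊥ := by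
        intro h0
        exact v.ne_bot (Ideal.eq_bot_of_comap_eq_bot h0)
      exact IsLocalRing.eq_maximalIdeal (hprime.isMaximal hne)
    have hgP : algebraMap ↥(s18tLoc A t g hg) ↥(integralClosure ↥(s18tLoc A t g hg) F)
        (s18tuUnif t g hg) ∈ v.asIdeal := by
      have h1 : s18tuUnif t g hg ∈ Ideal.under ↥(s18tLoc A t g hg) v.asIdeal := by
        rw [hunder, hirr.maximalIdeal_eq]
        exact Ideal.mem_span_singleton_self _
      exact h1
    have hcoe : algebraMap ↥(integralClosure ↥(s18tLoc A t g hg) F) F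
        (algebraMap ↥(s18tLoc A t g hg) ↥(integralClosure ↥(s18tLoc A t g hg) F)
          (s18tuUnif t g hg)) = aeval t g := rfl
    have hwg : w (aeval t g) < 1 := by
      rw [← hcoe]
      exact (v.valuation_lt_one_iff_mem _).mpr hgP
    have hVg : w.valuationSubring.valuation (aeval t g) < 1 := hE.lt_one_iff_lt_one.mp hwg
    obtain ⟨-, hunif⟩ := h w.valuationSubring hplace hVg
    have hπ1 : w.valuationSubring.valuation π < 1 := by
      rw [← hE.lt_one_iff_lt_one, hπ, ← WithZero.exp_zero, WithZero.exp_lt_exp]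
      norm_num
    have h2 : w π ≤ w (aeval t g) := (hE π (aeval t g)).mpr (hunif π hπ1)
    rw [hπ] at h2
    have h3 : w (aeval t g) = v.intValuation
        (algebraMap ↥(s18tLoc A t g hg) ↥(integralClosure ↥(s18tLoc A t g hg) F)
          (s18tuUnif t g hg)) := by
      rw [← hcoe]
      exact v.valuation_of_algebraMap _
    rw [h3] at h2
    refine le_antisymm ?_ h2
    have h4 := (v.intValuation_le_pow_iff_mem (algebraMap ↥(s18tLoc A t g hg)
      ↥(integralClosure ↥(s18tLoc A t g hg) F) (s18tuUnif t g hg)) 1).mpr (by rwa [pow_one])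
    exact h4
  · intro y
    have h1 := hx (y : F) y.2
    exact ⟨⟨_, h1⟩, rfl⟩

end Main

end Fermat.Agent.S18
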