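import Mathlib
import Fermat.Agent.S18.T.Defs
import Fermat.Agent.S18.T.Unram
import Fermat.Agent.S18.T.AbhyankarCore

/-!
# S18, package T, row T-e : `s18t_selfDual_of_tame` (TA, Abhyankar's lemma)

Statement VERBATIM from `S18/T/Spec.lean` (origin/helper6 5ddce8d).  Proof:
`s18t_unramAbove_of_tame` (`AbhyankarCore.lean`, valuation form of Abhyankar's lemma) followed by
(TU) `s18t_selfDual_of_unram` (`Unram.lean`, helper23) for `(F', z, X)`.
-/

set_option autoImplicit false
set_option linter.unusedSectionVars false

noncomputable section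

namespace Fermat.Agent.S18

open Polynomial IntermediateField

universe u

variable {A : Type*} [CommRing A] [IsDomain A] [IsDiscreteValuationRing A] [CharZero A]
variable {L : Type*} [Field L] [Algebra A L] [IsFractionRing A L]
variable {F : Type u} [Field F] [Algebra A F] [Algebra L F] [IsScalarTower A L F]

/-- `X` is not associated to a constant. -/
theorem s18ta_X_not_associated_C {ϖ : A} (hϖ : ϖ ≠ 0) : ¬ Associated (X : A[X]) (C ϖ) := by
  intro hass
  have h1 : (X : A[X]) ∣ C ϖ := hass.dvd
  rw [X_dvd_iff, coeff_C_zero] at h1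
  exact hϖ h1

/-- (TA) Abhyankar's lemma: if all ramification indices above `t = s` divide `w` (residue
characteristic `0` there), then `F(z)`, `z^w = t - s`, is unramified over `L(z)` above `z = 0`. -/
theorem s18t_selfDual_of_tame (t : F) (ht : Transcendental L t) [FiniteDimensional L⟮t⟯ F]
    (s : A) (w : ℕ) (hw : IsUnit (w : A)) (hζ : ∃ ζ : L, IsPrimitiveRoot ζ w)
    (h : S18TameAbove A L t s w)
    (F' : Type u) [Field F'] [Algebra F F'] [Algebra A F'] [Algebra L F']
    [IsScalarTower A F F'] [IsScalarTower L F F'] [IsScalarTower A L F']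
    (z : F') (hz : z ^ w = algebraMap F F' (t - algebraMap A F s))
    (hF' : F⟮z⟯ = ⊤) :
    S18SelfDual A L z (X : A[X]) Polynomial.prime_X := by
  obtain ⟨ϖ, hϖ⟩ := IsDiscreteValuationRing.exists_irreducible A
  refine s18t_selfDual_of_tame_of t ht s w hw hζ h F' z hz hF' fun hzt hfd hun => ?_
  exact s18t_selfDual_of_unram (L := L) (ϖ := ϖ) z hzt (X : A[X]) Polynomial.prime_X
    (s18ta_X_not_associated_C hϖ.ne_zero) hϖ hun

end Fermat.Agent.S18
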