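import Mathlib
import Fermat.Agent.S18.T.Defs

/-!
# S18, package T, leaf T-b (row 340): saturation `P ∩ ϖ P_(ϖ) = ϖ P`

* `s18tb_isIntegral_of_smul` : ABSTRACT core.  `R` an integrally closed domain, `π` a prime element,
  `¬ π ∣ G`, `y` in a torsion-free domain over `R` with `π • y` and `G • y` integral ⟹ `y` integral.
  (Minimal polynomials over `R`: `IsIntegrallyClosed.minpoly_smul` gives
  `(minpoly (π • y)).scaleRoots G = (minpoly (G • y)).scaleRoots π`, so `π^(n-i)` divides the `i`-th
  coefficient of `minpoly (π • y)`, which is therefore `q'.scaleRoots π` with `q'` monic, `q' y = 0`.)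
* `s18tb_exists_mul_mem` : clearing denominators, `y ∈ P_(p) ⟹ ∃ b, ¬ p ∣ b ∧ b(t) y ∈ P`
  (any prime element `p` of `A[X]`; the forward half of `s18t_intLoc_iff`).
* `s18tb_saturated` : the statement `s18t_saturated` of `S18/T/Spec.lean` for an ARBITRARY proof `hp`
  of `Prime (C ϖ)`; `s18t_saturated hϖ t ht y hy hx := s18tb_saturated (s18t_prime_C hϖ) t ht y hy hx`.
-/

set_option autoImplicit false
set_option linter.unusedSectionVars false
set_option linter.style.haveILetI false

noncomputable section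

namespace Fermat.Agent.S18

open Polynomial IntermediateField

section Abstract

variable {R : Type*} [CommRing R] [IsDomain R] [IsIntegrallyClosed R]
variable {S : Type*} [CommRing S] [IsDomain S] [Algebra R S] [Module.IsTorsionFree R S]

/-- ABSTRACT saturation: if `π` is prime, `π ∤ G`, and both `π • y`, `G • y` are integral over the
integrally closed domain `R`, then `y` is integral over `R`. -/
theorem s18tb_isIntegral_of_smul {π G : R} (hπ : Prime π) (hG : ¬ π ∣ G) {y : S}
    (h1 : IsIntegral R (π • y)) (h2 : IsIntegral R (G • y)) : IsIntegral R y := by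
  classical
  have hG0 : G ≠ 0 := fun h => hG (h ▸ dvd_zero π)
  set q := minpoly R (π • y) with hq
  set r := minpoly R (G • y) with hr
  have e : q.scaleRoots G = r.scaleRoots π := by
    rw [hq, hr, ← IsIntegrallyClosed.minpoly_smul hG0 h1,
      ← IsIntegrallyClosed.minpoly_smul hπ.ne_zero h2, smul_smul, smul_smul, mul_comm]
  set n := q.natDegree with hn
  have hrn : r.natDegree = n := by
    have := congrArg natDegree e
    rw [natDegree_scaleRoots, natDegree_scaleRoots] at this
    exact this.symm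
  -- divisibility of the coefficients
  have hdiv : ∀ i, π ^ (n - i) ∣ q.coeff i := by
    intro i
    have hc := congrArg (fun f => f.coeff i) e
    simp only [coeff_scaleRoots, hrn, ← hn] at hc
    have hGi : ¬ π ∣ G ^ (n - i) := fun h => hG (hπ.dvd_of_dvd_pow h)
    exact hπ.pow_dvd_of_dvd_mul_right (n - i) hGi (hc ▸ Dvd.intro_left _ rfl)
  choose c hc using hdiv
  -- the descended polynomial
  set q' : R[X] := ∑ i ∈ Finset.range (n + 1), monomial i (c i) with hq'
  have hcoeff : ∀ j, q'.coeff j = if j ≤ n then c j else 0 := by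
    intro j
    rw [hq', finsetSum_coeff]
    simp only [coeff_monomial]
    rw [Finset.sum_ite_eq' (Finset.range (n + 1)) j]
    simp
  have hqm : q.Monic := minpoly.monic h1
  have hcn : c n = 1 := by
    have := hc n
    rw [Nat.sub_self, pow_zero, one_mul] at this
    rw [← this, hn]
    exact hqm.coeff_natDegree
  have hdeg : q'.natDegree ≤ n := by
    rw [natDegree_le_iff_coeff_eq_zero]
    intro N hN
    rw [hcoeff, if_neg (not_le.mpr hN)]
  have hq'm : q'.Monic :=
    monic_of_natDegree_le_of_coeff_eq_one n hdeg (by rw [hcoeff, if_pos le_rfl, hcn])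
  have hq'n : q'.natDegree = n := by
    refine le_antisymm hdeg ?_
    apply le_natDegree_of_ne_zero
    rw [hcoeff, if_pos le_rfl, hcn]
    exact one_ne_zero
  have hscale : q'.scaleRoots π = q := by
    ext i
    rw [coeff_scaleRoots, hq'n, hcoeff]
    split_ifs with hi
    · rw [hc i, mul_comm]
    · rw [zero_mul]
      exact (coeff_eq_zero_of_natDegree_lt (not_le.mp hi)).symm
  refine ⟨q', hq'm, ?_⟩
  have h0 : eval₂ (algebraMap R S) (π • y) q = 0 := by
    have := minpoly.aeval R (π • y)
    rwa [aeval_def] at this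
  rw [← hscale, Algebra.smul_def, scaleRoots_eval₂_mul] at h0
  have hπS : algebraMap R S π ≠ 0 := by
    intro h
    exact hπ.ne_zero ((FaithfulSMul.algebraMap_injective R S) (by rw [h, map_zero]))
  exact (mul_eq_zero.mp h0).resolve_left (pow_ne_zero _ hπS)

end Abstract

section Clear

universe u

variable {A : Type*} [CommRing A]
variable {F : Type u} [Field F] [Algebra A F]

/-- `b(t) ∈ A[t]`. -/
theorem s18tb_aeval_mem_chart (t : F) (b : A[X]) : aeval t b ∈ s18tChart A t := by
  unfold s18tChart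
  rw [Algebra.adjoin_singleton_eq_range_aeval]
  exact ⟨b, rfl⟩

/-- `A[t] ⊆ A[t]_(p)`. -/
theorem s18tb_chart_le_loc (t : F) (p : A[X]) (hp : Prime p) {x : F} (hx : x ∈ s18tChart A t) :
    x ∈ s18tLoc A t p hp := by
  obtain ⟨a, rfl⟩ := Algebra.adjoin_mem_exists_aeval A t hx
  exact ⟨a, 1, fun h => hp.not_isUnit (isUnit_of_dvd_one h), by simp⟩

/-- The inclusion `A[t] → A[t]_(p)`. -/
def s18tbIncl (t : F) (p : A[X]) (hp : Prime p) : ↥(s18tChart A t) →+* ↥(s18tLoc A t p hp) where
  toFun x := ⟨x, s18tb_chart_le_loc t p hp x.2⟩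
  map_one' := rfl
  map_mul' _ _ := rfl
  map_zero' := rfl
  map_add' _ _ := rfl

/-- The denominators: `{b(t) | p ∤ b}`. -/
def s18tbDen (t : F) (p : A[X]) (hp : Prime p) : Submonoid ↥(s18tChart A t) where
  carrier := {x | ∃ b : A[X], ¬ p ∣ b ∧ (x : F) = aeval t b}
  mul_mem' := by
    rintro x y ⟨b, hb, hx⟩ ⟨d, hd, hy⟩
    exact ⟨b * d, fun h => (hp.dvd_or_dvd h).elim hb hd, by
      rw [map_mul, ← hx, ← hy]; rfl⟩
  one_mem' := ⟨1, fun h => hp.not_isUnit (isUnit_of_dvd_one h), by simp⟩

/-- Clearing denominators (forward half of `s18t_intLoc_iff`, any prime element `p`), under the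
hypothesis that no denominator vanishes at `t`. -/
theorem s18tb_exists_mul_mem_of_ne (t : F) (p : A[X]) (hp : Prime p)
    (h0 : ∀ b : A[X], ¬ p ∣ b → aeval t b ≠ 0) (y : F)
    (hy : y ∈ s18tIntLoc A t p hp) :
    ∃ b : A[X], ¬ p ∣ b ∧ aeval t b * y ∈ s18tInt A t := by
  letI : Algebra ↥(s18tChart A t) ↥(s18tLoc A t p hp) := (s18tbIncl t p hp).toAlgebra
  haveI : IsScalarTower ↥(s18tChart A t) ↥(s18tLoc A t p hp) F :=
    IsScalarTower.of_algebraMap_eq (fun _ => rfl)
  haveI : IsLocalization (s18tbDen t p hp) ↥(s18tLoc A t p hp) := by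
    rw [isLocalization_iff]
    refine ⟨?_, ?_, ?_⟩
    · rintro ⟨x, b, hb, hx⟩
      have hbt : aeval t b ≠ 0 := h0 b hb
      have hinv : (aeval t b)⁻¹ ∈ s18tLoc A t p hp :=
        ⟨1, b, hb, by rw [inv_mul_cancel₀ hbt]; simp⟩
      refine isUnit_iff_exists_inv.mpr ⟨⟨(aeval t b)⁻¹, hinv⟩, ?_⟩
      apply Subtype.ext
      change (x : F) * (aeval t b)⁻¹ = 1
      rw [hx, mul_inv_cancel₀ hbt]
    · rintro ⟨z, a, b, hb, hz⟩
      refine ⟨(⟨aeval t a, s18tb_aeval_mem_chart t a⟩,
        ⟨⟨aeval t b, s18tb_aeval_mem_chart t b⟩, b, hb, rfl⟩), ?_⟩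
      apply Subtype.ext
      exact hz
    · intro x y hxy
      refine ⟨1, ?_⟩
      have : (x : F) = (y : F) := congrArg (fun w : ↥(s18tLoc A t p hp) => (w : F)) hxy
      rw [Subtype.ext this]
  obtain ⟨⟨m, b, hb, hm⟩, hint⟩ :=
    IsIntegral.exists_multiple_integral_of_isLocalization (s18tbDen t p hp) y
      ((mem_s18tIntLoc A).mp hy)
  refine ⟨b, hb, ?_⟩
  rw [mem_s18tInt, ← hm]
  exact hint

/-- Clearing denominators (forward half of `s18t_intLoc_iff`, any prime element `p`), `t`
transcendental. -/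
theorem s18tb_exists_mul_mem (t : F) (htA : Transcendental A t) (p : A[X]) (hp : Prime p) (y : F)
    (hy : y ∈ s18tIntLoc A t p hp) :
    ∃ b : A[X], ¬ p ∣ b ∧ aeval t b * y ∈ s18tInt A t := by
  refine s18tb_exists_mul_mem_of_ne t p hp (fun b hb h => ?_) y hy
  have hb0 : b ≠ 0 := fun h' => hb (h' ▸ dvd_zero p)
  exact htA ⟨b, hb0, h⟩

end Clear

section Concrete

universe u

variable {A : Type*} [CommRing A] [IsDomain A] [IsDiscreteValuationRing A]
variable {L : Type*} [Field L] [Algebra A L] [IsFractionRing A L]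
variable {F : Type u} [Field F] [Algebra A F] [Algebra L F] [IsScalarTower A L F]
variable {ϖ : A}

/-- `t` transcendental over `L = Frac A` ⟹ transcendental over `A`. -/
theorem s18tb_transcendental {t : F} (ht : Transcendental L t) : Transcendental A t :=
  ht.restrictScalars (IsFractionRing.injective A L)

/-- (T1) saturation `P ∩ ϖ P_(ϖ) = ϖ P`, for an arbitrary proof `hp` of `Prime (C ϖ)`:
`s18t_saturated hϖ t ht y hy hx = s18tb_saturated (s18t_prime_C hϖ) t ht y hy hx`. -/
theorem s18tb_saturated (hp : Prime (C ϖ : A[X])) (t : F) (ht : Transcendental L t)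
    (y : F) (hy : y ∈ s18tIntLoc A t (C ϖ) hp)
    (hx : algebraMap A F ϖ * y ∈ s18tInt A t) : y ∈ s18tInt A t := by
  have htA : Transcendental A t := s18tb_transcendental ht
  obtain ⟨b, hb, hby⟩ := s18tb_exists_mul_mem t htA (C ϖ) hp y hy
  -- the chart ring is a polynomial ring
  let e : A[X] ≃ₐ[A] ↥(s18tChart A t) := algEquivOfTranscendental A t htA
  haveI : IsIntegrallyClosed ↥(s18tChart A t) := IsIntegrallyClosed.of_equiv e.toRingEquiv
  have hcoe : ∀ f : A[X], ((e f : ↥(s18tChart A t)) : F) = aeval t f := fun f =>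
    aeval_subalgebra_coe f (Algebra.adjoin A {t}) ⟨t, Algebra.self_mem_adjoin_singleton A t⟩
  have hπ : Prime (e (C ϖ)) := (MulEquiv.prime_iff e).mpr hp
  have hG : ¬ e (C ϖ) ∣ e b := fun h => hb ((map_dvd_iff e).mp h)
  rw [mem_s18tInt] at hx hby ⊢
  refine s18tb_isIntegral_of_smul hπ hG ?_ ?_
  · have : e (C ϖ) • y = algebraMap A F ϖ * y := by
      rw [Algebra.smul_def]
      change ((e (C ϖ) : ↥(s18tChart A t)) : F) * y = _
      rw [hcoe, aeval_C]
    rw [this]; exact hx
  · have : e b • y = aeval t b * y := by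
      rw [Algebra.smul_def]
      change ((e b : ↥(s18tChart A t)) : F) * y = _
      rw [hcoe]
    rw [this]; exact hby

end Concrete

end Fermat.Agent.S18
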