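import Mathlib
import Fermat.Agent.S18.T.Defs
import Fermat.Agent.S18.T.Saturated

/-!
# S18, package T, leaf T-a (row 339): the elementary leaves

Fresh names (prefix `s18ta_`), the prime element is passed with an ARBITRARY proof `hp`, and the
shorthands `S18DvdGauss`, `S18LocalAt` of `S18/T/Spec.lean` are written out (they unfold to exactly
these statements).  Wiring of the frozen statements of `S18/T/Spec.lean`:

* `s18t_intLoc_iff hϖ t y        := s18ta_intLoc_iff (C ϖ) (s18t_prime_C hϖ) t y`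
* `s18t_loc_inv hϖ t ht          := s18ta_loc_inv ϖ (s18t_prime_C hϖ) t`
* `s18t_selfDual_inv hϖ t ht hG  := s18ta_selfDual_inv ϖ (s18t_prime_C hϖ) t hG`
* `s18t_global_of_local hϖ t ht e he hloc := s18ta_global_of_local hϖ (s18t_prime_C hϖ) t e he hloc`

(`Transcendental L t` and `FiniteDimensional L⟮t⟯ F` are not needed for any of them.)
-/

set_option autoImplicit false
set_option linter.unusedSectionVars false
set_option linter.style.haveILetI false

noncomputable section

namespace Fermat.Agent.S18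

open Polynomial IntermediateField

universe u

section IntLoc

variable {A : Type*} [CommRing A] [IsDomain A]
variable {F : Type u} [Field F] [Algebra A F]

/-- `A[t]_(p) ⊆` its integral closure. -/
theorem s18ta_loc_le_intLoc (t : F) (p : A[X]) (hp : Prime p) {x : F}
    (hx : x ∈ s18tLoc A t p hp) : x ∈ s18tIntLoc A t p hp :=
  (mem_s18tIntLoc A).mpr
    (isIntegral_algebraMap (R := ↥(s18tLoc A t p hp)) (A := F) (x := ⟨x, hx⟩))

/-- `A[t] ⊆ P`. -/
theorem s18ta_chart_le_int (t : F) {x : F} (hx : x ∈ s18tChart A t) : x ∈ s18tInt A t :=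
  (mem_s18tInt A).mpr
    (isIntegral_algebraMap (R := ↥(s18tChart A t)) (A := F) (x := ⟨x, hx⟩))

/-- `P ⊆ P_(p)` (integral over `A[t]` ⟹ integral over `A[t]_(p)`). -/
theorem s18ta_int_le_intLoc (t : F) (p : A[X]) (hp : Prime p) {x : F}
    (hx : x ∈ s18tInt A t) : x ∈ s18tIntLoc A t p hp := by
  letI : Algebra ↥(s18tChart A t) ↥(s18tLoc A t p hp) := (s18tbIncl t p hp).toAlgebra
  haveI : IsScalarTower ↥(s18tChart A t) ↥(s18tLoc A t p hp) F :=
    IsScalarTower.of_algebraMap_eq (fun _ => rfl)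
  exact (mem_s18tIntLoc A).mpr (IsIntegral.tower_top ((mem_s18tInt A).mp hx))

/-- (T0) integral closure commutes with localisation at a prime element `p` of `A[X]`. -/
theorem s18ta_intLoc_iff (p : A[X]) (hp : Prime p) (t : F) (y : F) :
    y ∈ s18tIntLoc A t p hp ↔
      ∃ b : A[X], ¬ (p ∣ b) ∧ aeval t b * y ∈ s18tInt A t := by
  by_cases h0 : ∀ b : A[X], ¬ p ∣ b → aeval t b ≠ 0
  · refine ⟨s18tb_exists_mul_mem_of_ne t p hp h0 y, ?_⟩
    rintro ⟨b, hb, hby⟩
    have hbt : aeval t b ≠ 0 := h0 b hb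
    have hinv : (aeval t b)⁻¹ ∈ s18tLoc A t p hp :=
      ⟨1, b, hb, by rw [inv_mul_cancel₀ hbt]; simp⟩
    have hy : y = (aeval t b)⁻¹ * (aeval t b * y) := by
      rw [← mul_assoc, inv_mul_cancel₀ hbt, one_mul]
    rw [hy]
    exact Subring.mul_mem _ (s18ta_loc_le_intLoc t p hp hinv) (s18ta_int_le_intLoc t p hp hby)
  · push Not at h0
    obtain ⟨b, hb, hbt⟩ := h0
    constructor
    · intro _
      exact ⟨b, hb, by rw [hbt, zero_mul]; exact Subring.zero_mem _⟩
    · intro _
      exact s18ta_loc_le_intLoc t p hp ⟨0, b, hb, by rw [hbt, mul_zero, map_zero]⟩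

end IntLoc

section Reflect

variable {A : Type*} [CommRing A] [IsDomain A]
variable {F : Type u} [Field F] [Algebra A F]

/-- A constant divides a polynomial iff it divides its reflection. -/
theorem s18ta_C_dvd_reflect_iff (c : A) (N : ℕ) (b : A[X]) : C c ∣ reflect N b ↔ C c ∣ b := by
  simp only [C_dvd_iff_dvd_coeff, coeff_reflect]
  constructor
  · intro h i
    have := h (revAt N i)
    rwa [revAt_invol] at this
  · intro h i
    exact h _

/-- Evaluation of the reflection. -/
theorem s18ta_aeval_reflect (t : F) (ht0 : t ≠ 0) (N : ℕ) (f : A[X]) (hf : f.natDegree ≤ N) :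
    aeval t (reflect N f) = aeval t⁻¹ f * t ^ N := by
  letI : Invertible t⁻¹ := invertibleOfNonzero (inv_ne_zero ht0)
  have h := eval₂_reflect_mul_pow (algebraMap A F) t⁻¹ N f hf
  rw [invOf_eq_inv, inv_inv] at h
  rw [aeval_def, aeval_def, ← h, mul_assoc, ← mul_pow, inv_mul_cancel₀ ht0, one_pow, mul_one]

theorem s18ta_loc_inv_le (c : A) (hp : Prime (C c : A[X])) (t : F) (ht0 : t ≠ 0) :
    s18tLoc A t⁻¹ (C c) hp ≤ s18tLoc A t (C c) hp := by
  rintro x ⟨a, b, hb, hx⟩
  set N := max a.natDegree b.natDegree with hN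
  refine ⟨reflect N a, reflect N b, fun h => hb ((s18ta_C_dvd_reflect_iff c N b).mp h), ?_⟩
  rw [s18ta_aeval_reflect t ht0 N b (le_max_right _ _),
    s18ta_aeval_reflect t ht0 N a (le_max_left _ _), ← mul_assoc, hx]

/-- (T0') the localisation of `A[t]` at a constant prime does not change under `t ↦ t⁻¹`. -/
theorem s18ta_loc_inv (c : A) (hp : Prime (C c : A[X])) (t : F) :
    s18tLoc A t⁻¹ (C c) hp = s18tLoc A t (C c) hp := by
  by_cases ht0 : t = 0
  · subst ht0
    simp only [inv_zero]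
  · apply le_antisymm (s18ta_loc_inv_le c hp t ht0)
    have := s18ta_loc_inv_le c hp t⁻¹ (inv_ne_zero ht0)
    rwa [inv_inv] at this

end Reflect

section SelfDual

variable {A : Type*} [CommRing A] [IsDomain A]
variable {L : Type*} [Field L]
variable {F : Type u} [Field F] [Algebra A F] [Algebra L F]

/-- The trace over an intermediate field only depends on the underlying set. -/
theorem s18ta_trace_congr {E₁ E₂ : IntermediateField L F} (h : E₁ = E₂) (z : F) :
    ((Algebra.trace E₁ F z : E₁) : F) = ((Algebra.trace E₂ F z : E₂) : F) := by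
  subst h
  rfl

theorem s18ta_adjoin_inv (t : F) : L⟮t⁻¹⟯ = L⟮t⟯ := by
  apply le_antisymm
  · rw [IntermediateField.adjoin_simple_le_iff]
    exact inv_mem (IntermediateField.mem_adjoin_simple_self L t)
  · rw [IntermediateField.adjoin_simple_le_iff]
    have := inv_mem (IntermediateField.mem_adjoin_simple_self L t⁻¹)
    simpa using this

/-- Self-duality only depends on the field `L(t)` and on the ring `A[t]_(p)`. -/
theorem s18ta_selfDual_congr {t t' : F} {p : A[X]} {hp : Prime p} (hE : L⟮t'⟯ = L⟮t⟯)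
    (hloc : s18tLoc A t' p hp = s18tLoc A t p hp)
    (hG : S18SelfDual A L t p hp) : S18SelfDual A L t' p hp := by
  have hint : s18tIntLoc A t' p hp = s18tIntLoc A t p hp := by
    unfold s18tIntLoc; rw [hloc]
  intro x hxy
  rw [hint]
  apply hG x
  intro y hy
  have := hxy y (hint ▸ hy)
  rw [hloc, s18ta_trace_congr hE] at this
  exact this

/-- (T0'') self-duality at a constant prime does not depend on the chart. -/
theorem s18ta_selfDual_inv (c : A) (hp : Prime (C c : A[X])) (t : F)
    (hG : S18SelfDual A L t (C c) hp) : S18SelfDual A L t⁻¹ (C c) hp :=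
  s18ta_selfDual_congr (s18ta_adjoin_inv t) (s18ta_loc_inv c hp t) hG

end SelfDual

section Global

variable {A : Type*} [CommRing A] [IsDomain A] [IsDiscreteValuationRing A]
variable {F : Type u} [Field F] [Algebra A F]
variable {ϖ : A}

/-- The ideal of the reductions `c̄` such that `c(t) e ∈ P + ϖ P_(ϖ)`. -/
def s18taIdeal (hp : Prime (C ϖ : A[X])) (t e : F) : Ideal (IsLocalRing.ResidueField A)[X] where
  carrier := {cbar | ∃ c : A[X], c.map (IsLocalRing.residue A) = cbar ∧
    ∃ q ∈ s18tInt A t, ∃ y ∈ s18tIntLoc A t (C ϖ) hp,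
      aeval t c * e - q = algebraMap A F ϖ * y}
  add_mem' := by
    rintro _ _ ⟨c₁, rfl, q₁, hq₁, y₁, hy₁, h₁⟩ ⟨c₂, rfl, q₂, hq₂, y₂, hy₂, h₂⟩
    refine ⟨c₁ + c₂, Polynomial.map_add _, q₁ + q₂, Subring.add_mem _ hq₁ hq₂, y₁ + y₂,
      Subring.add_mem _ hy₁ hy₂, ?_⟩
    rw [map_add, mul_add, ← h₁, ← h₂]; ring
  zero_mem' := ⟨0, Polynomial.map_zero _, 0, Subring.zero_mem _, 0, Subring.zero_mem _, by simp⟩
  smul_mem' := by
    rintro dbar _ ⟨c, rfl, q, hq, y, hy, h⟩
    obtain ⟨d, rfl⟩ := Polynomial.map_surjective (IsLocalRing.residue A)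
      IsLocalRing.residue_surjective dbar
    have hd : aeval t d ∈ s18tChart A t := s18tb_aeval_mem_chart t d
    refine ⟨d * c, by rw [Polynomial.map_mul, smul_eq_mul], aeval t d * q,
      Subring.mul_mem _ (s18ta_chart_le_int t hd) hq, aeval t d * y,
      Subring.mul_mem _ (s18ta_int_le_intLoc t _ hp (s18ta_chart_le_int t hd)) hy, ?_⟩
    rw [map_mul, mul_left_comm (algebraMap A F ϖ), ← h]; ring

/-- (T5) globalisation: local at every closed point of `Spec k₀[X]` ⟹ global. -/
theorem s18ta_global_of_local (hϖ : Irreducible ϖ) (hp : Prime (C ϖ : A[X])) (t : F)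
    (e : F) (he : e ∈ s18tIntLoc A t (C ϖ) hp)
    (hloc : ∀ γ : (IsLocalRing.ResidueField A)[X], Irreducible γ →
      ∃ c : A[X], ¬ γ ∣ c.map (IsLocalRing.residue A) ∧
        ∃ p ∈ s18tInt A t, ∃ y ∈ s18tIntLoc A t (C ϖ) hp,
          aeval t c * e - p = algebraMap A F ϖ * y) :
    ∃ p ∈ s18tInt A t, ∃ y ∈ s18tIntLoc A t (C ϖ) hp, e - p = algebraMap A F ϖ * y := by
  classical
  -- the ideal is the unit ideal
  have htop : s18taIdeal hp t e = ⊤ := by
    by_contra hne
    obtain ⟨M, hM, hIM⟩ := Ideal.exists_le_maximal _ hne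
    have hMbot : M ≠ ⊥ := Ring.ne_bot_of_isMaximal_of_not_isField hM (Polynomial.not_isField _)
    haveI := hM.isPrime
    have hγ : Prime (Submodule.IsPrincipal.generator M) :=
      Submodule.IsPrincipal.prime_generator_of_isPrime M hMbot
    obtain ⟨c, hc, q, hq, y, hy, h⟩ := hloc _ hγ.irreducible
    apply hc
    have hmem : c.map (IsLocalRing.residue A) ∈ M := hIM ⟨c, rfl, q, hq, y, hy, h⟩
    rw [← Ideal.span_singleton_generator M, Ideal.mem_span_singleton] at hmem
    exact hmem
  have h1 : (1 : (IsLocalRing.ResidueField A)[X]) ∈ s18taIdeal hp t e := by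
    rw [htop]; exact Submodule.mem_top
  obtain ⟨c, hc1, q, hq, y, hy, h⟩ := h1
  -- `c ≡ 1 mod ϖ`
  have hdvd : C ϖ ∣ c - 1 := by
    rw [C_dvd_iff_dvd_coeff]
    intro i
    have hi : (IsLocalRing.residue A) ((c - 1).coeff i) = 0 := by
      rw [← Polynomial.coeff_map, Polynomial.map_sub, hc1, Polynomial.map_one, sub_self, coeff_zero]
    rw [IsLocalRing.residue_eq_zero_iff, hϖ.maximalIdeal_eq, Ideal.mem_span_singleton] at hi
    exact hi
  obtain ⟨d, hd⟩ := hdvd
  have hct : aeval t c = 1 + algebraMap A F ϖ * aeval t d := by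
    have : c = 1 + C ϖ * d := by rw [← hd]; ring
    rw [this, map_add, map_one, map_mul, aeval_C]
  have hdI : aeval t d ∈ s18tIntLoc A t (C ϖ) hp :=
    s18ta_int_le_intLoc t _ hp (s18ta_chart_le_int t (s18tb_aeval_mem_chart t d))
  refine ⟨q, hq, y - aeval t d * e, Subring.sub_mem _ hy (Subring.mul_mem _ hdI he), ?_⟩
  rw [mul_sub, ← h, hct]; ring

end Global

end Fermat.Agent.S18
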