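import Mathlib

/-!
# S18, package T: T6 (gluing of idempotents, "formal functions" step)
-/

set_option autoImplicit false

namespace Fermat.Agent.S18

open Polynomial IntermediateField

/-! ### Idempotent lifting and uniqueness modulo powers of an element -/

/-- Newton iteration: an idempotent modulo `ϖ` lifts to an idempotent modulo `ϖ ^ (k+1)`. -/
theorem s18t_idem_lift {S : Type*} [CommRing S] (ϖ e : S) (h : ϖ ∣ e ^ 2 - e) (k : ℕ) :
    ∃ e' : S, ϖ ∣ e' - e ∧ ϖ ^ (k + 1) ∣ e' ^ 2 - e' := by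
  induction k with
  | zero => exact ⟨e, by simp, by simpa using h⟩
  | succ k ih =>
    obtain ⟨e', h1, y, hy⟩ := ih
    refine ⟨3 * e' ^ 2 - 2 * e' ^ 3, ?_, ?_⟩
    · have h3 : (3 * e' ^ 2 - 2 * e' ^ 3) - e = -(e' ^ 2 - e') * (2 * e' - 1) + (e' - e) := by ring
      rw [h3]
      refine dvd_add (Dvd.dvd.mul_right (Dvd.dvd.neg_right ?_) _) h1
      rw [hy]
      exact ⟨ϖ ^ k * y, by ring⟩
    · have h4 : (3 * e' ^ 2 - 2 * e' ^ 3) ^ 2 - (3 * e' ^ 2 - 2 * e' ^ 3) =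
          (e' ^ 2 - e') ^ 2 * (4 * e' ^ 2 - 4 * e' - 3) := by ring
      rw [h4, hy]
      exact ⟨ϖ ^ k * y ^ 2 * (4 * e' ^ 2 - 4 * e' - 3), by ring⟩

/-- Two idempotents modulo `ϖ ^ n` which are congruent modulo `ϖ` are congruent modulo `ϖ ^ n`. -/
theorem s18t_idem_unique {S : Type*} [CommRing S] (ϖ e f : S) (n : ℕ)
    (he : ϖ ^ n ∣ e ^ 2 - e) (hf : ϖ ^ n ∣ f ^ 2 - f) (hef : ϖ ∣ e - f) : ϖ ^ n ∣ e - f := by
  set u := e - f with hu
  have h3 : ϖ ^ n ∣ u ^ 3 - u := by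
    have : u ^ 3 - u = (e ^ 2 - e) * (1 + e - 3 * f) + (f ^ 2 - f) * (3 * e - 1 - f) := by
      rw [hu]; ring
    rw [this]
    exact dvd_add (he.mul_right _) (hf.mul_right _)
  have hpow : ∀ j : ℕ, ϖ ^ n ∣ u ^ (3 ^ j) - u := by
    intro j
    induction j with
    | zero => simp
    | succ j ih =>
      have : u ^ (3 ^ (j + 1)) - u = ((u ^ (3 ^ j)) ^ 3 - u ^ 3) + (u ^ 3 - u) := by
        rw [pow_succ, pow_mul]; ring
      rw [this]
      refine dvd_add ?_ h3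
      have : (u ^ (3 ^ j)) ^ 3 - u ^ 3 =
          (u ^ (3 ^ j) - u) * ((u ^ (3 ^ j)) ^ 2 + u ^ (3 ^ j) * u + u ^ 2) := by ring
      rw [this]
      exact ih.mul_right _
  have hbig : ϖ ^ n ∣ u ^ (3 ^ n) := by
    have h1 : ϖ ^ (3 ^ n) ∣ u ^ (3 ^ n) := pow_dvd_pow_of_dvd hef _
    exact (pow_dvd_pow ϖ (Nat.lt_pow_self (by norm_num : 1 < 3)).le).trans h1
  have := dvd_sub hbig (hpow n)
  simpa using this

/-! ### The gluing lemma -/

/-- (T6) Gluing: idempotents modulo `π` of `P` and `Q` which agree modulo `π` in `𝔅` come from a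
constant, when `P ∩ Q = A` and the `π`-power torsion of `𝔅/(P+Q)` is bounded. -/
theorem s18t_exists_const_of_idempotents
    {A 𝔅 : Type*} [CommRing A] [CommRing 𝔅] [Algebra A 𝔅] (π : A) (P Q : Subalgebra A 𝔅)
    (hPQ : ∀ x, x ∈ P → x ∈ Q → x ∈ (algebraMap A 𝔅).range)
    (N : ℕ)
    (hN : ∀ x : 𝔅, π ^ (N + 1) • x ∈ (Subalgebra.toSubmodule P ⊔ Subalgebra.toSubmodule Q) →
      π ^ N • x ∈ (Subalgebra.toSubmodule P ⊔ Subalgebra.toSubmodule Q))
    {p q : 𝔅} (hp : p ∈ P) (hq : q ∈ Q)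
    (hp2 : ∃ y ∈ P, p ^ 2 - p = π • y) (hq2 : ∃ y ∈ Q, q ^ 2 - q = π • y)
    (hpq : ∃ x : 𝔅, p - q = π • x) :
    ∃ c : A, (∃ y ∈ P, p - algebraMap A 𝔅 c = π • y) ∧
      (∃ y ∈ Q, q - algebraMap A 𝔅 c = π • y) := by
  -- a general transfer: lifting inside a subalgebra
  have lift : ∀ (T : Subalgebra A 𝔅) (t : 𝔅) (_ : t ∈ T) (_ : ∃ y ∈ T, t ^ 2 - t = π • y),
      ∃ t' ∈ T, (∃ w ∈ T, t' - t = π • w) ∧ (∃ w ∈ T, t' ^ 2 - t' = π ^ (N + 1) • w) := by
    intro T t ht ht2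
    obtain ⟨y, hy, hty⟩ := ht2
    have hdvd : (algebraMap A T π) ∣ (⟨t, ht⟩ : T) ^ 2 - ⟨t, ht⟩ := by
      refine ⟨⟨y, hy⟩, Subtype.ext ?_⟩
      simpa [Algebra.smul_def] using hty
    obtain ⟨t', ⟨w1, hw1⟩, ⟨w2, hw2⟩⟩ := s18t_idem_lift (algebraMap A T π) ⟨t, ht⟩ hdvd N
    refine ⟨t', t'.2, ⟨w1, w1.2, ?_⟩, ⟨w2, w2.2, ?_⟩⟩
    · have := congrArg (fun z : T => (z : 𝔅)) hw1
      simpa [Algebra.smul_def] using this
    · have := congrArg (fun z : T => (z : 𝔅)) hw2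
      simpa [Algebra.smul_def] using this
  obtain ⟨p', hp', ⟨wp, hwp, hwp'⟩, ⟨yp, hyp, hyp'⟩⟩ := lift P p hp hp2
  obtain ⟨q', hq', ⟨wq, hwq, hwq'⟩, ⟨yq, hyq, hyq'⟩⟩ := lift Q q hq hq2
  obtain ⟨x0, hx0⟩ := hpq
  set ϖ : 𝔅 := algebraMap A 𝔅 π with hϖ
  have hsm : ∀ (k : ℕ) (z : 𝔅), π ^ k • z = ϖ ^ k * z := by
    intro k z; rw [Algebra.smul_def, map_pow]
  have hsm1 : ∀ z : 𝔅, π • z = ϖ * z := fun z => by rw [Algebra.smul_def]
  -- congruence modulo `ϖ ^ (N+1)`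
  have hcong : ϖ ^ (N + 1) ∣ p' - q' := by
    apply s18t_idem_unique
    · exact ⟨yp, by rw [hyp', hsm]⟩
    · exact ⟨yq, by rw [hyq', hsm]⟩
    · refine ⟨wp + x0 - wq, ?_⟩
      have : p' - q' = (p' - p) + (p - q) - (q' - q) := by ring
      rw [this, hwp', hx0, hwq', hsm1, hsm1, hsm1]; ring
  obtain ⟨x, hx⟩ := hcong
  have hmem : π ^ (N + 1) • x ∈ (Subalgebra.toSubmodule P ⊔ Subalgebra.toSubmodule Q) := by
    rw [hsm, ← hx, sub_eq_add_neg]
    exact Submodule.add_mem_sup hp' (Q.neg_mem hq')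
  obtain ⟨y, hy, z, hz, hyz⟩ := Submodule.mem_sup.mp (hN x hmem)
  have hy' : y ∈ P := hy
  have hz' : z ∈ Q := hz
  have hkey : p' - π • y = q' + π • z := by
    have h1 : p' - q' = π • y + π • z := by
      rw [hx, ← smul_add, hyz, hsm1, hsm, pow_succ']; ring
    have : p' - π • y = q' + (p' - q' - π • y) := by ring
    rw [this, h1]; ring
  have hcP : p' - π • y ∈ P := P.sub_mem hp' (P.smul_mem hy' π)
  have hcQ : p' - π • y ∈ Q := by
    rw [hkey]; exact Q.add_mem hq' (Q.smul_mem hz' π)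
  obtain ⟨c, hc⟩ := hPQ _ hcP hcQ
  refine ⟨c, ⟨y - wp, P.sub_mem hy' hwp, ?_⟩, ⟨-z - wq, Q.sub_mem (Q.neg_mem hz') hwq, ?_⟩⟩
  · rw [hc, smul_sub, ← hwp']; ring
  · rw [hc, hkey, smul_sub, ← hwq', smul_neg]; ring

/-- (T6') Consequence: the idempotent is trivial when `π` is prime in `A` and `A/π → P/πP` is
injective. -/
theorem s18t_idempotent_trivial
    {A 𝔅 : Type*} [CommRing A] [CommRing 𝔅] [Algebra A 𝔅] {π : A} (hπ : Prime π)
    (P Q : Subalgebra A 𝔅)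
    (hPQ : ∀ x, x ∈ P → x ∈ Q → x ∈ (algebraMap A 𝔅).range)
    (hA : ∀ a : A, (∃ y ∈ P, algebraMap A 𝔅 a = π • y) → π ∣ a)
    (N : ℕ)
    (hN : ∀ x : 𝔅, π ^ (N + 1) • x ∈ (Subalgebra.toSubmodule P ⊔ Subalgebra.toSubmodule Q) →
      π ^ N • x ∈ (Subalgebra.toSubmodule P ⊔ Subalgebra.toSubmodule Q))
    {p q : 𝔅} (hp : p ∈ P) (hq : q ∈ Q)
    (hp2 : ∃ y ∈ P, p ^ 2 - p = π • y) (hq2 : ∃ y ∈ Q, q ^ 2 - q = π • y)
    (hpq : ∃ x : 𝔅, p - q = π • x) :
    (∃ y ∈ P, p = π • y) ∨ (∃ y ∈ P, p - 1 = π • y) := by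
  obtain ⟨c, ⟨y, hy, hcy⟩, -⟩ :=
    s18t_exists_const_of_idempotents π P Q hPQ N hN hp hq hp2 hq2 hpq
  obtain ⟨y2, hy2, hpy2⟩ := hp2
  -- `c ^ 2 - c ∈ π P`
  have hcc : π ∣ c ^ 2 - c := by
    apply hA
    set C : 𝔅 := algebraMap A 𝔅 c with hC
    have hCP : C ∈ P := P.algebraMap_mem c
    have hpC : p = C + π • y := by rw [← hcy]; ring
    refine ⟨y2 - (C + C - 1) * y - π • (y * y), ?_, ?_⟩
    · refine P.sub_mem (P.sub_mem hy2 ?_) (P.smul_mem (P.mul_mem hy hy) π)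
      exact P.mul_mem (P.sub_mem (P.add_mem hCP hCP) P.one_mem) hy
    · have h1 : C ^ 2 - C = (p ^ 2 - p) - (C + C - 1) * (π • y) - (π • y) * (π • y) := by
        rw [hpC]; ring
      rw [map_sub, map_pow, ← hC, h1, hpy2]
      simp only [Algebra.smul_def]
      ring
  have hfac : c ^ 2 - c = c * (c - 1) := by ring
  rw [hfac] at hcc
  rcases hπ.dvd_or_dvd hcc with ⟨a, ha⟩ | ⟨a, ha⟩
  · left
    refine ⟨algebraMap A 𝔅 a + y, P.add_mem (P.algebraMap_mem a) hy, ?_⟩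
    have : p = algebraMap A 𝔅 c + π • y := by rw [← hcy]; ring
    rw [this, ha, map_mul, smul_add, Algebra.smul_def π (algebraMap A 𝔅 a)]
  · right
    refine ⟨algebraMap A 𝔅 a + y, P.add_mem (P.algebraMap_mem a) hy, ?_⟩
    have h1 : p - 1 = algebraMap A 𝔅 (c - 1) + π • y := by
      rw [map_sub, map_one, ← hcy]; ring
    rw [h1, ha, map_mul, smul_add, Algebra.smul_def π (algebraMap A 𝔅 a)]

/-! ### Auxiliary inputs of the gluing lemma -/

/-- (T6a) Bounded `π`-power torsion in a finite module over a Noetherian ring. -/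
theorem s18t_exists_pow_torsion_bound
    {A H : Type*} [CommRing A] [IsNoetherianRing A] [AddCommGroup H] [Module A H]
    [Module.Finite A H] (π : A) :
    ∃ N : ℕ, ∀ x : H, (∃ k : ℕ, π ^ k • x = 0) → π ^ N • x = 0 := by
  have hnoeth : IsNoetherian A H := isNoetherian_of_isNoetherianRing_of_finite A H
  let f : ℕ →o Submodule A H :=
    ⟨fun k => Submodule.torsionBy A H (π ^ k), fun a b hab =>
      Submodule.torsionBy_le_torsionBy_of_dvd _ _ (pow_dvd_pow π hab)⟩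
  obtain ⟨N, hN⟩ := monotone_stabilizes_iff_noetherian.mpr hnoeth f
  refine ⟨N, ?_⟩
  rintro x ⟨k, hk⟩
  have h1 : x ∈ f (max k N) := by
    have : x ∈ f k := (Submodule.mem_torsionBy_iff _ _).mpr hk
    exact f.monotone (le_max_left k N) this
  rw [← hN (max k N) (le_max_right k N)] at h1
  exact (Submodule.mem_torsionBy_iff _ _).mp h1

/-- (T6c-1) An element integral over two integrally closed domains `R₁`, `R₂` with the same
fraction field `K` is integral over `A₀` as soon as `R₁ ∩ R₂ = A₀` inside `K`. -/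
theorem s18t_isIntegral_of_isIntegral_both
    {A₀ R₁ R₂ K F : Type*} [CommRing A₀] [CommRing R₁] [CommRing R₂] [IsDomain R₁] [IsDomain R₂]
    [IsIntegrallyClosed R₁] [IsIntegrallyClosed R₂] [Field K]
    [Algebra R₁ K] [Algebra R₂ K] [IsFractionRing R₁ K] [IsFractionRing R₂ K] [Algebra A₀ K]
    [Field F] [Algebra K F] [Algebra R₁ F] [Algebra R₂ F] [Algebra A₀ F]
    [IsScalarTower R₁ K F] [IsScalarTower R₂ K F] [IsScalarTower A₀ K F]
    (hint : ∀ u : K, u ∈ (algebraMap R₁ K).range → u ∈ (algebraMap R₂ K).range →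
      u ∈ (algebraMap A₀ K).range)
    (x : F) (h1 : IsIntegral R₁ x) (h2 : IsIntegral R₂ x) : IsIntegral A₀ x := by
  have e1 := minpoly.isIntegrallyClosed_eq_field_fractions' K h1
  have e2 := minpoly.isIntegrallyClosed_eq_field_fractions' K h2
  have hxK : IsIntegral K x := h1.tower_top
  have hlifts : minpoly K x ∈ Polynomial.lifts (algebraMap A₀ K) := by
    rw [Polynomial.lifts_iff_coeff_lifts]
    intro i
    refine hint _ ⟨(minpoly R₁ x).coeff i, ?_⟩ ⟨(minpoly R₂ x).coeff i, ?_⟩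
    · rw [e1, coeff_map]
    · rw [e2, coeff_map]
  obtain ⟨q, hq, -, hqm⟩ :=
    Polynomial.lifts_and_natDegree_eq_and_monic hlifts (minpoly.monic hxK)
  refine ⟨q, hqm, ?_⟩
  rw [← aeval_def, ← aeval_map_algebraMap K, hq, minpoly.aeval]

/-- (T6c-2) `A₀[t] ∩ A₀[t⁻¹] = A₀` for `t` transcendental over the domain `A₀`. -/
theorem s18t_mem_range_of_aeval_eq_aeval_inv
    {A₀ K : Type*} [CommRing A₀] [IsDomain A₀] [Field K] [Algebra A₀ K]
    (t : K) (ht : Transcendental A₀ t) (f g : A₀[X])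
    (h : aeval t f = aeval t⁻¹ g) : aeval t f ∈ (algebraMap A₀ K).range := by
  have ht0 : t ≠ 0 := by
    rintro rfl
    exact ht ⟨X, X_ne_zero, by simp⟩
  set m := g.natDegree with hm
  have h1 : aeval t (X ^ m * f) = aeval t (g.reflect m) := by
    let _ : Invertible (t⁻¹) := invertibleOfNonzero (inv_ne_zero ht0)
    have h2 := eval₂_reflect_mul_pow (algebraMap A₀ K) (t⁻¹) m g le_rfl
    rw [invOf_eq_inv, inv_inv] at h2
    rw [map_mul, map_pow, aeval_X, h, aeval_def, aeval_def, ← h2, inv_pow]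
    field_simp
  have hinj := transcendental_iff_injective.mp ht
  have h3 : X ^ m * f = g.reflect m := hinj h1
  by_cases hf : f = 0
  · exact ⟨0, by simp [hf]⟩
  have hdeg : (g.reflect m).natDegree ≤ m :=
    (Polynomial.natDegree_reflect_le).trans (by simp [hm])
  have hdeg2 : (X ^ m * f).natDegree = m + f.natDegree := by
    rw [natDegree_mul (pow_ne_zero _ X_ne_zero) hf, natDegree_X_pow]
  rw [← h3, hdeg2] at hdeg
  have hf0 : f.natDegree = 0 := by omega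
  obtain ⟨a, ha⟩ := natDegree_eq_zero.mp hf0
  exact ⟨a, by rw [← ha, aeval_C]⟩

/-- (T6c-3) An element integral over `A₀` lies in `A₀` when `A₀` is integrally closed and its
fraction field is algebraically closed in `F`. -/
theorem s18t_mem_range_of_isIntegral_of_algClosed
    {A₀ L₀ F : Type*} [CommRing A₀] [IsDomain A₀] [IsIntegrallyClosed A₀]
    [Field L₀] [Algebra A₀ L₀] [IsFractionRing A₀ L₀]
    [Field F] [Algebra L₀ F] [Algebra A₀ F] [IsScalarTower A₀ L₀ F]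
    (hcl : ∀ x : F, IsAlgebraic L₀ x → x ∈ (algebraMap L₀ F).range)
    (x : F) (hx : IsIntegral A₀ x) : x ∈ (algebraMap A₀ F).range := by
  have halg : IsAlgebraic L₀ x := (hx.tower_top (A := L₀)).isAlgebraic
  obtain ⟨y, rfl⟩ := hcl x halg
  have hy : IsIntegral A₀ y :=
    (isIntegral_algebraMap_iff (algebraMap L₀ F).injective).mp hx
  obtain ⟨a, rfl⟩ := (IsIntegrallyClosed.isIntegral_iff (K := L₀)).mp hy
  exact ⟨a, (IsScalarTower.algebraMap_apply A₀ L₀ F a)⟩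

/-- (T6b) `𝔅/(P+Q)` is a finite `A`-module: `t` a unit of `𝔅`, `t ∈ P`, `t⁻¹ ∈ Q`, `Q` finite over
`A[t⁻¹]`, `𝔅 = P[1/t] = Q[t]`. -/
theorem s18t_quotient_sup_finite
    {A 𝔅 : Type*} [CommRing A] [CommRing 𝔅] [Algebra A 𝔅] (P Q : Subalgebra A 𝔅) (t : 𝔅ˣ)
    (htP : (t : 𝔅) ∈ P) (htQ : ((t⁻¹ : 𝔅ˣ) : 𝔅) ∈ Q)
    (hQfg : ∃ s : Finset 𝔅, (∀ x ∈ s, x ∈ Q) ∧
      ∀ x ∈ Q, x ∈ Submodule.span (Algebra.adjoin A {((t⁻¹ : 𝔅ˣ) : 𝔅)}) (s : Set 𝔅))
    (hQ : ∀ x : 𝔅, ∃ k : ℕ, ((t⁻¹ : 𝔅ˣ) : 𝔅) ^ k * x ∈ Q)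
    (hP : ∀ x : 𝔅, ∃ k : ℕ, (t : 𝔅) ^ k * x ∈ P) :
    Module.Finite A (𝔅 ⧸ (Subalgebra.toSubmodule P ⊔ Subalgebra.toSubmodule Q)) := by
  classical
  obtain ⟨s, hsQ, hspan⟩ := hQfg
  set τ : 𝔅 := (t : 𝔅) with hτ
  set τ' : 𝔅 := ((t⁻¹ : 𝔅ˣ) : 𝔅) with hτ'
  have hττ' : τ * τ' = 1 := by rw [hτ, hτ', ← Units.val_mul, mul_inv_cancel, Units.val_one]
  -- uniform exponent
  choose d hd using hP
  set d0 : ℕ := s.sup d with hd0
  have hbig : ∀ q ∈ s, ∀ k, d0 ≤ k → τ ^ k * q ∈ P := by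
    intro q hq k hk
    have hdq : d q ≤ k := (Finset.le_sup hq).trans hk
    have : τ ^ k * q = τ ^ (k - d q) * (τ ^ d q * q) := by
      rw [← mul_assoc, ← pow_add, Nat.sub_add_cancel hdq]
    rw [this]
    exact P.mul_mem (P.pow_mem htP _) (hd q)
  -- the generating set
  set G : Finset 𝔅 := (s ×ˢ Finset.range d0).image (fun z => τ ^ z.2 * z.1) with hG
  set W : Submodule A 𝔅 :=
    (Subalgebra.toSubmodule P ⊔ Subalgebra.toSubmodule Q) ⊔ Submodule.span A (G : Set 𝔅) with hW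
  have hPW : ∀ x ∈ P, x ∈ W := fun x hx =>
    Submodule.mem_sup_left (Submodule.mem_sup_left hx)
  have hQW : ∀ x ∈ Q, x ∈ W := fun x hx =>
    Submodule.mem_sup_left (Submodule.mem_sup_right hx)
  -- the auxiliary `A`-submodule of good elements of `Q`
  let 𝒬 : Submodule A 𝔅 :=
    { carrier := {y | y ∈ Q ∧ ∀ k : ℕ, τ ^ k * y ∈ W}
      add_mem' := by
        rintro a b ⟨ha, ha'⟩ ⟨hb, hb'⟩
        exact ⟨Q.add_mem ha hb, fun k => by rw [mul_add]; exact W.add_mem (ha' k) (hb' k)⟩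
      zero_mem' := ⟨Q.zero_mem, fun k => by rw [mul_zero]; exact W.zero_mem⟩
      smul_mem' := by
        rintro c a ⟨ha, ha'⟩
        exact ⟨Q.smul_mem ha c, fun k => by rw [mul_smul_comm]; exact W.smul_mem c (ha' k)⟩ }
  have h𝒬mem : ∀ y, y ∈ 𝒬 ↔ (y ∈ Q ∧ ∀ k : ℕ, τ ^ k * y ∈ W) := fun y => Iff.rfl
  have hs𝒬 : ∀ q ∈ s, q ∈ 𝒬 := by
    intro q hq
    refine ⟨hsQ q hq, fun k => ?_⟩
    by_cases hk : k < d0
    · refine Submodule.mem_sup_right (Submodule.subset_span ?_)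
      rw [hG, Finset.coe_image]
      exact ⟨(q, k), by simp [hq, hk], rfl⟩
    · exact hPW _ (hbig q hq k (not_lt.mp hk))
  have hτ'𝒬 : ∀ y ∈ 𝒬, τ' * y ∈ 𝒬 := by
    rintro y ⟨hy, hy'⟩
    refine ⟨Q.mul_mem htQ hy, fun k => ?_⟩
    rcases k with _ | k
    · rw [pow_zero, one_mul]; exact hQW _ (Q.mul_mem htQ hy)
    · have : τ ^ (k + 1) * (τ' * y) = τ ^ k * y := by
        rw [pow_succ, mul_assoc, ← mul_assoc τ τ' y, hττ', one_mul]
      rw [this]; exact hy' k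
  have hτ'pow𝒬 : ∀ (i : ℕ) (y : 𝔅), y ∈ 𝒬 → τ' ^ i * y ∈ 𝒬 := by
    intro i
    induction i with
    | zero => intro y hy; rwa [pow_zero, one_mul]
    | succ i ih =>
      intro y hy
      rw [pow_succ, mul_assoc]
      exact ih _ (hτ'𝒬 y hy)
  have hQ𝒬 : ∀ y ∈ Q, y ∈ 𝒬 := by
    intro y hy
    have := hspan y hy
    clear hy
    induction this using Submodule.span_induction with
    | mem x hx => exact hs𝒬 x hx
    | zero => exact 𝒬.zero_mem
    | add a b _ _ ha hb => exact 𝒬.add_mem ha hb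
    | smul a' x _ hx =>
      obtain ⟨a', ha'⟩ := a'
      rw [Algebra.adjoin_singleton_eq_range_aeval] at ha'
      obtain ⟨f, rfl⟩ := ha'
      change (aeval τ' f) * x ∈ 𝒬
      rw [aeval_eq_sum_range, Finset.sum_mul]
      refine 𝒬.sum_mem fun i _ => ?_
      rw [smul_mul_assoc]
      exact 𝒬.smul_mem _ (hτ'pow𝒬 i x hx)
  have hWtop : W = ⊤ := by
    rw [eq_top_iff]
    intro x _
    obtain ⟨k, hk⟩ := hQ x
    have h1 := (hQ𝒬 _ hk).2 k
    have : τ ^ k * (τ' ^ k * x) = x := by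
      rw [← mul_assoc, ← mul_pow, hττ', one_pow, one_mul]
    rwa [this] at h1
  -- conclude
  refine ⟨⟨G.image (Submodule.mkQ _), ?_⟩⟩
  rw [Finset.coe_image, ← Submodule.map_span, Submodule.map_mkQ_eq_top]
  exact hWtop

/-! ### `P ∩ Q = A₀`, concrete form -/

theorem s18t_adjoin_le_adjoin_field
    {A₀ L₀ F : Type*} [CommRing A₀] [Field L₀] [Algebra A₀ L₀]
    [Field F] [Algebra L₀ F] [Algebra A₀ F] [IsScalarTower A₀ L₀ F] (u : F) :
    (Algebra.adjoin A₀ {u}).toSubring ≤ (Algebra.adjoin L₀ {u}).toSubring := by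
  intro z hz
  have hz' : z ∈ Algebra.adjoin A₀ {u} := hz
  change z ∈ Algebra.adjoin L₀ {u}
  rw [Algebra.adjoin_singleton_eq_range_aeval] at hz' ⊢
  obtain ⟨f, rfl⟩ := hz'
  exact ⟨f.map (algebraMap A₀ L₀), by simp [aeval_map_algebraMap]⟩

/-- Integrality over `A₀[u]` implies integrality over `L₀[u]`. -/
theorem s18t_isIntegral_adjoin_field
    {A₀ L₀ F : Type*} [CommRing A₀] [Field L₀] [Algebra A₀ L₀]
    [Field F] [Algebra L₀ F] [Algebra A₀ F] [IsScalarTower A₀ L₀ F]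
    (u x : F) (h : IsIntegral (Algebra.adjoin A₀ {u}) x) :
    IsIntegral (Algebra.adjoin L₀ {u}) x := by
  obtain ⟨p, hpm, hpe⟩ := h
  let ι : ↥(Algebra.adjoin A₀ {u}) →+* ↥(Algebra.adjoin L₀ {u}) :=
    Subring.inclusion (s18t_adjoin_le_adjoin_field (A₀ := A₀) (L₀ := L₀) u)
  refine ⟨p.map ι, hpm.map ι, ?_⟩
  rw [eval₂_map]
  exact hpe

/-- Minimal polynomials over equal intermediate fields agree after mapping to the top field. -/
theorem s18t_minpoly_map_congr {L₀ F : Type*} [Field L₀] [Field F] [Algebra L₀ F]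
    (E₁ E₂ : IntermediateField L₀ F) (h : E₁ = E₂) (x : F) :
    (minpoly E₁ x).map (algebraMap E₁ F) = (minpoly E₂ x).map (algebraMap E₂ F) := by
  subst h; rfl

open scoped IntermediateField.algebraAdjoinAdjoin in
/-- The coefficients of the minimal polynomial over `L₀(u)` of an element integral over `L₀[u]`
lie in `L₀[u]`. -/
theorem s18t_coeff_minpoly_mem_adjoin
    {L₀ F : Type*} [Field L₀] [Field F] [Algebra L₀ F]
    (u : F) (hu : Transcendental L₀ u) (x : F) (h : IsIntegral (Algebra.adjoin L₀ {u}) x) (i : ℕ) :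
    ((minpoly L₀⟮u⟯ x).map (algebraMap L₀⟮u⟯ F)).coeff i ∈ Algebra.adjoin L₀ {u} := by
  let e : L₀[X] ≃ₐ[L₀] ↥(Algebra.adjoin L₀ {u}) := algEquivOfTranscendental L₀ u hu
  have : IsIntegrallyClosed ↥(Algebra.adjoin L₀ {u}) := IsIntegrallyClosed.of_equiv e.toRingEquiv
  have e1 := minpoly.isIntegrallyClosed_eq_field_fractions' L₀⟮u⟯ h
  rw [e1, coeff_map, coeff_map]
  exact ((minpoly (↥(Algebra.adjoin L₀ {u})) x).coeff i).2

open scoped IntermediateField.algebraAdjoinAdjoin in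
/-- (T6c) An element integral over `A₀[t]` and over `A₀[t⁻¹]` is a constant of `A₀`
(`A₀` integrally closed, `t` transcendental, `Frac A₀` algebraically closed in `F`). -/
theorem s18t_mem_range_of_isIntegral_adjoin_both
    {A₀ L₀ F : Type*} [CommRing A₀] [IsDomain A₀] [IsIntegrallyClosed A₀]
    [Field L₀] [Algebra A₀ L₀] [IsFractionRing A₀ L₀]
    [Field F] [Algebra L₀ F] [Algebra A₀ F] [IsScalarTower A₀ L₀ F]
    (t : F) (ht : Transcendental L₀ t)
    (hcl : ∀ x : F, IsAlgebraic L₀ x → x ∈ (algebraMap L₀ F).range)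
    (x : F) (h1 : IsIntegral (Algebra.adjoin A₀ {t}) x)
    (h2 : IsIntegral (Algebra.adjoin A₀ {t⁻¹}) x) :
    x ∈ (algebraMap A₀ F).range := by
  have ht' : Transcendental L₀ t⁻¹ := fun h => ht (by simpa using h.inv)
  have hEq : L₀⟮t⁻¹⟯ = L₀⟮t⟯ := by
    apply le_antisymm
    · rw [IntermediateField.adjoin_simple_le_iff]
      exact inv_mem (IntermediateField.mem_adjoin_simple_self L₀ t)
    · rw [IntermediateField.adjoin_simple_le_iff]
      have := inv_mem (IntermediateField.mem_adjoin_simple_self L₀ t⁻¹)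
      simpa using this
  have h1' := s18t_isIntegral_adjoin_field (L₀ := L₀) t x h1
  have h2' := s18t_isIntegral_adjoin_field (L₀ := L₀) t⁻¹ x h2
  set M : F[X] := (minpoly L₀⟮t⟯ x).map (algebraMap L₀⟮t⟯ F) with hM
  have hxK : IsIntegral L₀⟮t⟯ x := by
    obtain ⟨p, hpm, hpe⟩ := h1'
    refine ⟨p.map (algebraMap _ L₀⟮t⟯), hpm.map _, ?_⟩
    rw [eval₂_map]
    exact hpe
  -- coefficients are constants
  have hcoeff : ∀ i, M.coeff i ∈ (algebraMap L₀ F).range := by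
    intro i
    have c1 := s18t_coeff_minpoly_mem_adjoin t ht x h1' i
    have c2 := s18t_coeff_minpoly_mem_adjoin t⁻¹ ht' x h2' i
    rw [s18t_minpoly_map_congr _ _ hEq x, ← hM] at c2
    rw [← hM] at c1
    rw [Algebra.adjoin_singleton_eq_range_aeval] at c1 c2
    obtain ⟨f, hf⟩ := c1
    obtain ⟨g, hg⟩ := c2
    have := s18t_mem_range_of_aeval_eq_aeval_inv t ht f g
      (by rw [show (aeval t) f = M.coeff i from hf, show (aeval t⁻¹) g = M.coeff i from hg])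
    rw [show (aeval t) f = M.coeff i from hf] at this
    exact this
  have hlifts : M ∈ Polynomial.lifts (algebraMap L₀ F) := by
    rw [Polynomial.lifts_iff_coeff_lifts]; exact hcoeff
  have hMm : M.Monic := (minpoly.monic hxK).map _
  obtain ⟨q, hq, -, hqm⟩ := Polynomial.lifts_and_natDegree_eq_and_monic hlifts hMm
  have hMx : aeval x M = 0 := by
    rw [hM, aeval_map_algebraMap, minpoly.aeval]
  have hxL : IsIntegral L₀ x := by
    refine ⟨q, hqm, ?_⟩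
    rw [← aeval_def, ← aeval_map_algebraMap F, hq]
    simpa using hMx
  obtain ⟨y, rfl⟩ := hcl x hxL.isAlgebraic
  -- now `y ∈ A₀`
  have htA : Transcendental A₀ t := ht.restrictScalars (IsFractionRing.injective A₀ L₀)
  let e : A₀[X] ≃ₐ[A₀] ↥(Algebra.adjoin A₀ {t}) := algEquivOfTranscendental A₀ t htA
  have hic : IsIntegrallyClosed ↥(Algebra.adjoin A₀ {t}) :=
    IsIntegrallyClosed.of_equiv e.toRingEquiv
  obtain ⟨a, b, hb, hab⟩ := IsFractionRing.div_surjective (A := A₀) y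
  have hb0 : b ≠ 0 := nonZeroDivisors.ne_zero hb
  have hbL : algebraMap A₀ L₀ b ≠ 0 := fun h =>
    hb0 (IsFractionRing.injective A₀ L₀ (by rw [h, map_zero]))
  have hby : algebraMap A₀ L₀ b * y = algebraMap A₀ L₀ a := by
    rw [← hab]; field_simp
  set R₁ := ↥(Algebra.adjoin A₀ {t}) with hR₁
  have htf : Module.IsTorsionFree R₁ F := by
    rw [Module.isTorsionFree_iff_algebraMap_injective]
    exact Subtype.val_injective
  set p : R₁[X] := C (algebraMap A₀ R₁ b) * X - C (algebraMap A₀ R₁ a) with hp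
  have hpx : aeval (algebraMap L₀ F y) p = 0 := by
    rw [hp, map_sub, map_mul, aeval_C, aeval_C, aeval_X,
      ← IsScalarTower.algebraMap_apply A₀ R₁ F, ← IsScalarTower.algebraMap_apply A₀ R₁ F,
      IsScalarTower.algebraMap_apply A₀ L₀ F, IsScalarTower.algebraMap_apply A₀ L₀ F, ← map_mul,
      hby, sub_self]
  have hdvd := minpoly.isIntegrallyClosed_dvd h1 hpx
  have hbR : algebraMap A₀ R₁ b ≠ 0 := by
    intro h
    have h' := congrArg (algebraMap R₁ F) h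
    rw [← IsScalarTower.algebraMap_apply, map_zero, IsScalarTower.algebraMap_apply A₀ L₀ F] at h'
    exact hbL ((algebraMap L₀ F).injective (by rw [h', map_zero]))
  have hpdeg : p.natDegree = 1 := by
    rw [hp, natDegree_sub_C, natDegree_C_mul_X _ hbR]
  have hp0 : p ≠ 0 := fun h => by rw [h, natDegree_zero] at hpdeg; exact zero_ne_one hpdeg
  have hle : (minpoly R₁ (algebraMap L₀ F y)).natDegree ≤ 1 :=
    hpdeg ▸ natDegree_le_of_dvd hdvd hp0
  have hge := minpoly.natDegree_pos h1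
  have hone : (minpoly R₁ (algebraMap L₀ F y)).natDegree = 1 := le_antisymm hle hge
  obtain ⟨r, hr⟩ := minpoly.natDegree_eq_one_iff.mp hone
  -- `r = f(t)` with `f` constant
  obtain ⟨f, hf⟩ := e.surjective r
  have hcoe : ((e f : R₁) : F) = aeval t f :=
    aeval_subalgebra_coe f (Algebra.adjoin A₀ {t}) ⟨t, Algebra.self_mem_adjoin_singleton A₀ t⟩
  have hfy : aeval t (f.map (algebraMap A₀ L₀)) = aeval t (C y : L₀[X]) := by
    rw [aeval_map_algebraMap, aeval_C, ← hr, ← hf]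
    exact hcoe.symm
  have hfC : f.map (algebraMap A₀ L₀) = C y := transcendental_iff_injective.mp ht hfy
  have hy0 : y = algebraMap A₀ L₀ (f.coeff 0) := by
    have := congrArg (fun g => g.coeff 0) hfC
    simpa using this.symm
  exact ⟨f.coeff 0, by rw [hy0, ← IsScalarTower.algebraMap_apply]⟩

end Fermat.Agent.S18
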