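import Mathlib
import Fermat.Agent.S18.T.Defs
import Fermat.Agent.S18.T.Saturated
import Fermat.Agent.S18.T.Glue

/-!
# S18, package T, leaf T-c (row 341): the elementary "theorem on formal functions" (T6)

`s18tc_formal` : the statement `s18t_formal` of `S18/T/Spec.lean` for an ARBITRARY proof `hp` of
`Prime (C ϖ)`, hypotheses in unfolded form;
`s18t_formal hϖ t ht hL p q hp hq hpq hpp := s18tc_formal (s18t_prime_C hϖ) t ht hL p q hp hq hpq hpp`.

Bridge between the concrete setting (`P = s18tInt A t`, `Q = s18tInt A t⁻¹` inside `F`) and the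
abstract T6 leaves of `S18/T/Glue.lean` (helper3), applied to `𝔅 = P[1/t] = Q[t]`.
-/

set_option autoImplicit false
set_option linter.unusedSectionVars false
set_option linter.style.haveILetI false

noncomputable section

namespace Fermat.Agent.S18

open Polynomial IntermediateField

universe u

variable {A : Type*} [CommRing A] [IsDomain A] [IsDiscreteValuationRing A] [CharZero A]
variable {L : Type*} [Field L] [Algebra A L] [IsFractionRing A L]
variable {F : Type u} [Field F] [Algebra A F] [Algebra L F] [IsScalarTower A L F]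
variable {ϖ : A}

/-! ### Changing the chart `t ↔ t⁻¹` -/

/-- `(t⁻¹)^N f(t) ∈ A[t⁻¹]` for `N ≥ deg f`. -/
theorem s18tc_inv_pow_mul_aeval_mem (t : F) (ht0 : t ≠ 0) (f : A[X]) (N : ℕ)
    (hN : f.natDegree ≤ N) : (t⁻¹) ^ N * aeval t f ∈ s18tChart A t⁻¹ := by
  haveI : Invertible t := invertibleOfNonzero ht0
  have h := eval₂_reflect_mul_pow (algebraMap A F) t N f hN
  have h1 : (t⁻¹) ^ N * aeval t f = aeval t⁻¹ (reflect N f) := by
    rw [aeval_def, ← h, aeval_def, invOf_eq_inv, mul_comm, mul_assoc, ← mul_pow,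
      mul_inv_cancel₀ ht0, one_pow, mul_one]
  rw [h1]
  exact s18tb_aeval_mem_chart t⁻¹ _

/-- `x ∈ P ⟹ t⁻ᵏ x ∈ Q` for some `k`. -/
theorem s18tc_exists_inv_pow_mul_mem (t : F) (ht0 : t ≠ 0) {x : F} (hx : x ∈ s18tInt A t) :
    ∃ k : ℕ, (t⁻¹) ^ k * x ∈ s18tInt A t⁻¹ := by
  classical
  rw [mem_s18tInt] at hx
  obtain ⟨f, hfm, hfx⟩ := hx
  have hc : ∀ i, ∃ g : A[X], aeval t g = ((f.coeff i : ↥(s18tChart A t)) : F) := fun i =>
    Algebra.adjoin_mem_exists_aeval A t (f.coeff i).2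
  choose g hg using hc
  set n := f.natDegree with hn
  set k := (Finset.range n).sup (fun i => (g i).natDegree) with hk
  refine ⟨k, ?_⟩
  rw [mem_s18tInt]
  have hb : ∀ i, i < n →
      (t⁻¹) ^ (k * (n - i)) * ((f.coeff i : ↥(s18tChart A t)) : F) ∈ s18tChart A t⁻¹ := by
    intro i hi
    rw [← hg i]
    refine s18tc_inv_pow_mul_aeval_mem t ht0 (g i) _ ?_
    have h1 : (g i).natDegree ≤ k :=
      Finset.le_sup (f := fun i => (g i).natDegree) (Finset.mem_range.mpr hi)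
    have h2 : 1 ≤ n - i := by omega
    calc (g i).natDegree ≤ k := h1
      _ = k * 1 := (mul_one k).symm
      _ ≤ k * (n - i) := Nat.mul_le_mul_left k h2
  let B : ℕ → ↥(s18tChart A t⁻¹) := fun i => if h : i < n then ⟨_, hb i h⟩ else 0
  have hB : ∀ i, i < n →
      ((B i : ↥(s18tChart A t⁻¹)) : F) =
        (t⁻¹) ^ (k * (n - i)) * ((f.coeff i : ↥(s18tChart A t)) : F) := by
    intro i hi
    simp only [B, dif_pos hi]
  set p : (↥(s18tChart A t⁻¹))[X] := ∑ i ∈ Finset.range n, C (B i) * X ^ i with hp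
  have hdeg : p.degree < n := by
    refine (degree_sum_le _ _).trans_lt ?_
    refine (Finset.sup_lt_iff (WithBot.bot_lt_coe n)).mpr fun i hi => ?_
    exact (degree_C_mul_X_pow_le i _).trans_lt (WithBot.coe_lt_coe.mpr (Finset.mem_range.mp hi))
  refine ⟨X ^ n + p, monic_X_pow_add hdeg, ?_⟩
  -- evaluation
  have hfx' : ∑ i ∈ Finset.range (n + 1), ((f.coeff i : ↥(s18tChart A t)) : F) * x ^ i = 0 := by
    have := hfx
    rw [eval₂_eq_sum_range] at this
    exact this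
  rw [Finset.sum_range_succ] at hfx'
  have hlead : ((f.coeff n : ↥(s18tChart A t)) : F) = 1 := by
    have : f.coeff n = 1 := hfm.coeff_natDegree
    rw [this]; rfl
  rw [hlead, one_mul] at hfx'
  rw [eval₂_add, eval₂_pow, eval₂_X, hp, eval₂_finsetSum]
  have hterm : ∀ i ∈ Finset.range n,
      eval₂ (algebraMap ↥(s18tChart A t⁻¹) F) ((t⁻¹) ^ k * x) (C (B i) * X ^ i) =
        (t⁻¹) ^ (k * n) * (((f.coeff i : ↥(s18tChart A t)) : F) * x ^ i) := by
    intro i hi
    have hi' := Finset.mem_range.mp hi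
    rw [eval₂_mul, eval₂_C, eval₂_pow, eval₂_X]
    change ((B i : ↥(s18tChart A t⁻¹)) : F) * _ = _
    rw [hB i hi', mul_pow, ← pow_mul]
    have : k * n = k * (n - i) + k * i := by
      rw [← Nat.mul_add, Nat.sub_add_cancel hi'.le]
    rw [this, pow_add]
    ring
  rw [Finset.sum_congr rfl hterm, ← Finset.mul_sum, mul_pow, ← pow_mul, ← mul_add, add_comm,
    hfx', mul_zero]

/-! ### Finiteness of the integral closure of `A[τ]` -/

/-- every element of `L(τ)` is a quotient of two elements of `A[τ]`. -/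
theorem s18tc_exists_div_of_mem_adjoin (τ : F) {x : F} (hx : x ∈ L⟮τ⟯) :
    ∃ a b : A[X], aeval τ b ≠ 0 ∧ x = aeval τ a / aeval τ b := by
  obtain ⟨r, s, rfl⟩ := (IntermediateField.mem_adjoin_simple_iff L x).mp hx
  by_cases hs : aeval τ s = 0
  · refine ⟨0, 1, by simp, by simp [hs]⟩
  obtain ⟨c, hcM, hc⟩ := IsLocalization.integerNormalization_spec (nonZeroDivisors A) r
  obtain ⟨d, hdM, hd⟩ := IsLocalization.integerNormalization_spec (nonZeroDivisors A) s
  set r₀ := IsLocalization.integerNormalization (nonZeroDivisors A) r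
  set s₀ := IsLocalization.integerNormalization (nonZeroDivisors A) s
  have hc0 : algebraMap A F c ≠ 0 := by
    rw [IsScalarTower.algebraMap_apply A L F]
    exact (map_ne_zero_iff _ (algebraMap L F).injective).mpr
      ((map_ne_zero_iff _ (IsFractionRing.injective A L)).mpr (nonZeroDivisors.ne_zero hcM))
  have hd0 : algebraMap A F d ≠ 0 := by
    rw [IsScalarTower.algebraMap_apply A L F]
    exact (map_ne_zero_iff _ (algebraMap L F).injective).mpr
      ((map_ne_zero_iff _ (IsFractionRing.injective A L)).mpr (nonZeroDivisors.ne_zero hdM))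
  have hr : aeval τ r₀ = algebraMap A F c * aeval τ r := by
    have := congrArg (aeval τ) hc
    rw [aeval_map_algebraMap] at this
    rw [this, ← algebraMap_smul L c r, map_smul, algebraMap_smul, Algebra.smul_def]
  have hs' : aeval τ s₀ = algebraMap A F d * aeval τ s := by
    have := congrArg (aeval τ) hd
    rw [aeval_map_algebraMap] at this
    rw [this, ← algebraMap_smul L d s, map_smul, algebraMap_smul, Algebra.smul_def]
  refine ⟨C d * r₀, C c * s₀, ?_, ?_⟩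
  · rw [map_mul, aeval_C, hs']
    exact mul_ne_zero hc0 (mul_ne_zero hd0 hs)
  · rw [map_mul, map_mul, aeval_C, aeval_C, hr, hs']
    field_simp


/-- finiteness of the integral closure of `A[τ]` in `F`. -/
theorem s18tc_int_finite (τ : F) (hτ : Transcendental L τ) [FiniteDimensional L⟮τ⟯ F] :
    Module.Finite ↥(s18tChart A τ) ↥(integralClosure ↥(s18tChart A τ) F) := by
  have hτA : Transcendental A τ := s18tb_transcendental hτ
  let e : A[X] ≃ₐ[A] ↥(s18tChart A τ) := algEquivOfTranscendental A τ hτA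
  haveI : IsIntegrallyClosed ↥(s18tChart A τ) := IsIntegrallyClosed.of_equiv e.toRingEquiv
  haveI : IsNoetherianRing ↥(s18tChart A τ) := isNoetherianRing_of_ringEquiv _ e.toRingEquiv
  letI := FractionRing.liftAlgebra ↥(s18tChart A τ) F
  haveI := FractionRing.isScalarTower_liftAlgebra ↥(s18tChart A τ) F
  haveI : CharZero F := by
    have hinj : Function.Injective (algebraMap A F) := by
      rw [IsScalarTower.algebraMap_eq A L F]
      exact (algebraMap L F).injective.comp (IsFractionRing.injective A L)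
    exact charZero_of_injective_algebraMap hinj
  haveI : CharZero (FractionRing ↥(s18tChart A τ)) :=
    charZero_of_injective_algebraMap (FaithfulSMul.algebraMap_injective ↥(s18tChart A τ) _)
  haveI : FiniteDimensional (FractionRing ↥(s18tChart A τ)) F := by
    obtain ⟨S, hS⟩ := (Module.finite_def.mp (inferInstance : Module.Finite L⟮τ⟯ F))
    refine Module.finite_def.mpr ⟨S, ?_⟩
    rw [eq_top_iff]
    rintro x -
    have hx : x ∈ Submodule.span L⟮τ⟯ (S : Set F) := hS ▸ Submodule.mem_top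
    induction hx using Submodule.span_induction with
    | mem y hy => exact Submodule.subset_span hy
    | zero => exact Submodule.zero_mem _
    | add y z _ _ hy hz => exact Submodule.add_mem _ hy hz
    | smul a y _ hy =>
      obtain ⟨f, g, hg, hfg⟩ := s18tc_exists_div_of_mem_adjoin (A := A) τ a.2
      set rf : ↥(s18tChart A τ) := ⟨aeval τ f, s18tb_aeval_mem_chart τ f⟩
      set rg : ↥(s18tChart A τ) := ⟨aeval τ g, s18tb_aeval_mem_chart τ g⟩
      set k : FractionRing ↥(s18tChart A τ) :=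
        algebraMap _ _ rf / algebraMap _ _ rg with hk
      have hkF : algebraMap (FractionRing ↥(s18tChart A τ)) F k = (a : F) := by
        rw [hk, map_div₀, ← IsScalarTower.algebraMap_apply, ← IsScalarTower.algebraMap_apply, hfg]
        rfl
      have : a • y = k • y := by
        rw [Algebra.smul_def, Algebra.smul_def, hkF]
        rfl
      rw [this]
      exact Submodule.smul_mem _ _ hy
  exact IsIntegralClosure.finite ↥(s18tChart A τ) (FractionRing ↥(s18tChart A τ)) F _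


/-! ### Basic inclusions -/

/-- `A[t] ⊆ P`. -/
theorem s18tc_chart_le_int (t : F) {x : F} (hx : x ∈ s18tChart A t) : x ∈ s18tInt A t := by
  rw [mem_s18tInt]
  exact isIntegral_algebraMap (R := ↥(s18tChart A t)) (A := F) (x := ⟨x, hx⟩)

theorem s18tc_self_mem_int (t : F) : t ∈ s18tInt A t :=
  s18tc_chart_le_int t (Algebra.self_mem_adjoin_singleton A t)

theorem s18tc_algebraMap_mem_int (t : F) (a : A) : algebraMap A F a ∈ s18tInt A t :=
  s18tc_chart_le_int t (Subalgebra.algebraMap_mem _ a)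

/-- `A[t]_(p) ⊆ P_(p)`. -/
theorem s18tc_loc_le_intLoc (t : F) (p : A[X]) (hp : Prime p) {x : F}
    (hx : x ∈ s18tLoc A t p hp) : x ∈ s18tIntLoc A t p hp := by
  rw [mem_s18tIntLoc]
  exact isIntegral_algebraMap (R := ↥(s18tLoc A t p hp)) (A := F) (x := ⟨x, hx⟩)

/-- `P ⊆ P_(p)`. -/
theorem s18tc_int_le_intLoc (t : F) (p : A[X]) (hp : Prime p) {x : F}
    (hx : x ∈ s18tInt A t) : x ∈ s18tIntLoc A t p hp := by
  rw [mem_s18tInt] at hx
  rw [mem_s18tIntLoc]
  letI : Algebra ↥(s18tChart A t) ↥(s18tLoc A t p hp) := (s18tbIncl t p hp).toAlgebra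
  haveI : IsScalarTower ↥(s18tChart A t) ↥(s18tLoc A t p hp) F :=
    IsScalarTower.of_algebraMap_eq (fun _ => rfl)
  exact hx.tower_top

theorem s18tc_not_dvd_X_pow (hp : Prime (C ϖ : A[X])) (k : ℕ) : ¬ (C ϖ : A[X]) ∣ X ^ k := by
  intro h
  have := (Polynomial.C_dvd_iff_dvd_coeff _ _).mp h k
  rw [coeff_X_pow, if_pos rfl] at this
  exact (Polynomial.prime_C_iff.mp hp).not_isUnit (isUnit_of_dvd_one this)

/-- `t⁻ᵏ ∈ A[t]_(ϖ)`. -/
theorem s18tc_inv_pow_mem_loc (hp : Prime (C ϖ : A[X])) (t : F) (ht0 : t ≠ 0) (k : ℕ) :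
    (t⁻¹) ^ k ∈ s18tLoc A t (C ϖ) hp :=
  ⟨1, X ^ k, s18tc_not_dvd_X_pow hp k, by
    rw [map_pow, aeval_X, map_one, ← mul_pow, inv_mul_cancel₀ ht0, one_pow]⟩

/-! ### The ring `𝔅 = P[1/t] = Q[t]` -/

section B

variable (A)

/-- `P` as an `A`-subalgebra of `F`. -/
def s18tcP (t : F) : Subalgebra A F :=
  (integralClosure ↥(s18tChart A t) F).restrictScalars A

/-- `𝔅 = P[1/t]` as an `A`-subalgebra of `F`. -/
def s18tcB (t : F) : Subalgebra A F where
  carrier := {x | ∃ k : ℕ, t ^ k * x ∈ s18tInt A t}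
  mul_mem' := by
    rintro x y ⟨k, hx⟩ ⟨l, hy⟩
    refine ⟨k + l, ?_⟩
    have : t ^ (k + l) * (x * y) = (t ^ k * x) * (t ^ l * y) := by ring
    rw [this]
    exact Subring.mul_mem _ hx hy
  add_mem' := by
    rintro x y ⟨k, hx⟩ ⟨l, hy⟩
    refine ⟨k + l, ?_⟩
    have : t ^ (k + l) * (x + y) = t ^ l * (t ^ k * x) + t ^ k * (t ^ l * y) := by ring
    rw [this]
    exact Subring.add_mem _
      (Subring.mul_mem _ (Subring.pow_mem _ (s18tc_self_mem_int t) l) hx)
      (Subring.mul_mem _ (Subring.pow_mem _ (s18tc_self_mem_int t) k) hy)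
  algebraMap_mem' := fun a => ⟨0, by
    rw [pow_zero, one_mul]
    exact s18tc_algebraMap_mem_int t a⟩

end B

theorem mem_s18tcP {t x : F} : x ∈ s18tcP A t ↔ x ∈ s18tInt A t := Iff.rfl

theorem mem_s18tcB {t x : F} : x ∈ s18tcB A t ↔ ∃ k : ℕ, t ^ k * x ∈ s18tInt A t := Iff.rfl

theorem s18tc_int_le_B (t : F) {x : F} (hx : x ∈ s18tInt A t) : x ∈ s18tcB A t :=
  ⟨0, by rwa [pow_zero, one_mul]⟩

/-- `𝔅(t) ⊆ 𝔅(t⁻¹)`. -/
theorem s18tc_mem_B_inv (t : F) (ht0 : t ≠ 0) {x : F} (hx : x ∈ s18tcB A t) :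
    x ∈ s18tcB A t⁻¹ := by
  obtain ⟨k, hk⟩ := hx
  obtain ⟨l, hl⟩ := s18tc_exists_inv_pow_mul_mem t ht0 hk
  refine ⟨l + k, ?_⟩
  have h1 : (t⁻¹) ^ k * t ^ k = 1 := by rw [← mul_pow, inv_mul_cancel₀ ht0, one_pow]
  have : (t⁻¹) ^ (l + k) * x = (t⁻¹) ^ (2 * k) * ((t⁻¹) ^ l * (t ^ k * x)) := by
    linear_combination (-(t⁻¹) ^ (l + k) * x) * h1
  rw [this]
  exact Subring.mul_mem _ (Subring.pow_mem _ (s18tc_self_mem_int t⁻¹) _) hl

/-- `Q ⊆ 𝔅`. -/
theorem s18tc_int_inv_le_B (t : F) (ht0 : t ≠ 0) {x : F} (hx : x ∈ s18tInt A t⁻¹) :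
    x ∈ s18tcB A t := by
  have := s18tc_mem_B_inv t⁻¹ (inv_ne_zero ht0) (s18tc_int_le_B t⁻¹ hx)
  rwa [inv_inv] at this

/-- `𝔅 ⊆ P_(ϖ)`. -/
theorem s18tc_B_le_intLoc (hp : Prime (C ϖ : A[X])) (t : F) (ht0 : t ≠ 0) {x : F}
    (hx : x ∈ s18tcB A t) : x ∈ s18tIntLoc A t (C ϖ) hp := by
  obtain ⟨k, hk⟩ := hx
  have h1 : (t⁻¹) ^ k * t ^ k = 1 := by rw [← mul_pow, inv_mul_cancel₀ ht0, one_pow]
  have : x = (t⁻¹) ^ k * (t ^ k * x) := by
    rw [← mul_assoc, h1, one_mul]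
  rw [this]
  exact Subring.mul_mem _ (s18tc_loc_le_intLoc t _ hp (s18tc_inv_pow_mem_loc hp t ht0 k))
    (s18tc_int_le_intLoc t _ hp hk)

/-- `t` as a unit of `𝔅`. -/
def s18tcUnit (t : F) (ht0 : t ≠ 0) : (↥(s18tcB A t))ˣ where
  val := ⟨t, s18tc_int_le_B t (s18tc_self_mem_int t)⟩
  inv := ⟨t⁻¹, 1, by
    rw [pow_one, mul_inv_cancel₀ ht0]
    exact Subring.one_mem _⟩
  val_inv := Subtype.ext (mul_inv_cancel₀ ht0)
  inv_val := Subtype.ext (inv_mul_cancel₀ ht0)

theorem s18tcUnit_coe (t : F) (ht0 : t ≠ 0) :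
    (((s18tcUnit (A := A) t ht0 : (↥(s18tcB A t))ˣ) : ↥(s18tcB A t)) : F) = t := rfl

theorem s18tcUnit_inv_coe (t : F) (ht0 : t ≠ 0) :
    ((((s18tcUnit (A := A) t ht0)⁻¹ : (↥(s18tcB A t))ˣ) : ↥(s18tcB A t)) : F) = t⁻¹ := rfl

/-! ### The main theorem -/

/-- (T6) for an arbitrary proof `hp` of `Prime (C ϖ)`, hypotheses in unfolded form:
`s18t_formal hϖ t ht hL p q hp hq hpq hpp := s18tc_formal (s18t_prime_C hϖ) t ht hL p q hp hq hpq hpp`. -/
theorem s18tc_formal (hp : Prime (C ϖ : A[X])) (t : F) (ht : Transcendental L t)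
    [FiniteDimensional L⟮t⟯ F]
    (hL : ∀ x : F, IsAlgebraic L x → x ∈ (algebraMap L F).range)
    (p q : F) (hpP : p ∈ s18tInt A t) (hqQ : q ∈ s18tInt A t⁻¹)
    (hpq : ∃ y ∈ s18tIntLoc A t (C ϖ) hp, p - q = algebraMap A F ϖ * y)
    (hpp : ∃ y ∈ s18tIntLoc A t (C ϖ) hp, p ^ 2 - p = algebraMap A F ϖ * y) :
    (∃ y ∈ s18tIntLoc A t (C ϖ) hp, p = algebraMap A F ϖ * y) ∨
      (∃ y ∈ s18tIntLoc A t (C ϖ) hp, 1 - p = algebraMap A F ϖ * y) := by
  classical
  have ht0 : t ≠ 0 := by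
    rintro rfl
    exact ht ⟨X, X_ne_zero, by simp⟩
  have ht' : Transcendental L t⁻¹ := by
    intro h
    exact ht (by simpa using h.inv)
  haveI hfd : FiniteDimensional L⟮t⁻¹⟯ F := by
    have hEq : L⟮t⁻¹⟯ = L⟮t⟯ := by
      apply le_antisymm
      · rw [IntermediateField.adjoin_simple_le_iff]
        exact inv_mem (IntermediateField.mem_adjoin_simple_self L t)
      · rw [IntermediateField.adjoin_simple_le_iff]
        have := inv_mem (IntermediateField.mem_adjoin_simple_self L t⁻¹)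
        simpa using this
    rw [hEq]; infer_instance
  have hinj : Function.Injective (algebraMap A F) := by
    rw [IsScalarTower.algebraMap_eq A L F]
    exact (algebraMap L F).injective.comp (IsFractionRing.injective A L)
  have hϖ : Prime ϖ := Polynomial.prime_C_iff.mp hp
  have hϖF : algebraMap A F ϖ ≠ 0 := fun h => hϖ.ne_zero (hinj (by rw [h, map_zero]))
  obtain ⟨y₁, hy₁, e₁⟩ := hpq
  obtain ⟨y₂, hy₂, e₂⟩ := hpp
  -- `y₂ ∈ P`
  have hy₂P : y₂ ∈ s18tInt A t := s18tb_saturated hp t ht y₂ hy₂ (by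
    rw [← e₂]; exact Subring.sub_mem _ (Subring.pow_mem _ hpP 2) hpP)
  have hq𝔅 : q ∈ s18tcB A t := s18tc_int_inv_le_B t ht0 hqQ
  have hp𝔅 : p ∈ s18tcB A t := s18tc_int_le_B t hpP
  -- `y₁ ∈ 𝔅`
  have hy₁𝔅 : y₁ ∈ s18tcB A t := by
    obtain ⟨k, hk⟩ : ∃ k : ℕ, t ^ k * (p - q) ∈ s18tInt A t := (s18tcB A t).sub_mem hp𝔅 hq𝔅
    refine ⟨k, s18tb_saturated hp t ht _ ?_ ?_⟩
    · exact Subring.mul_mem _
        (s18tc_int_le_intLoc t _ hp (Subring.pow_mem _ (s18tc_self_mem_int t) k)) hy₁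
    · have : algebraMap A F ϖ * (t ^ k * y₁) = t ^ k * (p - q) := by rw [e₁]; ring
      rw [this]; exact hk
  -- `q² - q = ϖ y₃`, `y₃ ∈ Q`
  set y₃ := y₂ - y₁ * (p + q - 1) with hy₃
  have e₃ : q ^ 2 - q = algebraMap A F ϖ * y₃ := by
    rw [hy₃]; linear_combination e₂ - (p + q - 1) * e₁
  have hy₃𝔅 : y₃ ∈ s18tcB A t :=
    (s18tcB A t).sub_mem (s18tc_int_le_B t hy₂P)
      ((s18tcB A t).mul_mem hy₁𝔅
        ((s18tcB A t).sub_mem ((s18tcB A t).add_mem hp𝔅 hq𝔅) ((s18tcB A t).one_mem)))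
  have hy₃Q : y₃ ∈ s18tInt A t⁻¹ := by
    refine s18tb_saturated hp t⁻¹ ht' y₃
      (s18tc_B_le_intLoc hp t⁻¹ (inv_ne_zero ht0) (s18tc_mem_B_inv t ht0 hy₃𝔅)) ?_
    rw [← e₃]; exact Subring.sub_mem _ (Subring.pow_mem _ hqQ 2) hqQ
  -- the abstract setting
  let P' : Subalgebra A ↥(s18tcB A t) := (s18tcP A t).comap (s18tcB A t).val
  let Q' : Subalgebra A ↥(s18tcB A t) := (s18tcP A t⁻¹).comap (s18tcB A t).val
  let tu : (↥(s18tcB A t))ˣ := s18tcUnit (A := A) t ht0
  have hPQ : ∀ x, x ∈ P' → x ∈ Q' → x ∈ (algebraMap A ↥(s18tcB A t)).range := by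
    intro x hxP hxQ
    obtain ⟨a, ha⟩ := s18t_mem_range_of_isIntegral_adjoin_both (A₀ := A) (L₀ := L) t ht hL
      (x : F) hxP hxQ
    exact ⟨a, Subtype.ext ha⟩
  have htP : (tu : ↥(s18tcB A t)) ∈ P' := s18tc_self_mem_int t
  have htQ : ((tu⁻¹ : (↥(s18tcB A t))ˣ) : ↥(s18tcB A t)) ∈ Q' := s18tc_self_mem_int t⁻¹
  have hP : ∀ x : ↥(s18tcB A t), ∃ k : ℕ, (tu : ↥(s18tcB A t)) ^ k * x ∈ P' := by
    intro x
    obtain ⟨k, hk⟩ := x.2
    exact ⟨k, hk⟩
  have hQ : ∀ x : ↥(s18tcB A t), ∃ k : ℕ,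
      ((tu⁻¹ : (↥(s18tcB A t))ˣ) : ↥(s18tcB A t)) ^ k * x ∈ Q' := by
    intro x
    obtain ⟨k, hk⟩ := s18tc_mem_B_inv t ht0 x.2
    exact ⟨k, hk⟩
  have hQfg : ∃ s : Finset ↥(s18tcB A t), (∀ x ∈ s, x ∈ Q') ∧
      ∀ x ∈ Q', x ∈ Submodule.span
        (Algebra.adjoin A {((tu⁻¹ : (↥(s18tcB A t))ˣ) : ↥(s18tcB A t))})
        (s : Set ↥(s18tcB A t)) := by
    haveI := s18tc_int_finite (A := A) (L := L) t⁻¹ ht'
    obtain ⟨S, hS⟩ := Module.finite_def.mp (inferInstance :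
      Module.Finite ↥(s18tChart A t⁻¹) ↥(integralClosure ↥(s18tChart A t⁻¹) F))
    let ι : ↥(integralClosure ↥(s18tChart A t⁻¹) F) → ↥(s18tcB A t) :=
      fun c => ⟨c.1, s18tc_int_inv_le_B t ht0 c.2⟩
    refine ⟨S.image ι, ?_, ?_⟩
    · intro x hx
      obtain ⟨c, -, rfl⟩ := Finset.mem_image.mp hx
      exact c.2
    · intro x hx
      have key : ∀ c ∈ Submodule.span ↥(s18tChart A t⁻¹)
          (S : Set ↥(integralClosure ↥(s18tChart A t⁻¹) F)),
          ι c ∈ Submodule.span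
            (Algebra.adjoin A {((tu⁻¹ : (↥(s18tcB A t))ˣ) : ↥(s18tcB A t))})
            ((S.image ι : Finset ↥(s18tcB A t)) : Set ↥(s18tcB A t)) := by
        intro c hc
        induction hc using Submodule.span_induction with
        | mem c hc =>
          exact Submodule.subset_span (Finset.mem_coe.mpr (Finset.mem_image_of_mem ι hc))
        | zero =>
          have : ι 0 = 0 := rfl
          rw [this]; exact Submodule.zero_mem _
        | add c d _ _ hc hd =>
          have : ι (c + d) = ι c + ι d := rfl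
          rw [this]; exact Submodule.add_mem _ hc hd
        | smul r c _ hc =>
          obtain ⟨g, hg⟩ := Algebra.adjoin_mem_exists_aeval A t⁻¹ r.2
          have hr' : aeval ((tu⁻¹ : (↥(s18tcB A t))ˣ) : ↥(s18tcB A t)) g ∈
              Algebra.adjoin A {((tu⁻¹ : (↥(s18tcB A t))ˣ) : ↥(s18tcB A t))} :=
            aeval_mem_adjoin_singleton A _
          have hcoe : ((aeval ((tu⁻¹ : (↥(s18tcB A t))ˣ) : ↥(s18tcB A t)) g :
              ↥(s18tcB A t)) : F) = (r : F) := by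
            have := aeval_algHom_apply (s18tcB A t).val
              ((tu⁻¹ : (↥(s18tcB A t))ˣ) : ↥(s18tcB A t)) g
            rw [← hg]
            exact this.symm
          have : ι (r • c) = (⟨_, hr'⟩ : ↥(Algebra.adjoin A
              {((tu⁻¹ : (↥(s18tcB A t))ˣ) : ↥(s18tcB A t))})) • ι c := by
            apply Subtype.ext
            change (r : F) * (c : F) = _ * (c : F)
            rw [← hcoe]
          rw [this]
          exact Submodule.smul_mem _ _ hc
      have hc : (⟨x.1, hx⟩ : ↥(integralClosure ↥(s18tChart A t⁻¹) F)) ∈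
          Submodule.span ↥(s18tChart A t⁻¹)
            (S : Set ↥(integralClosure ↥(s18tChart A t⁻¹) F)) := hS ▸ Submodule.mem_top
      exact key _ hc
  haveI hfin : Module.Finite A
      (↥(s18tcB A t) ⧸ (Subalgebra.toSubmodule P' ⊔ Subalgebra.toSubmodule Q')) :=
    s18t_quotient_sup_finite P' Q' tu htP htQ hQfg hQ hP
  obtain ⟨N, hNt⟩ := s18t_exists_pow_torsion_bound (A := A)
    (H := ↥(s18tcB A t) ⧸ (Subalgebra.toSubmodule P' ⊔ Subalgebra.toSubmodule Q')) ϖ
  have hN : ∀ x : ↥(s18tcB A t),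
      ϖ ^ (N + 1) • x ∈ (Subalgebra.toSubmodule P' ⊔ Subalgebra.toSubmodule Q') →
      ϖ ^ N • x ∈ (Subalgebra.toSubmodule P' ⊔ Subalgebra.toSubmodule Q') := by
    intro x hx
    have h0 : ϖ ^ (N + 1) • (Submodule.Quotient.mk x :
        ↥(s18tcB A t) ⧸ (Subalgebra.toSubmodule P' ⊔ Subalgebra.toSubmodule Q')) = 0 := by
      rw [← Submodule.Quotient.mk_smul]
      exact (Submodule.Quotient.mk_eq_zero _).mpr hx
    have := hNt _ ⟨N + 1, h0⟩
    rw [← Submodule.Quotient.mk_smul] at this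
    exact (Submodule.Quotient.mk_eq_zero _).mp this
  obtain ⟨c, ⟨yP, hyP, ecP⟩, ⟨yQ, hyQ, ecQ⟩⟩ :=
    s18t_exists_const_of_idempotents ϖ P' Q' hPQ N hN
      (p := (⟨p, hp𝔅⟩ : ↥(s18tcB A t))) (q := (⟨q, hq𝔅⟩ : ↥(s18tcB A t))) hpP hqQ
      ⟨⟨y₂, s18tc_int_le_B t hy₂P⟩, hy₂P, Subtype.ext (by
        change p ^ 2 - p = ϖ • y₂
        rw [Algebra.smul_def]; exact e₂)⟩
      ⟨⟨y₃, hy₃𝔅⟩, hy₃Q, Subtype.ext (by
        change q ^ 2 - q = ϖ • y₃
        rw [Algebra.smul_def]; exact e₃)⟩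
      ⟨⟨y₁, hy₁𝔅⟩, Subtype.ext (by
        change p - q = ϖ • y₁
        rw [Algebra.smul_def]; exact e₁)⟩
  -- back in `F`
  have hyP' : (yP : F) ∈ s18tInt A t := hyP
  have hyQ' : (yQ : F) ∈ s18tInt A t⁻¹ := hyQ
  have ecP' : p - algebraMap A F c = algebraMap A F ϖ * (yP : F) := by
    have := congrArg (fun z : ↥(s18tcB A t) => (z : F)) ecP
    change p - algebraMap A F c = ϖ • (yP : F) at this
    rwa [Algebra.smul_def] at this
  have ecQ' : q - algebraMap A F c = algebraMap A F ϖ * (yQ : F) := by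
    have := congrArg (fun z : ↥(s18tcB A t) => (z : F)) ecQ
    change q - algebraMap A F c = ϖ • (yQ : F) at this
    rwa [Algebra.smul_def] at this
  -- `(c² - c)/ϖ ∈ P ∩ Q = A`
  set zP : F := y₂ - 2 * p * (yP : F) + algebraMap A F ϖ * (yP : F) ^ 2 + (yP : F) with hzP
  set zQ : F := y₃ - 2 * q * (yQ : F) + algebraMap A F ϖ * (yQ : F) ^ 2 + (yQ : F) with hzQ
  have hzPmem : zP ∈ s18tInt A t := by
    refine Subring.add_mem _ (Subring.add_mem _ (Subring.sub_mem _ hy₂P ?_) ?_) hyP'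
    · exact Subring.mul_mem _ (Subring.mul_mem _ (by
        have : (2 : F) = algebraMap A F 2 := (map_ofNat (algebraMap A F) 2).symm
        rw [this]; exact s18tc_algebraMap_mem_int t 2) hpP) hyP'
    · exact Subring.mul_mem _ (s18tc_algebraMap_mem_int t ϖ) (Subring.pow_mem _ hyP' 2)
  have hzQmem : zQ ∈ s18tInt A t⁻¹ := by
    refine Subring.add_mem _ (Subring.add_mem _ (Subring.sub_mem _ hy₃Q ?_) ?_) hyQ'
    · exact Subring.mul_mem _ (Subring.mul_mem _ (by
        have : (2 : F) = algebraMap A F 2 := (map_ofNat (algebraMap A F) 2).symm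
        rw [this]; exact s18tc_algebraMap_mem_int t⁻¹ 2) hqQ) hyQ'
    · exact Subring.mul_mem _ (s18tc_algebraMap_mem_int t⁻¹ ϖ) (Subring.pow_mem _ hyQ' 2)
  have hcP : algebraMap A F c ^ 2 - algebraMap A F c = algebraMap A F ϖ * zP := by
    rw [hzP]; linear_combination e₂ - (algebraMap A F c + p - algebraMap A F ϖ * (yP : F) - 1) * ecP'
  have hcQ : algebraMap A F c ^ 2 - algebraMap A F c = algebraMap A F ϖ * zQ := by
    rw [hzQ]; linear_combination e₃ - (algebraMap A F c + q - algebraMap A F ϖ * (yQ : F) - 1) * ecQ'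
  have hzeq : zP = zQ := mul_left_cancel₀ hϖF (hcP.symm.trans hcQ)
  obtain ⟨a, ha⟩ := s18t_mem_range_of_isIntegral_adjoin_both (A₀ := A) (L₀ := L) t ht hL zP
    hzPmem (hzeq ▸ hzQmem)
  have hdvd : ϖ ∣ c * (c - 1) := by
    refine ⟨a, hinj ?_⟩
    rw [map_mul, map_mul, map_sub, map_one]
    change _ = _ * algebraMap A F a
    rw [ha, ← hcP]; ring
  rcases hϖ.dvd_or_dvd hdvd with ⟨c', hc'⟩ | ⟨c', hc'⟩
  · left
    refine ⟨algebraMap A F c' + (yP : F), ?_, ?_⟩
    · exact s18tc_int_le_intLoc t _ hp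
        (Subring.add_mem _ (s18tc_algebraMap_mem_int t c') hyP')
    · have h1 : algebraMap A F c = algebraMap A F ϖ * algebraMap A F c' := by
        rw [hc', map_mul]
      linear_combination ecP' + h1
  · right
    refine ⟨-algebraMap A F c' - (yP : F), ?_, ?_⟩
    · exact s18tc_int_le_intLoc t _ hp
        (Subring.sub_mem _ (Subring.neg_mem _ (s18tc_algebraMap_mem_int t c')) hyP')
    · have h1 : algebraMap A F c - 1 = algebraMap A F ϖ * algebraMap A F c' := by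
        rw [← map_one (algebraMap A F), ← map_sub, hc', map_mul]
      linear_combination -ecP' - h1

end Fermat.Agent.S18
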