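import Mathlib
import Fermat.Agent.S18.T.Defs
import Fermat.Agent.S18.T.Saturated

/-!
# S18, package T, leaf T-f (row 344): `s18t_local_good` (T2 + T3) and its LOCAL variant

Main results (namespace `Fermat.Agent.S18`, prefix `s18tlg_`; `hC : Prime (C ϖ : A[X])` is an
arbitrary proof, so everything unifies with `s18t_prime_C hϖ` of `S18/T/Spec.lean`):

* `s18tlg_local_good'` : the LOCAL form asked for in board msg 1169.  Hypotheses: Gauss
  self-duality `hG`, and `hloc : ∀ g prime, ¬ Associated g (C ϖ) → γ ∣ g.map residue →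
  S18SelfDual A L t g hg` (self-duality at the horizontal primes THROUGH the closed point `γ`).
  Conclusion: the unfolded `S18LocalAt hϖ t e γ`.
* `s18tlg_local_good` : the statement `s18t_local_good` of the Spec with the chart field `unram`
  and the black box (TU) `s18t_selfDual_of_unram` as explicit hypotheses.

Wiring in `Spec.lean` (tested):
`s18t_local_good hϖ t ht S h hG e he hee γ hγ hS :=
  s18tlg_local_good (s18t_prime_C hϖ) t ht S h.unram
    (fun g hg hgϖ hu => s18t_selfDual_of_unram t ht g hg hgϖ hϖ hu) hG e he hee γ hγ hS`.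

Route. `P = s18tInt A t`, `N = P_(ϖ)`, `K₀ = L(t)`, `O_p = A[t]_(p)`.
(f1) `s18tlg_exists_basis`: `P` is finite over `A[t]` (`IsIntegralClosure.finite`), `P/ϖP` is
  torsion-free over the PID `A[t]/ϖ` (helper13's `s18tb_isIntegral_of_smul`), hence free; lift a
  basis and apply Nakayama (`s18tlg_exists_family`): a `K₀`-basis `b` of `F` inside `P` with
  `c(t) P ⊆ Σ A[t] b_i` for suitable `c ≡ 1 mod ϖ`.  Consequently `P_(p) = Σ O_p b_i` for the Gauss
  prime and for every prime `p` through the closed point (`s18tlg_spanLoc`).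
(f2) `s18tlg_not_dvd_det`: self-duality at `p` ⟹ the dual basis has coefficients in `O_p` ⟹
  `d = det Tr(b_i b_j)` is a unit of `O_p` ⟹ `p ∤ d`; UFD induction
  (`s18tlg_exists_prime_dvd`) ⟹ `γ ∤ d mod ϖ` (`s18tlg_not_dvd_map_det`).
(f3) `O' = A[t] + ϖ O_ϖ` (`s18tlgO'`, the preimage of `k₀[X]` under the reduction
  `φ : O_ϖ → Frac k₀[X]`) is integrally closed in `K₀`; `e`, `ϖ N`, `P` are integral over `O'`,
  so `Tr(e b_j) ∈ O'` (`s18tlg_trace_mem_O'`); Cramer's rule gives `d(t) e ∈ P + ϖ N`.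
-/

set_option autoImplicit false
set_option linter.unusedSectionVars false
set_option linter.style.haveILetI false

noncomputable section

namespace Fermat.Agent.S18

open Polynomial IntermediateField

universe u

section Basic

variable {A : Type*} [CommRing A] [IsDomain A] [IsDiscreteValuationRing A] [CharZero A]
variable {L : Type*} [Field L] [Algebra A L] [IsFractionRing A L]
variable {F : Type u} [Field F] [Algebra A F] [Algebra L F] [IsScalarTower A L F]
variable {ϖ : A}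

/-- `aeval t` is injective. -/
theorem s18tlg_aeval_injective {t : F} (htA : Transcendental A t) :
    Function.Injective (aeval t : A[X] → F) :=
  transcendental_iff_injective.mp htA

theorem s18tlg_aeval_ne_zero {t : F} (htA : Transcendental A t) {b : A[X]} (hb : b ≠ 0) :
    aeval t b ≠ 0 := fun h => hb (s18tlg_aeval_injective htA (by rw [h, map_zero]))

theorem s18tlg_ne_zero_of_not_dvd {p b : A[X]} (hb : ¬ p ∣ b) : b ≠ 0 :=
  fun h => hb (h ▸ dvd_zero p)

/-- `a(t) ∈ A[t]_(p)`. -/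
theorem s18tlg_aeval_mem_loc (t : F) (p : A[X]) (hp : Prime p) (a : A[X]) :
    aeval t a ∈ s18tLoc A t p hp :=
  ⟨a, 1, fun h => hp.not_isUnit (isUnit_of_dvd_one h), by simp⟩

/-- `a(t)/b(t) ∈ A[t]_(p)` for `p ∤ b`. -/
theorem s18tlg_div_mem_loc {t : F} (htA : Transcendental A t) (p : A[X]) (hp : Prime p)
    (a : A[X]) {b : A[X]} (hb : ¬ p ∣ b) : aeval t a / aeval t b ∈ s18tLoc A t p hp :=
  ⟨a, b, hb, div_mul_cancel₀ _ (s18tlg_aeval_ne_zero htA (s18tlg_ne_zero_of_not_dvd hb))⟩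

/-- elements of `A[t]_(p)` are fractions. -/
theorem s18tlg_loc_eq_div {t : F} (htA : Transcendental A t) {p : A[X]} {hp : Prime p} {x : F}
    (hx : x ∈ s18tLoc A t p hp) : ∃ a b : A[X], ¬ p ∣ b ∧ x = aeval t a / aeval t b := by
  obtain ⟨a, b, hb, h⟩ := hx
  exact ⟨a, b, hb, by
    rw [eq_div_iff (s18tlg_aeval_ne_zero htA (s18tlg_ne_zero_of_not_dvd hb)), h]⟩

/-- `a(t) ∈ L(t)`. -/
theorem s18tlg_aeval_mem_K0 (t : F) (a : A[X]) : aeval t a ∈ L⟮t⟯ := by
  rw [← aeval_map_algebraMap L t a]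
  exact IntermediateField.algebra_adjoin_le_adjoin L {t}
    (Polynomial.aeval_mem_adjoin_singleton L t)

/-- `A[t]_(p) ⊆ L(t)`. -/
theorem s18tlg_loc_le_K0 {t : F} (htA : Transcendental A t) {p : A[X]} {hp : Prime p} {x : F}
    (hx : x ∈ s18tLoc A t p hp) : x ∈ L⟮t⟯ := by
  obtain ⟨a, b, -, rfl⟩ := s18tlg_loc_eq_div htA hx
  exact div_mem (s18tlg_aeval_mem_K0 t a) (s18tlg_aeval_mem_K0 t b)

/-- elements of `L(t)` are fractions of polynomials over `A`. -/
theorem s18tlg_exists_frac {t : F} (x : F) (hx : x ∈ L⟮t⟯) :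
    ∃ a b : A[X], b ≠ 0 ∧ x * aeval t b = aeval t a := by
  obtain ⟨r, s, rfl⟩ := (IntermediateField.mem_adjoin_simple_iff L x).mp hx
  by_cases hs : aeval t s = 0
  · exact ⟨0, 1, one_ne_zero, by rw [hs, div_zero, zero_mul, map_zero]⟩
  obtain ⟨dr, hdr, hr⟩ := IsLocalization.integerNormalization_spec (nonZeroDivisors A) r
  obtain ⟨ds, hds, hs'⟩ := IsLocalization.integerNormalization_spec (nonZeroDivisors A) s
  set r' := IsLocalization.integerNormalization (nonZeroDivisors A) r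
  set s' := IsLocalization.integerNormalization (nonZeroDivisors A) s
  have hr2 : aeval t r' = algebraMap A F dr * aeval t r := by
    rw [← aeval_map_algebraMap L t r', hr]
    simp only [Algebra.smul_def, map_mul]
    rw [Polynomial.algebraMap_apply, aeval_C, ← IsScalarTower.algebraMap_apply]
  have hs2 : aeval t s' = algebraMap A F ds * aeval t s := by
    rw [← aeval_map_algebraMap L t s', hs']
    simp only [Algebra.smul_def, map_mul]
    rw [Polynomial.algebraMap_apply, aeval_C, ← IsScalarTower.algebraMap_apply]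
  have hdr0 : algebraMap A F dr ≠ 0 := by
    rw [IsScalarTower.algebraMap_apply A L F]
    intro h
    have h1 := (map_eq_zero (algebraMap L F)).mp h
    exact (nonZeroDivisors.ne_zero hdr) ((IsFractionRing.injective A L) (by rw [h1, map_zero]))
  have hds0 : algebraMap A F ds ≠ 0 := by
    rw [IsScalarTower.algebraMap_apply A L F]
    intro h
    have h1 := (map_eq_zero (algebraMap L F)).mp h
    exact (nonZeroDivisors.ne_zero hds) ((IsFractionRing.injective A L) (by rw [h1, map_zero]))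
  refine ⟨C ds * r', C dr * s', ?_, ?_⟩
  · intro h
    have := congrArg (aeval t) h
    rw [map_mul, aeval_C, hs2, map_zero] at this
    exact mul_ne_zero hdr0 (mul_ne_zero hds0 hs) this
  · rw [map_mul, map_mul, aeval_C, aeval_C, hr2, hs2]
    field_simp

/-- `P ⊆ P_(p)`. -/
theorem s18tlg_int_le_intLoc (t : F) (p : A[X]) (hp : Prime p) {x : F} (hx : x ∈ s18tInt A t) :
    x ∈ s18tIntLoc A t p hp := by
  rw [mem_s18tInt] at hx
  rw [mem_s18tIntLoc]
  exact RingHom.IsIntegralElem.of_comp (f := s18tbIncl t p hp)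
    (g := algebraMap ↥(s18tLoc A t p hp) F) hx

/-- `A[t]_(p) ⊆ P_(p)`. -/
theorem s18tlg_loc_le_intLoc (t : F) (p : A[X]) (hp : Prime p) {x : F}
    (hx : x ∈ s18tLoc A t p hp) : x ∈ s18tIntLoc A t p hp := by
  rw [mem_s18tIntLoc]
  exact isIntegral_algebraMap (R := ↥(s18tLoc A t p hp)) (x := ⟨x, hx⟩)

/-- `a(t) ∈ P`. -/
theorem s18tlg_aeval_mem_int (t : F) (a : A[X]) : aeval t a ∈ s18tInt A t := by
  rw [mem_s18tInt]
  exact isIntegral_algebraMap (R := ↥(s18tChart A t)) (x := ⟨aeval t a, s18tb_aeval_mem_chart t a⟩)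

/-- The inclusion `A[t] → L(t)`. -/
def s18tlgChartToK0 (L : Type*) [Field L] [Algebra A L] [IsFractionRing A L] [Algebra L F]
    [IsScalarTower A L F] (t : F) : ↥(s18tChart A t) →+* ↥L⟮t⟯ where
  toFun x := ⟨x, by
    obtain ⟨a, ha⟩ := Algebra.adjoin_mem_exists_aeval A t x.2
    rw [← ha]
    exact s18tlg_aeval_mem_K0 t a⟩
  map_one' := rfl
  map_mul' _ _ := rfl
  map_zero' := rfl
  map_add' _ _ := rfl

/-- `A[t]` is integrally closed in `L(t)`: an element of `L(t)` integral over `A[t]` is in `A[t]`. -/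
theorem s18tlg_mem_chart_of_isIntegral {t : F} (ht : Transcendental L t) {x : F}
    (hxK : x ∈ L⟮t⟯) (hx : x ∈ s18tInt A t) : ∃ a : A[X], x = aeval t a := by
  have htA : Transcendental A t := s18tb_transcendental ht
  let e : A[X] ≃ₐ[A] ↥(s18tChart A t) := algEquivOfTranscendental A t htA
  haveI : IsIntegrallyClosed ↥(s18tChart A t) := IsIntegrallyClosed.of_equiv e.toRingEquiv
  letI : Algebra ↥(s18tChart A t) ↥L⟮t⟯ := (s18tlgChartToK0 L t).toAlgebra
  haveI : IsScalarTower ↥(s18tChart A t) ↥L⟮t⟯ F := IsScalarTower.of_algebraMap_eq (fun _ => rfl)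
  haveI : FaithfulSMul ↥(s18tChart A t) ↥L⟮t⟯ := by
    rw [faithfulSMul_iff_algebraMap_injective]
    intro x y hxy
    apply Subtype.ext
    exact congrArg (fun z : ↥L⟮t⟯ => (z : F)) hxy
  haveI : IsFractionRing ↥(s18tChart A t) ↥L⟮t⟯ := by
    refine IsFractionRing.of_field _ _ ?_
    rintro ⟨z, hz⟩
    obtain ⟨a, b, hb, hab⟩ := s18tlg_exists_frac (A := A) (L := L) z hz
    refine ⟨⟨aeval t a, s18tb_aeval_mem_chart t a⟩, ⟨aeval t b, s18tb_aeval_mem_chart t b⟩, ?_⟩
    apply Subtype.ext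
    change z = aeval t a / aeval t b
    rw [eq_div_iff (s18tlg_aeval_ne_zero htA hb), hab]
  rw [mem_s18tInt] at hx
  have hx' : IsIntegral ↥(s18tChart A t) (⟨x, hxK⟩ : ↥L⟮t⟯) :=
    (isIntegral_algebraMap_iff (algebraMap ↥L⟮t⟯ F).injective).mp hx
  obtain ⟨y, hy⟩ := IsIntegrallyClosed.isIntegral_iff.mp hx'
  obtain ⟨a, ha⟩ := Algebra.adjoin_mem_exists_aeval A t y.2
  refine ⟨a, ?_⟩
  rw [ha]
  exact (congrArg (fun z : ↥L⟮t⟯ => (z : F)) hy).symm

end Basic

section Family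

variable {A : Type*} [CommRing A] [IsDomain A] [IsDiscreteValuationRing A] [CharZero A]
variable {L : Type*} [Field L] [Algebra A L] [IsFractionRing A L]
variable {F : Type u} [Field F] [Algebra A F] [Algebra L F] [IsScalarTower A L F]
variable {ϖ : A}

/-- `A[X] ≃ A[t]`. -/
def s18tlgE (t : F) (htA : Transcendental A t) : A[X] ≃ₐ[A] ↥(s18tChart A t) :=
  algEquivOfTranscendental A t htA

theorem s18tlgE_coe (t : F) (htA : Transcendental A t) (f : A[X]) :
    ((s18tlgE t htA f : ↥(s18tChart A t)) : F) = aeval t f :=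
  aeval_subalgebra_coe f (Algebra.adjoin A {t}) ⟨t, Algebra.self_mem_adjoin_singleton A t⟩

theorem s18tlgE_C (t : F) (htA : Transcendental A t) (a : A) :
    s18tlgE t htA (C a) = algebraMap A ↥(s18tChart A t) a :=
  (s18tlgE t htA).commutes a

theorem s18tlgE_surj (t : F) (htA : Transcendental A t) (r : ↥(s18tChart A t)) :
    ∃ a : A[X], s18tlgE t htA a = r := (s18tlgE t htA).surjective r

/-- `A[t] / ϖ` is a principal ideal ring. -/
theorem s18tlg_isPrincipalIdealRing_quot (hC : Prime (C ϖ : A[X])) {t : F}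
    (htA : Transcendental A t) :
    IsPrincipalIdealRing (↥(s18tChart A t) ⧸ Ideal.span {s18tlgE t htA (C ϖ)}) := by
  have hϖ : Irreducible ϖ := (Polynomial.prime_C_iff.mp hC).irreducible
  have hmax : IsLocalRing.maximalIdeal A = Ideal.span {ϖ} := hϖ.maximalIdeal_eq
  let f0 : A →+* ↥(s18tChart A t) ⧸ Ideal.span {s18tlgE t htA (C ϖ)} :=
    (Ideal.Quotient.mk _).comp (algebraMap A ↥(s18tChart A t))
  have hf0 : ∀ a ∈ IsLocalRing.maximalIdeal A, f0 a = 0 := by
    intro a ha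
    rw [hmax, Ideal.mem_span_singleton] at ha
    obtain ⟨a', rfl⟩ := ha
    change Ideal.Quotient.mk _ (algebraMap A ↥(s18tChart A t) (ϖ * a')) = 0
    rw [Ideal.Quotient.eq_zero_iff_mem, Ideal.mem_span_singleton, map_mul, s18tlgE_C]
    exact Dvd.intro _ rfl
  let lf : IsLocalRing.ResidueField A →+* ↥(s18tChart A t) ⧸ Ideal.span {s18tlgE t htA (C ϖ)} :=
    Ideal.Quotient.lift (IsLocalRing.maximalIdeal A) f0 hf0
  let ψ : (IsLocalRing.ResidueField A)[X] →+*
      ↥(s18tChart A t) ⧸ Ideal.span {s18tlgE t htA (C ϖ)} :=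
    Polynomial.eval₂RingHom lf (Ideal.Quotient.mk _ (s18tlgE t htA X))
  refine IsPrincipalIdealRing.of_surjective ψ ?_
  intro x
  obtain ⟨r, rfl⟩ := Ideal.Quotient.mk_surjective x
  obtain ⟨a, rfl⟩ := s18tlgE_surj t htA r
  refine ⟨a.map (IsLocalRing.residue A), ?_⟩
  change Polynomial.eval₂ lf _ (a.map (IsLocalRing.residue A)) = _
  rw [Polynomial.eval₂_map]
  have : lf.comp (IsLocalRing.residue A) = f0 := by
    ext a
    rfl
  rw [this]
  change Polynomial.eval₂ ((Ideal.Quotient.mk _).comp (algebraMap A ↥(s18tChart A t))) _ a = _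
  rw [← Polynomial.hom_eval₂]
  congr 1
  rw [← aeval_def]
  have h1 : (s18tlgE t htA : A[X] →ₐ[A] ↥(s18tChart A t)) = aeval (s18tlgE t htA X) := by
    apply Polynomial.algHom_ext
    rw [aeval_X]
    rfl
  exact (DFunLike.congr_fun h1 a).symm

/-- abstract form of (f1). -/
theorem s18tlg_exists_family {R M : Type*} [CommRing R] [AddCommGroup M] [Module R M]
    [Module.Finite R M] (π : R) [IsDomain (R ⧸ Ideal.span {π})]
    [IsPrincipalIdealRing (R ⧸ Ideal.span {π})]
    (htf : ∀ (r : R) (m : M), (∃ m', r • m = π • m') → π ∣ r ∨ ∃ m', m = π • m') :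
    ∃ (n : ℕ) (v : Fin n → M),
      (∀ m : M, ∃ c : R, π ∣ c - 1 ∧ c • m ∈ Submodule.span R (Set.range v)) ∧
      (∀ a : Fin n → R, (∃ m', ∑ i, a i • v i = π • m') → ∀ i, π ∣ a i) := by
  classical
  set I : Ideal R := Ideal.span {π} with hI
  have hmem : ∀ m : M, m ∈ (I • ⊤ : Submodule R M) ↔ ∃ m', m = π • m' := by
    intro m
    rw [hI, Submodule.ideal_span_singleton_smul, Submodule.mem_smul_pointwise_iff_exists]
    constructor
    · rintro ⟨m', -, rfl⟩; exact ⟨m', rfl⟩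
    · rintro ⟨m', rfl⟩; exact ⟨m', trivial, rfl⟩
  let Mb := M ⧸ (I • ⊤ : Submodule R M)
  have hmk0 : ∀ m : M, (Submodule.Quotient.mk m : Mb) = 0 ↔ ∃ m', m = π • m' := by
    intro m
    rw [Submodule.Quotient.mk_eq_zero, hmem]
  haveI : Module.Finite R Mb := inferInstance
  haveI : Module.Finite (R ⧸ I) Mb := Module.Finite.of_restrictScalars_finite R (R ⧸ I) Mb
  haveI : Module.IsTorsionFree (R ⧸ I) Mb := by
    refine Module.IsTorsionFree.of_smul_eq_zero ?_
    intro r m h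
    obtain ⟨r, rfl⟩ := Ideal.Quotient.mk_surjective r
    obtain ⟨m, rfl⟩ := Submodule.Quotient.mk_surjective _ m
    rw [Module.Quotient.mk_smul_mk, hmk0] at h
    rcases htf r m h with h1 | h1
    · left
      rw [Ideal.Quotient.eq_zero_iff_mem, hI, Ideal.mem_span_singleton]
      exact h1
    · right
      exact (hmk0 m).mpr h1
  obtain ⟨n, bb⟩ : Σ n, Module.Basis (Fin n) (R ⧸ I) Mb := Module.basisOfFiniteTypeTorsionFree'
  have hsurj : ∀ i, ∃ m : M, (Submodule.Quotient.mk m : Mb) = bb i := fun i =>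
    Submodule.Quotient.mk_surjective _ (bb i)
  choose v hv using hsurj
  refine ⟨n, v, ?_, ?_⟩
  · -- Nakayama
    have htop : (⊤ : Submodule R M) ≤ Submodule.span R (Set.range v) ⊔ I • (⊤ : Submodule R M) := by
      intro m _
      -- expand the class of m in the basis
      have hrepr := bb.sum_repr (Submodule.Quotient.mk m : Mb)
      choose a ha using fun i => Ideal.Quotient.mk_surjective (bb.repr (Submodule.Quotient.mk m) i)
      have h2 : (Submodule.Quotient.mk (m - ∑ i, a i • v i) : Mb) = 0 := by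
        rw [Submodule.Quotient.mk_sub, ← Submodule.mkQ_apply _ (∑ i, a i • v i), map_sum,
          sub_eq_zero, ← hrepr]
        refine Finset.sum_congr rfl fun i _ => ?_
        rw [← ha i, ← hv i]
        rfl
      rw [Submodule.Quotient.mk_eq_zero] at h2
      have : m = ∑ i, a i • v i + (m - ∑ i, a i • v i) := by abel
      rw [this]
      refine Submodule.add_mem_sup (Submodule.sum_mem _ fun i _ => ?_) h2
      exact Submodule.smul_mem _ _ (Submodule.subset_span ⟨i, rfl⟩)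
    obtain ⟨r, hr1, hr2⟩ := Submodule.exists_sub_one_mem_and_smul_le_of_fg_of_le_sup
      (N := Submodule.span R (Set.range v)) (N' := ⊤) (P := ⊤) (I := I)
      (Module.Finite.fg_top) le_rfl htop
    intro m
    refine ⟨r, ?_, ?_⟩
    · rw [hI, Ideal.mem_span_singleton] at hr1
      exact hr1
    · exact hr2 (Submodule.smul_mem_pointwise_smul m r ⊤ trivial)
  · rintro a ⟨m', hm'⟩ i
    have h0 : (Submodule.Quotient.mk (∑ i, a i • v i) : Mb) = 0 := (hmk0 _).mpr ⟨m', hm'⟩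
    rw [← Submodule.mkQ_apply, map_sum] at h0
    have h1 : ∑ i, (Ideal.Quotient.mk I (a i)) • bb i = 0 := by
      rw [← h0]
      refine Finset.sum_congr rfl fun i _ => ?_
      rw [← hv i]
      rfl
    have h2 := Fintype.linearIndependent_iff.mp bb.linearIndependent _ h1 i
    rw [Ideal.Quotient.eq_zero_iff_mem, hI, Ideal.mem_span_singleton] at h2
    exact h2

/-- The instances making `L(t)` the fraction field of `A[t]`. -/
theorem s18tlg_isFractionRing {t : F} (ht : Transcendental L t) :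
    @IsFractionRing ↥(s18tChart A t) _ ↥L⟮t⟯ _ (s18tlgChartToK0 L t).toAlgebra := by
  have htA : Transcendental A t := s18tb_transcendental ht
  letI : Algebra ↥(s18tChart A t) ↥L⟮t⟯ := (s18tlgChartToK0 L t).toAlgebra
  haveI : FaithfulSMul ↥(s18tChart A t) ↥L⟮t⟯ := by
    rw [faithfulSMul_iff_algebraMap_injective]
    intro x y hxy
    apply Subtype.ext
    exact congrArg (fun z : ↥L⟮t⟯ => (z : F)) hxy
  refine IsFractionRing.of_field _ _ ?_
  rintro ⟨z, hz⟩
  obtain ⟨a, b, hb, hab⟩ := s18tlg_exists_frac (A := A) (L := L) z hz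
  refine ⟨⟨aeval t a, s18tb_aeval_mem_chart t a⟩, ⟨aeval t b, s18tb_aeval_mem_chart t b⟩, ?_⟩
  apply Subtype.ext
  change z = aeval t a / aeval t b
  rw [eq_div_iff (s18tlg_aeval_ne_zero htA hb), hab]

/-- (f1), concrete form: a family `b` in `P` such that `P ⊆ Σ A[t] b_i` up to multipliers
`c ≡ 1 mod ϖ`, and `b` is independent modulo `ϖ`. -/
theorem s18tlg_exists_family_concrete (hC : Prime (C ϖ : A[X])) (t : F) (ht : Transcendental L t)
    [FiniteDimensional L⟮t⟯ F] :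
    ∃ (n : ℕ) (b : Fin n → F), (∀ i, b i ∈ s18tInt A t) ∧
      (∀ x ∈ s18tInt A t, ∃ c : A[X], C ϖ ∣ c - 1 ∧ ∃ a : Fin n → A[X],
        aeval t c * x = ∑ i, aeval t (a i) * b i) ∧
      (∀ a : Fin n → A[X],
        (∃ y ∈ s18tInt A t, ∑ i, aeval t (a i) * b i = algebraMap A F ϖ * y) →
          ∀ i, C ϖ ∣ a i) := by
  classical
  have htA : Transcendental A t := s18tb_transcendental ht
  haveI : IsIntegrallyClosed ↥(s18tChart A t) :=
    IsIntegrallyClosed.of_equiv (s18tlgE t htA).toRingEquiv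
  haveI : IsNoetherianRing ↥(s18tChart A t) :=
    isNoetherianRing_of_ringEquiv A[X] (s18tlgE t htA).toRingEquiv
  letI : Algebra ↥(s18tChart A t) ↥L⟮t⟯ := (s18tlgChartToK0 L t).toAlgebra
  haveI : IsScalarTower ↥(s18tChart A t) ↥L⟮t⟯ F := IsScalarTower.of_algebraMap_eq (fun _ => rfl)
  haveI : IsFractionRing ↥(s18tChart A t) ↥L⟮t⟯ := s18tlg_isFractionRing ht
  haveI : CharZero L := charZero_of_injective_algebraMap (IsFractionRing.injective A L)
  haveI : CharZero ↥L⟮t⟯ := charZero_of_injective_algebraMap (algebraMap L ↥L⟮t⟯).injective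
  haveI : Module.Finite ↥(s18tChart A t) ↥(integralClosure ↥(s18tChart A t) F) :=
    IsIntegralClosure.finite ↥(s18tChart A t) ↥L⟮t⟯ F ↥(integralClosure ↥(s18tChart A t) F)
  have hπ' : Prime (s18tlgE t htA (C ϖ)) := (MulEquiv.prime_iff (s18tlgE t htA)).mpr hC
  haveI : (Ideal.span {s18tlgE t htA (C ϖ)}).IsPrime :=
    (Ideal.span_singleton_prime hπ'.ne_zero).mpr hπ'
  haveI : IsDomain (↥(s18tChart A t) ⧸ Ideal.span {s18tlgE t htA (C ϖ)}) :=
    Ideal.Quotient.isDomain _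
  haveI : IsPrincipalIdealRing (↥(s18tChart A t) ⧸ Ideal.span {s18tlgE t htA (C ϖ)}) :=
    s18tlg_isPrincipalIdealRing_quot hC htA
  have hϖF : algebraMap A F ϖ ≠ 0 := by
    have := s18tlg_aeval_ne_zero htA hC.ne_zero
    rwa [aeval_C] at this
  have hπF : ((s18tlgE t htA (C ϖ) : ↥(s18tChart A t)) : F) = algebraMap A F ϖ := by
    rw [s18tlgE_coe, aeval_C]
  have htf : ∀ (r : ↥(s18tChart A t)) (m : ↥(integralClosure ↥(s18tChart A t) F)),
      (∃ m', r • m = s18tlgE t htA (C ϖ) • m') →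
        s18tlgE t htA (C ϖ) ∣ r ∨ ∃ m', m = s18tlgE t htA (C ϖ) • m' := by
    rintro r m ⟨m', hm'⟩
    by_cases hr : s18tlgE t htA (C ϖ) ∣ r
    · exact Or.inl hr
    right
    have hm'F : (r : F) * (m : F) = algebraMap A F ϖ * (m' : F) := by
      have := congrArg (fun z : ↥(integralClosure ↥(s18tChart A t) F) => (z : F)) hm'
      simpa [Algebra.smul_def, hπF] using this
    have hy : IsIntegral ↥(s18tChart A t) ((m : F) / algebraMap A F ϖ) := by
      refine s18tb_isIntegral_of_smul hπ' hr ?_ ?_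
      · have : s18tlgE t htA (C ϖ) • ((m : F) / algebraMap A F ϖ) = (m : F) := by
          rw [Algebra.smul_def]
          change ((s18tlgE t htA (C ϖ) : ↥(s18tChart A t)) : F) * _ = _
          rw [hπF, mul_div_cancel₀ _ hϖF]
        rw [this]; exact m.2
      · have : r • ((m : F) / algebraMap A F ϖ) = (m' : F) := by
          rw [Algebra.smul_def]
          change (r : F) * _ = _
          rw [← mul_div_assoc, hm'F, mul_div_cancel_left₀ _ hϖF]
        rw [this]; exact m'.2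
    refine ⟨⟨(m : F) / algebraMap A F ϖ, hy⟩, ?_⟩
    apply Subtype.ext
    change (m : F) = ((s18tlgE t htA (C ϖ) : ↥(s18tChart A t)) : F) * ((m : F) / algebraMap A F ϖ)
    rw [hπF, mul_div_cancel₀ _ hϖF]
  obtain ⟨n, v, h1, h2⟩ := s18tlg_exists_family (s18tlgE t htA (C ϖ)) htf
  have hsum : ∀ c : Fin n → ↥(s18tChart A t),
      ((∑ i, c i • v i : ↥(integralClosure ↥(s18tChart A t) F)) : F) =
        ∑ i, (c i : F) * (v i : F) := by
    intro c
    rw [← Subalgebra.coe_val, map_sum]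
    rfl
  refine ⟨n, fun i => (v i : F), fun i => (v i).2, ?_, ?_⟩
  · intro x hx
    obtain ⟨c, hc1, hc2⟩ := h1 ⟨x, hx⟩
    obtain ⟨c0, rfl⟩ := s18tlgE_surj t htA c
    obtain ⟨a, ha⟩ := (Submodule.mem_span_range_iff_exists_fun _).mp hc2
    choose a0 ha0 using fun i => s18tlgE_surj t htA (a i)
    refine ⟨c0, ?_, a0, ?_⟩
    · rw [← map_dvd_iff (s18tlgE t htA), map_sub, map_one]
      exact hc1
    · have := congrArg (fun z : ↥(integralClosure ↥(s18tChart A t) F) => (z : F)) ha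
      simp only [hsum] at this
      rw [← s18tlgE_coe t htA c0]
      simp only [← s18tlgE_coe t htA, ha0]
      rw [this]
      rfl
  · rintro a ⟨y, hy, hay⟩ i
    have := h2 (fun i => s18tlgE t htA (a i)) ⟨⟨y, hy⟩, ?_⟩ i
    · exact (map_dvd_iff (s18tlgE t htA)).mp this
    · apply Subtype.ext
      rw [hsum]
      simp only [s18tlgE_coe]
      rw [hay, ← hπF]
      rfl

end Family

section Indep

variable {A : Type*} [CommRing A] [IsDomain A] [IsDiscreteValuationRing A] [CharZero A]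
variable {L : Type*} [Field L] [Algebra A L] [IsFractionRing A L]
variable {F : Type u} [Field F] [Algebra A F] [Algebra L F] [IsScalarTower A L F]
variable {ϖ : A}

/-- independence over `A[t]` from independence modulo `ϖ`. -/
theorem s18tlg_indep_poly (hC : Prime (C ϖ : A[X])) {t : F} (htA : Transcendental A t)
    {n : ℕ} (b : Fin n → F)
    (h3 : ∀ a : Fin n → A[X],
        (∃ y ∈ s18tInt A t, ∑ i, aeval t (a i) * b i = algebraMap A F ϖ * y) → ∀ i, C ϖ ∣ a i)
    (a : Fin n → A[X]) (ha : ∑ i, aeval t (a i) * b i = 0) : ∀ i, a i = 0 := by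
  have hϖF : algebraMap A F ϖ ≠ 0 := by
    have := s18tlg_aeval_ne_zero htA hC.ne_zero
    rwa [aeval_C] at this
  have key : ∀ k : ℕ, ∀ a : Fin n → A[X], ∑ i, aeval t (a i) * b i = 0 →
      ∀ i, (C ϖ) ^ k ∣ a i := by
    intro k
    induction k with
    | zero => intro a _ i; simp
    | succ k ih =>
      intro a ha i
      have h1 := ih a ha
      choose a' ha' using h1
      have h2 : ∑ i, aeval t (a' i) * b i = 0 := by
        have : (algebraMap A F ϖ) ^ k * ∑ i, aeval t (a' i) * b i = 0 := by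
          rw [← ha, Finset.mul_sum]
          refine Finset.sum_congr rfl fun i _ => ?_
          rw [ha' i, map_mul, map_pow, aeval_C]
          ring
        exact (mul_eq_zero.mp this).resolve_left (pow_ne_zero _ hϖF)
      have h3' := h3 a' ⟨0, Subring.zero_mem _, by rw [h2, mul_zero]⟩ i
      rw [ha' i, pow_succ]
      exact mul_dvd_mul_left _ h3'
  intro i
  by_contra hne
  obtain ⟨k, hk⟩ := FiniteMultiplicity.of_prime_left hC hne
  exact hk (key (k + 1) a ha i)

/-- independence over `L(t)`. -/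
theorem s18tlg_linearIndependent (hC : Prime (C ϖ : A[X])) {t : F} (ht : Transcendental L t)
    {n : ℕ} (b : Fin n → F)
    (h3 : ∀ a : Fin n → A[X],
        (∃ y ∈ s18tInt A t, ∑ i, aeval t (a i) * b i = algebraMap A F ϖ * y) → ∀ i, C ϖ ∣ a i) :
    LinearIndependent ↥L⟮t⟯ b := by
  classical
  have htA : Transcendental A t := s18tb_transcendental ht
  rw [Fintype.linearIndependent_iff]
  intro g hg i
  choose α β hβ hαβ using fun i => s18tlg_exists_frac (A := A) (L := L) (t := t) (g i : F) (g i).2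
  have hB : aeval t (∏ j, β j) ≠ 0 :=
    s18tlg_aeval_ne_zero htA (Finset.prod_ne_zero_iff.mpr fun j _ => hβ j)
  have ha : ∀ i, aeval t (α i * ∏ j ∈ Finset.univ.erase i, β j) = (g i : F) * aeval t (∏ j, β j) := by
    intro i
    rw [← Finset.mul_prod_erase Finset.univ β (Finset.mem_univ i), map_mul, map_mul, ← hαβ i]
    ring
  have h0 : ∑ i, aeval t (α i * ∏ j ∈ Finset.univ.erase i, β j) * b i = 0 := by
    have : ∑ i, (g i : F) * b i = 0 := by
      rw [← hg]
      refine Finset.sum_congr rfl fun i _ => ?_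
      rw [Algebra.smul_def]
      rfl
    calc ∑ i, aeval t (α i * ∏ j ∈ Finset.univ.erase i, β j) * b i
        = aeval t (∏ j, β j) * ∑ i, (g i : F) * b i := by
          rw [Finset.mul_sum]
          refine Finset.sum_congr rfl fun i _ => ?_
          rw [ha i]; ring
      _ = 0 := by rw [this, mul_zero]
  have h1 := s18tlg_indep_poly hC htA b h3 _ h0 i
  have h2 := ha i
  rw [h1, map_zero] at h2
  have h3 : (g i : F) = 0 := (mul_eq_zero.mp h2.symm).resolve_right hB
  exact Subtype.ext h3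

/-- every element of `F` has a nonzero `A[t]`-multiple in `P`. -/
theorem s18tlg_exists_multiple_mem_int {t : F} (ht : Transcendental L t)
    [FiniteDimensional L⟮t⟯ F] (x : F) :
    ∃ r : A[X], r ≠ 0 ∧ aeval t r * x ∈ s18tInt A t := by
  have htA : Transcendental A t := s18tb_transcendental ht
  letI : Algebra ↥(s18tChart A t) ↥L⟮t⟯ := (s18tlgChartToK0 L t).toAlgebra
  haveI : IsScalarTower ↥(s18tChart A t) ↥L⟮t⟯ F := IsScalarTower.of_algebraMap_eq (fun _ => rfl)
  haveI : IsFractionRing ↥(s18tChart A t) ↥L⟮t⟯ := s18tlg_isFractionRing ht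
  have hx : IsAlgebraic ↥(s18tChart A t) x :=
    (IsFractionRing.isAlgebraic_iff ↥(s18tChart A t) ↥L⟮t⟯ F).mpr (IsAlgebraic.of_finite ↥L⟮t⟯ x)
  obtain ⟨y, hy0, hy⟩ := hx.exists_integral_multiple
  obtain ⟨r, rfl⟩ := s18tlgE_surj t htA y
  refine ⟨r, fun h => hy0 (by rw [h, map_zero]), ?_⟩
  rw [mem_s18tInt, ← s18tlgE_coe t htA r]
  rw [Algebra.smul_def] at hy
  exact hy

/-- the family of (f1) spans `F` over `L(t)`. -/
theorem s18tlg_span_eq_top (hC : Prime (C ϖ : A[X])) {t : F} (ht : Transcendental L t)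
    [FiniteDimensional L⟮t⟯ F] {n : ℕ} (b : Fin n → F)
    (h2 : ∀ x ∈ s18tInt A t, ∃ c : A[X], C ϖ ∣ c - 1 ∧ ∃ a : Fin n → A[X],
        aeval t c * x = ∑ i, aeval t (a i) * b i) :
    ⊤ ≤ Submodule.span ↥L⟮t⟯ (Set.range b) := by
  have htA : Transcendental A t := s18tb_transcendental ht
  intro x _
  obtain ⟨r, hr0, hr⟩ := s18tlg_exists_multiple_mem_int (A := A) ht x
  obtain ⟨c, hc, a, ha⟩ := h2 _ hr
  have hc0 : c ≠ 0 := by
    rintro rfl
    rw [zero_sub, dvd_neg] at hc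
    exact hC.not_isUnit (isUnit_of_dvd_one hc)
  have hcr : aeval t (c * r) ≠ 0 := s18tlg_aeval_ne_zero htA (mul_ne_zero hc0 hr0)
  have hx : x = ∑ i, (⟨aeval t (a i) / aeval t (c * r),
      div_mem (s18tlg_aeval_mem_K0 t (a i)) (s18tlg_aeval_mem_K0 t (c * r))⟩ : ↥L⟮t⟯) • b i := by
    have : ∀ i, (⟨aeval t (a i) / aeval t (c * r),
      div_mem (s18tlg_aeval_mem_K0 t (a i)) (s18tlg_aeval_mem_K0 t (c * r))⟩ : ↥L⟮t⟯) • b i =
        (aeval t (c * r))⁻¹ * (aeval t (a i) * b i) := by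
      intro i
      rw [Algebra.smul_def]
      change aeval t (a i) / aeval t (c * r) * b i = _
      rw [div_eq_mul_inv]; ring
    simp only [this]
    rw [← Finset.mul_sum, ← ha, map_mul]
    field_simp
    have h1 := s18tlg_aeval_ne_zero htA hc0
    have h2 := s18tlg_aeval_ne_zero htA hr0
    field_simp
  rw [hx]
  exact Submodule.sum_mem _ fun i _ => Submodule.smul_mem _ _ (Submodule.subset_span ⟨i, rfl⟩)

end Indep

section Det

variable {A : Type*} [CommRing A] [IsDomain A] [IsDiscreteValuationRing A] [CharZero A]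
variable {L : Type*} [Field L] [Algebra A L] [IsFractionRing A L]
variable {F : Type u} [Field F] [Algebra A F] [Algebra L F] [IsScalarTower A L F]
variable {ϖ : A}

/-- `P_(p) = Σ A[t]_(p) b_i` for every prime `p` dividing no `c ≡ 1 mod ϖ`. -/
theorem s18tlg_spanLoc {t : F} (ht : Transcendental L t) {n : ℕ} (b : Fin n → F)
    (h2 : ∀ x ∈ s18tInt A t, ∃ c : A[X], C ϖ ∣ c - 1 ∧ ∃ a : Fin n → A[X],
        aeval t c * x = ∑ i, aeval t (a i) * b i)
    (p0 : A[X]) (hp0 : Prime p0) (hp0c : ∀ c : A[X], C ϖ ∣ c - 1 → ¬ p0 ∣ c)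
    (x : F) (hx : x ∈ s18tIntLoc A t p0 hp0) :
    ∃ o : Fin n → F, (∀ i, o i ∈ s18tLoc A t p0 hp0) ∧ x = ∑ i, o i * b i := by
  have htA : Transcendental A t := s18tb_transcendental ht
  obtain ⟨b0, hb0, hb0x⟩ := s18tb_exists_mul_mem t htA p0 hp0 x hx
  obtain ⟨c, hc, a, ha⟩ := h2 _ hb0x
  have hcb : ¬ p0 ∣ c * b0 := fun h => (hp0.dvd_or_dvd h).elim (hp0c c hc) hb0
  have hne : aeval t (c * b0) ≠ 0 := s18tlg_aeval_ne_zero htA (s18tlg_ne_zero_of_not_dvd hcb)
  refine ⟨fun i => aeval t (a i) / aeval t (c * b0),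
    fun i => s18tlg_div_mem_loc htA p0 hp0 (a i) hcb, ?_⟩
  have : ∀ i, aeval t (a i) / aeval t (c * b0) * b i =
      (aeval t (c * b0))⁻¹ * (aeval t (a i) * b i) := by
    intro i; rw [div_eq_mul_inv]; ring
  simp only [this]
  rw [← Finset.mul_sum, ← ha, ← mul_assoc (aeval t c), ← map_mul, inv_mul_cancel_left₀ hne]

/-- the Gauss prime divides no `c ≡ 1`. -/
theorem s18tlg_gauss_not_dvd (hC : Prime (C ϖ : A[X])) (c : A[X]) (hc : C ϖ ∣ c - 1) :
    ¬ C ϖ ∣ c := fun h =>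
  hC.not_isUnit (isUnit_of_dvd_one (by simpa using dvd_sub h hc))

/-- `K₀`-linearity of the trace, with coefficients in `F` lying in `L(t)`. -/
theorem s18tlg_trace_sum {t : F} {n : ℕ} (z : F) (o w : Fin n → F) (ho : ∀ j, o j ∈ L⟮t⟯) :
    ((Algebra.trace ↥L⟮t⟯ F (z * ∑ j, o j * w j) : ↥L⟮t⟯) : F) =
      ∑ j, o j * ((Algebra.trace ↥L⟮t⟯ F (z * w j) : ↥L⟮t⟯) : F) := by
  have h1 : z * ∑ j, o j * w j = ∑ j, (⟨o j, ho j⟩ : ↥L⟮t⟯) • (z * w j) := by
    rw [Finset.mul_sum]
    refine Finset.sum_congr rfl fun j _ => ?_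
    rw [Algebra.smul_def]
    change _ = o j * (z * w j)
    ring
  rw [h1, map_sum]
  simp only [map_smul, smul_eq_mul]
  rw [IntermediateField.coe_sum]
  rfl

/-- (f2), local step: self-duality at `p0` + `P_(p0) = Σ A[t]_(p0) b_i` ⟹ `p0 ∤ det Tr(b_i b_j)`. -/
theorem s18tlg_not_dvd_det {t : F} (ht : Transcendental L t) [FiniteDimensional L⟮t⟯ F]
    {n : ℕ} (B : Module.Basis (Fin n) ↥L⟮t⟯ F)
    (M' : Matrix (Fin n) (Fin n) A[X])
    (hM' : ∀ i j, ((Algebra.trace ↥L⟮t⟯ F (B i * B j) : ↥L⟮t⟯) : F) = aeval t (M' i j))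
    (p0 : A[X]) (hp0 : Prime p0)
    (hspan : ∀ x ∈ s18tIntLoc A t p0 hp0, ∃ o : Fin n → F,
      (∀ i, o i ∈ s18tLoc A t p0 hp0) ∧ x = ∑ i, o i * B i)
    (hsd : S18SelfDual A L t p0 hp0) : ¬ p0 ∣ M'.det := by
  classical
  have htA : Transcendental A t := s18tb_transcendental ht
  haveI : CharZero L := charZero_of_injective_algebraMap (IsFractionRing.injective A L)
  haveI : CharZero ↥L⟮t⟯ := charZero_of_injective_algebraMap (algebraMap L ↥L⟮t⟯).injective
  let Bd := (Algebra.traceForm ↥L⟮t⟯ F).dualBasis (traceForm_nondegenerate ↥L⟮t⟯ F) B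
  have hBd : ∀ i j, Algebra.trace ↥L⟮t⟯ F (Bd i * B j) = if j = i then 1 else 0 := fun i j =>
    (Algebra.traceForm ↥L⟮t⟯ F).apply_dualBasis_left (traceForm_nondegenerate ↥L⟮t⟯ F) B i j
  have hBdF : ∀ i j, ((Algebra.trace ↥L⟮t⟯ F (Bd i * B j) : ↥L⟮t⟯) : F) =
      if j = i then 1 else 0 := by
    intro i j
    rw [hBd]
    split_ifs <;> simp
  have hBdmem : ∀ i, Bd i ∈ s18tIntLoc A t p0 hp0 := by
    intro i
    apply hsd
    intro y hy
    obtain ⟨o, ho, rfl⟩ := hspan y hy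
    rw [s18tlg_trace_sum (Bd i) o B (fun j => s18tlg_loc_le_K0 htA (ho j))]
    simp only [hBdF, mul_ite, mul_one, mul_zero, Finset.sum_ite_eq', Finset.mem_univ, if_true]
    exact ho i
  choose Cm hCm hBdC using fun i => hspan (Bd i) (hBdmem i)
  have hprod : (Matrix.of Cm) * Matrix.transpose (M'.map (aeval t)) = 1 := by
    ext i j
    rw [Matrix.mul_apply, Matrix.one_apply]
    have h1 := hBdF i j
    rw [hBdC i, mul_comm, s18tlg_trace_sum (B j) (Cm i) B
      (fun k => s18tlg_loc_le_K0 htA (hCm i k))] at h1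
    simp only [Matrix.of_apply, Matrix.transpose_apply, Matrix.map_apply, ← hM']
    rw [h1]
    by_cases hij : i = j
    · rw [if_pos hij, if_pos hij.symm]
    · rw [if_neg hij, if_neg (Ne.symm hij)]
  let Cs : Matrix (Fin n) (Fin n) ↥(s18tLoc A t p0 hp0) := fun i k => ⟨Cm i k, hCm i k⟩
  have hCs : Matrix.of Cm = (s18tLoc A t p0 hp0).subtype.mapMatrix Cs := by
    ext i k
    rfl
  have hdet : ((Cs.det : ↥(s18tLoc A t p0 hp0)) : F) * aeval t M'.det = 1 := by
    have h1 := congrArg Matrix.det hprod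
    rw [Matrix.det_mul, Matrix.det_transpose, Matrix.det_one, hCs, ← RingHom.map_det] at h1
    have h2 : (M'.map (aeval t)).det = aeval t M'.det := by
      rw [AlgHom.map_det]
      rfl
    rw [h2] at h1
    exact h1
  obtain ⟨a, b0, hb0, hab⟩ := s18tlg_loc_eq_div htA (Cs.det).2
  have hb0' : aeval t b0 ≠ 0 := s18tlg_aeval_ne_zero htA (s18tlg_ne_zero_of_not_dvd hb0)
  rw [hab, div_mul_eq_mul_div, div_eq_one_iff_eq hb0', ← map_mul] at hdet
  have := s18tlg_aeval_injective htA hdet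
  intro hdvd
  exact hb0 (this ▸ Dvd.dvd.mul_left hdvd a)

end Det

section Disc

variable {A : Type*} [CommRing A] [IsDomain A] [IsDiscreteValuationRing A] [CharZero A]
variable {L : Type*} [Field L] [Algebra A L] [IsFractionRing A L]
variable {F : Type u} [Field F] [Algebra A F] [Algebra L F] [IsScalarTower A L F]
variable {ϖ : A}

/-- reduction modulo `ϖ` kills exactly the multiples of `C ϖ`. -/
theorem s18tlg_map_eq_zero_iff (hC : Prime (C ϖ : A[X])) (b : A[X]) :
    b.map (IsLocalRing.residue A) = 0 ↔ C ϖ ∣ b := by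
  have hϖ : Irreducible ϖ := (Polynomial.prime_C_iff.mp hC).irreducible
  have hmax : IsLocalRing.maximalIdeal A = Ideal.span {ϖ} := hϖ.maximalIdeal_eq
  rw [Polynomial.ext_iff, Polynomial.C_dvd_iff_dvd_coeff]
  refine forall_congr' fun i => ?_
  rw [coeff_map, coeff_zero, IsLocalRing.residue_eq_zero_iff, hmax, Ideal.mem_span_singleton]

/-- a prime factor through the closed point. -/
theorem s18tlg_exists_prime_dvd (γ : (IsLocalRing.ResidueField A)[X]) (hγ : Irreducible γ)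
    (x : A[X]) (hx0 : x ≠ 0) (hx : γ ∣ x.map (IsLocalRing.residue A)) :
    ∃ g : A[X], Prime g ∧ g ∣ x ∧ γ ∣ g.map (IsLocalRing.residue A) := by
  revert hx0 hx
  refine UniqueFactorizationMonoid.induction_on_prime
    (P := fun x : A[X] => x ≠ 0 → γ ∣ x.map (IsLocalRing.residue A) →
      ∃ g : A[X], Prime g ∧ g ∣ x ∧ γ ∣ g.map (IsLocalRing.residue A)) x ?_ ?_ ?_
  · intro h; exact absurd rfl h
  · intro u hu _ hdvd
    exact absurd (isUnit_of_dvd_unit hdvd (hu.map (mapRingHom (IsLocalRing.residue A))))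
      hγ.not_isUnit
  · intro a p ha0 hp ih _ hdvd
    rw [Polynomial.map_mul] at hdvd
    rcases hγ.prime.dvd_or_dvd hdvd with h | h
    · exact ⟨p, hp, dvd_mul_right p a, h⟩
    · obtain ⟨g, hg, hga, hgγ⟩ := ih ha0 h
      exact ⟨g, hg, hga.mul_left p, hgγ⟩

/-- primes through the closed point divide no `c ≡ 1 mod ϖ`. -/
theorem s18tlg_not_dvd_of_through (hC : Prime (C ϖ : A[X]))
    (γ : (IsLocalRing.ResidueField A)[X]) (hγ : Irreducible γ) (g : A[X])
    (hgγ : γ ∣ g.map (IsLocalRing.residue A)) (c : A[X]) (hc : C ϖ ∣ c - 1) : ¬ g ∣ c := by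
  intro hgc
  have h1 : c.map (IsLocalRing.residue A) = 1 := by
    have := (s18tlg_map_eq_zero_iff hC (c - 1)).mpr hc
    rw [Polynomial.map_sub, Polynomial.map_one, sub_eq_zero] at this
    exact this
  have h2 : g.map (IsLocalRing.residue A) ∣ c.map (IsLocalRing.residue A) :=
    Polynomial.map_dvd _ hgc
  rw [h1] at h2
  exact hγ.not_isUnit (isUnit_of_dvd_one (hgγ.trans h2))

/-- (f2): the reduction of the discriminant does not vanish at the closed point. -/
theorem s18tlg_not_dvd_map_det (hC : Prime (C ϖ : A[X])) {t : F} (ht : Transcendental L t)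
    [FiniteDimensional L⟮t⟯ F]
    {n : ℕ} (B : Module.Basis (Fin n) ↥L⟮t⟯ F)
    (h2 : ∀ x ∈ s18tInt A t, ∃ c : A[X], C ϖ ∣ c - 1 ∧ ∃ a : Fin n → A[X],
        aeval t c * x = ∑ i, aeval t (a i) * B i)
    (M' : Matrix (Fin n) (Fin n) A[X])
    (hM' : ∀ i j, ((Algebra.trace ↥L⟮t⟯ F (B i * B j) : ↥L⟮t⟯) : F) = aeval t (M' i j))
    (hG : S18SelfDual A L t (C ϖ) hC)
    (γ : (IsLocalRing.ResidueField A)[X]) (hγ : Irreducible γ)
    (hloc : ∀ (g : A[X]) (hg : Prime g), ¬ Associated g (C ϖ) →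
      γ ∣ g.map (IsLocalRing.residue A) → S18SelfDual A L t g hg) :
    ¬ γ ∣ M'.det.map (IsLocalRing.residue A) := by
  have hGd : ¬ C ϖ ∣ M'.det :=
    s18tlg_not_dvd_det ht B M' hM' (C ϖ) hC
      (s18tlg_spanLoc ht B h2 (C ϖ) hC (s18tlg_gauss_not_dvd hC)) hG
  intro hdvd
  obtain ⟨g, hg, hgd, hgγ⟩ := s18tlg_exists_prime_dvd γ hγ M'.det
    (s18tlg_ne_zero_of_not_dvd hGd) hdvd
  by_cases hass : Associated g (C ϖ)
  · exact hGd (hass.symm.dvd.trans hgd)
  · exact s18tlg_not_dvd_det ht B M' hM' g hg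
      (s18tlg_spanLoc ht B h2 g hg (s18tlg_not_dvd_of_through hC γ hγ g hgγ))
      (hloc g hg hass hgγ) hgd

/-- traces of elements of `P` lie in `A[t]`. -/
theorem s18tlg_trace_mem_chart {t : F} (ht : Transcendental L t) [FiniteDimensional L⟮t⟯ F]
    {x : F} (hx : x ∈ s18tInt A t) :
    ∃ a : A[X], ((Algebra.trace ↥L⟮t⟯ F x : ↥L⟮t⟯) : F) = aeval t a := by
  letI : Algebra ↥(s18tChart A t) ↥L⟮t⟯ := (s18tlgChartToK0 L t).toAlgebra
  haveI : IsScalarTower ↥(s18tChart A t) ↥L⟮t⟯ F := IsScalarTower.of_algebraMap_eq (fun _ => rfl)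
  have h1 : IsIntegral ↥(s18tChart A t) (Algebra.trace ↥L⟮t⟯ F x) :=
    Algebra.isIntegral_trace ((mem_s18tInt A).mp hx)
  have h2 : IsIntegral ↥(s18tChart A t) ((Algebra.trace ↥L⟮t⟯ F x : ↥L⟮t⟯) : F) :=
    h1.algebraMap
  exact s18tlg_mem_chart_of_isIntegral ht (SetLike.coe_mem _) h2

/-- (f1): the basis. -/
theorem s18tlg_exists_basis (hC : Prime (C ϖ : A[X])) (t : F) (ht : Transcendental L t)
    [FiniteDimensional L⟮t⟯ F] :
    ∃ (n : ℕ) (B : Module.Basis (Fin n) ↥L⟮t⟯ F), (∀ i, B i ∈ s18tInt A t) ∧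
      (∀ x ∈ s18tInt A t, ∃ c : A[X], C ϖ ∣ c - 1 ∧ ∃ a : Fin n → A[X],
        aeval t c * x = ∑ i, aeval t (a i) * B i) := by
  obtain ⟨n, b, h1, h2, h3⟩ := s18tlg_exists_family_concrete hC t ht
  refine ⟨n, Module.Basis.mk (s18tlg_linearIndependent hC ht b h3) (s18tlg_span_eq_top hC ht b h2),
    ?_, ?_⟩
  · intro i; rw [Module.Basis.mk_apply]; exact h1 i
  · simpa only [Module.Basis.mk_apply] using h2

end Disc

section Red

/-- generic: the preimage of an integrally closed domain `Λ ⊆ K = Frac Λ` under a ring hom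
`φ : S → K` is integrally closed in `S`. -/
theorem s18tlg_mem_comap_of_isIntegralElem {S K Λ : Type*} [CommRing S] [Field K] [CommRing Λ]
    [IsDomain Λ] [Algebra Λ K] [IsFractionRing Λ K] [IsIntegrallyClosed Λ] (φ : S →+* K) (x : S)
    (hx : ((algebraMap Λ K).range.comap φ).subtype.IsIntegralElem x) :
    x ∈ (algebraMap Λ K).range.comap φ := by
  obtain ⟨p, hp, hpx⟩ := hx
  set ψ : ↥((algebraMap Λ K).range.comap φ) →+* K := φ.comp (Subring.subtype _) with hψ
  have h0 : eval₂ ψ (φ x) p = 0 := by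
    rw [hψ, ← Polynomial.hom_eval₂, hpx, map_zero]
  have hl : p.map ψ ∈ Polynomial.lifts (algebraMap Λ K) := by
    rw [Polynomial.lifts_iff_coeff_lifts]
    intro k
    rw [coeff_map]
    exact (p.coeff k).2
  obtain ⟨q, hq1, -, hq2⟩ := Polynomial.lifts_and_degree_eq_and_monic hl (hp.map ψ)
  have hint : IsIntegral Λ (φ x) := by
    refine ⟨q, hq2, ?_⟩
    rw [Polynomial.eval₂_eq_eval_map, hq1, Polynomial.eval_map, h0]
  obtain ⟨y, hy⟩ := IsIntegrallyClosed.isIntegral_iff.mp hint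
  exact ⟨y, hy⟩

variable {A : Type*} [CommRing A] [IsDomain A] [IsDiscreteValuationRing A] [CharZero A]
variable {L : Type*} [Field L] [Algebra A L] [IsFractionRing A L]
variable {F : Type u} [Field F] [Algebra A F] [Algebra L F] [IsScalarTower A L F]
variable {ϖ : A}

/-- `A[t]_(p)` is the localisation of `A[t]` at the complement of `(p)` (helper13's argument). -/
theorem s18tlg_isLocalization (t : F) (htA : Transcendental A t) (p : A[X]) (hp : Prime p) :
    @IsLocalization _ _ (s18tbDen t p hp) ↥(s18tLoc A t p hp) _ (s18tbIncl t p hp).toAlgebra := by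
  letI : Algebra ↥(s18tChart A t) ↥(s18tLoc A t p hp) := (s18tbIncl t p hp).toAlgebra
  rw [isLocalization_iff]
  refine ⟨?_, ?_, ?_⟩
  · rintro ⟨x, b, hb, hx⟩
    have hbt : aeval t b ≠ 0 := s18tlg_aeval_ne_zero htA (s18tlg_ne_zero_of_not_dvd hb)
    have hinv : (aeval t b)⁻¹ ∈ s18tLoc A t p hp :=
      ⟨1, b, hb, by rw [inv_mul_cancel₀ hbt]; simp⟩
    refine isUnit_iff_exists_inv.mpr ⟨⟨(aeval t b)⁻¹, hinv⟩, ?_⟩
    apply Subtype.ext
    change (x : F) * (aeval t b)⁻¹ = 1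
    rw [hx, mul_inv_cancel₀ hbt]
  · rintro ⟨z, a, b, hb, hz⟩
    refine ⟨(⟨aeval t a, s18tb_aeval_mem_chart t a⟩,
      ⟨⟨aeval t b, s18tb_aeval_mem_chart t b⟩, b, hb, rfl⟩), ?_⟩
    apply Subtype.ext
    exact hz
  · intro x y hxy
    refine ⟨1, ?_⟩
    have : (x : F) = (y : F) := congrArg (fun w : ↥(s18tLoc A t p hp) => (w : F)) hxy
    rw [Subtype.ext this]

/-- reduction `A[t] → Frac k₀[X]`. -/
def s18tlgRed (t : F) (htA : Transcendental A t) :
    ↥(s18tChart A t) →+* FractionRing (IsLocalRing.ResidueField A)[X] :=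
  (algebraMap (IsLocalRing.ResidueField A)[X] (FractionRing (IsLocalRing.ResidueField A)[X])).comp
    ((mapRingHom (IsLocalRing.residue A)).comp (s18tlgE t htA).symm.toAlgHom.toRingHom)

theorem s18tlgRed_apply (t : F) (htA : Transcendental A t) (a : A[X]) :
    s18tlgRed t htA (s18tlgE t htA a) =
      algebraMap (IsLocalRing.ResidueField A)[X] (FractionRing (IsLocalRing.ResidueField A)[X])
        (a.map (IsLocalRing.residue A)) := by
  change algebraMap (IsLocalRing.ResidueField A)[X] (FractionRing (IsLocalRing.ResidueField A)[X])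
    (Polynomial.map (IsLocalRing.residue A) ((s18tlgE t htA).symm (s18tlgE t htA a))) = _
  rw [AlgEquiv.symm_apply_apply]

theorem s18tlgRed_isUnit (hC : Prime (C ϖ : A[X])) (t : F) (htA : Transcendental A t)
    (y : s18tbDen t (C ϖ) hC) : IsUnit (s18tlgRed t htA y) := by
  obtain ⟨r, b, hb, hr⟩ := y
  have hrb : r = s18tlgE t htA b := Subtype.ext (by rw [hr, s18tlgE_coe])
  change IsUnit (s18tlgRed t htA r)
  rw [hrb, s18tlgRed_apply]
  refine IsUnit.mk0 _ ?_
  rw [Ne, IsFractionRing.to_map_eq_zero_iff, s18tlg_map_eq_zero_iff hC]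
  exact hb

/-- the reduction map `φ : A[t]_(ϖ) → Frac k₀[X]`. -/
def s18tlgPhi (hC : Prime (C ϖ : A[X])) (t : F) (htA : Transcendental A t) :
    ↥(s18tLoc A t (C ϖ) hC) →+* FractionRing (IsLocalRing.ResidueField A)[X] :=
  @IsLocalization.lift _ _ (s18tbDen t (C ϖ) hC) ↥(s18tLoc A t (C ϖ) hC) _
    (s18tbIncl t (C ϖ) hC).toAlgebra _ _ (s18tlg_isLocalization t htA (C ϖ) hC)
    (s18tlgRed t htA) (s18tlgRed_isUnit hC t htA)

theorem s18tlgPhi_aeval (hC : Prime (C ϖ : A[X])) (t : F) (htA : Transcendental A t) (a : A[X]) :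
    s18tlgPhi hC t htA ⟨aeval t a, s18tlg_aeval_mem_loc t (C ϖ) hC a⟩ =
      algebraMap (IsLocalRing.ResidueField A)[X] (FractionRing (IsLocalRing.ResidueField A)[X])
        (a.map (IsLocalRing.residue A)) := by
  letI : Algebra ↥(s18tChart A t) ↥(s18tLoc A t (C ϖ) hC) := (s18tbIncl t (C ϖ) hC).toAlgebra
  haveI := s18tlg_isLocalization t htA (C ϖ) hC
  have h1 : (⟨aeval t a, s18tlg_aeval_mem_loc t (C ϖ) hC a⟩ : ↥(s18tLoc A t (C ϖ) hC)) =
      algebraMap ↥(s18tChart A t) ↥(s18tLoc A t (C ϖ) hC) (s18tlgE t htA a) := by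
    apply Subtype.ext
    change aeval t a = ((s18tlgE t htA a : ↥(s18tChart A t)) : F)
    rw [s18tlgE_coe]
  rw [h1, ← s18tlgRed_apply t htA a]
  exact IsLocalization.lift_eq _ _

end Red

section OPrime

variable {A : Type*} [CommRing A] [IsDomain A] [IsDiscreteValuationRing A] [CharZero A]
variable {L : Type*} [Field L] [Algebra A L] [IsFractionRing A L]
variable {F : Type u} [Field F] [Algebra A F] [Algebra L F] [IsScalarTower A L F]
variable {ϖ : A}

/-- `O' = A[t] + ϖ A[t]_(ϖ)`, as the preimage of `k₀[X]` under `φ`. -/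
def s18tlgO' (hC : Prime (C ϖ : A[X])) (t : F) (htA : Transcendental A t) :
    Subring ↥(s18tLoc A t (C ϖ) hC) :=
  (algebraMap (IsLocalRing.ResidueField A)[X]
    (FractionRing (IsLocalRing.ResidueField A)[X])).range.comap (s18tlgPhi hC t htA)

theorem s18tlg_mem_O' (hC : Prime (C ϖ : A[X])) (t : F) (htA : Transcendental A t)
    (x : ↥(s18tLoc A t (C ϖ) hC)) :
    x ∈ s18tlgO' hC t htA ↔ ∃ q : (IsLocalRing.ResidueField A)[X],
      algebraMap (IsLocalRing.ResidueField A)[X] (FractionRing (IsLocalRing.ResidueField A)[X]) q =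
        s18tlgPhi hC t htA x := Iff.rfl

theorem s18tlg_aeval_mem_O' (hC : Prime (C ϖ : A[X])) (t : F) (htA : Transcendental A t)
    (a : A[X]) :
    (⟨aeval t a, s18tlg_aeval_mem_loc t (C ϖ) hC a⟩ : ↥(s18tLoc A t (C ϖ) hC)) ∈
      s18tlgO' hC t htA :=
  (s18tlg_mem_O' hC t htA _).mpr ⟨_, (s18tlgPhi_aeval hC t htA a).symm⟩

theorem s18tlgPhi_unif (hC : Prime (C ϖ : A[X])) (t : F) (htA : Transcendental A t)
    (x : ↥(s18tLoc A t (C ϖ) hC)) (hx : (x : F) = algebraMap A F ϖ) :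
    s18tlgPhi hC t htA x = 0 := by
  have h1 : x = ⟨aeval t (C ϖ), s18tlg_aeval_mem_loc t (C ϖ) hC (C ϖ)⟩ :=
    Subtype.ext (by rw [hx]; exact (aeval_C t ϖ).symm)
  rw [h1, s18tlgPhi_aeval, (s18tlg_map_eq_zero_iff hC (C ϖ)).mpr dvd_rfl, map_zero]

theorem s18tlg_unif_mul_mem_O' (hC : Prime (C ϖ : A[X])) (t : F) (htA : Transcendental A t)
    (x w : ↥(s18tLoc A t (C ϖ) hC)) (hx : (x : F) = algebraMap A F ϖ * (w : F)) :
    x ∈ s18tlgO' hC t htA := by
  have h1 : x = ⟨aeval t (C ϖ), s18tlg_aeval_mem_loc t (C ϖ) hC (C ϖ)⟩ * w :=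
    Subtype.ext (by rw [hx]; change _ = aeval t (C ϖ) * (w : F); rw [aeval_C])
  refine (s18tlg_mem_O' hC t htA _).mpr ⟨0, ?_⟩
  rw [h1, map_mul, s18tlgPhi_unif hC t htA _ (aeval_C t ϖ), zero_mul, map_zero]

/-- elements of `O'` are of the form `q(t) + ϖ o`. -/
theorem s18tlg_O'_decomp (hC : Prime (C ϖ : A[X])) (t : F) (htA : Transcendental A t)
    (x : ↥(s18tLoc A t (C ϖ) hC)) (hx : x ∈ s18tlgO' hC t htA) :
    ∃ q : A[X], ∃ o ∈ s18tLoc A t (C ϖ) hC, (x : F) = aeval t q + algebraMap A F ϖ * o := by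
  obtain ⟨qb, hqb⟩ := (s18tlg_mem_O' hC t htA x).mp hx
  obtain ⟨q, rfl⟩ := Polynomial.map_surjective (IsLocalRing.residue A)
    IsLocalRing.residue_surjective qb
  set x' : ↥(s18tLoc A t (C ϖ) hC) := x - ⟨aeval t q, s18tlg_aeval_mem_loc t (C ϖ) hC q⟩ with hx'
  have hφ : s18tlgPhi hC t htA x' = 0 := by
    rw [hx', map_sub, s18tlgPhi_aeval, hqb, sub_self]
  obtain ⟨a, b, hb, hab⟩ := s18tlg_loc_eq_div htA x'.2
  have hbt : aeval t b ≠ 0 := s18tlg_aeval_ne_zero htA (s18tlg_ne_zero_of_not_dvd hb)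
  have h1 : x' * ⟨aeval t b, s18tlg_aeval_mem_loc t (C ϖ) hC b⟩ =
      ⟨aeval t a, s18tlg_aeval_mem_loc t (C ϖ) hC a⟩ := by
    apply Subtype.ext
    change (x' : F) * aeval t b = aeval t a
    rw [hab, div_mul_cancel₀ _ hbt]
  have h2 := congrArg (s18tlgPhi hC t htA) h1
  rw [map_mul, hφ, zero_mul, s18tlgPhi_aeval] at h2
  have h3 : a.map (IsLocalRing.residue A) = 0 := by
    have := h2.symm
    rwa [IsFractionRing.to_map_eq_zero_iff] at this
  obtain ⟨a', rfl⟩ := (s18tlg_map_eq_zero_iff hC a).mp h3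
  refine ⟨q, aeval t a' / aeval t b, s18tlg_div_mem_loc htA (C ϖ) hC a' hb, ?_⟩
  have h4 : (x : F) = (x' : F) + aeval t q := by
    rw [hx']
    change (x : F) = ((x : F) - aeval t q) + aeval t q
    ring
  rw [h4, hab, map_mul, aeval_C]
  ring

/-- `O' → L(t)`. -/
def s18tlgO'ToK0 (L : Type*) [Field L] [Algebra A L] [IsFractionRing A L] [Algebra L F]
    [IsScalarTower A L F] (hC : Prime (C ϖ : A[X])) (t : F) (htA : Transcendental A t) :
    ↥(s18tlgO' hC t htA) →+* ↥L⟮t⟯ where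
  toFun x := ⟨((x : ↥(s18tLoc A t (C ϖ) hC)) : F), s18tlg_loc_le_K0 htA (x : ↥(s18tLoc A t (C ϖ) hC)).2⟩
  map_one' := rfl
  map_mul' _ _ := rfl
  map_zero' := rfl
  map_add' _ _ := rfl

end OPrime

section Integral

variable {A : Type*} [CommRing A] [IsDomain A] [IsDiscreteValuationRing A] [CharZero A]
variable {L : Type*} [Field L] [Algebra A L] [IsFractionRing A L]
variable {F : Type u} [Field F] [Algebra A F] [Algebra L F] [IsScalarTower A L F]
variable {ϖ : A}

/-- `A[t]_(p)` is integrally closed in `L(t)`. -/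
theorem s18tlg_mem_loc_of_mem_intLoc {t : F} (ht : Transcendental L t) (p0 : A[X])
    (hp0 : Prime p0) {z : F} (hz : z ∈ s18tIntLoc A t p0 hp0) (hzK : z ∈ L⟮t⟯) :
    z ∈ s18tLoc A t p0 hp0 := by
  have htA : Transcendental A t := s18tb_transcendental ht
  obtain ⟨b0, hb0, hb0z⟩ := s18tb_exists_mul_mem t htA p0 hp0 z hz
  obtain ⟨a, ha⟩ := s18tlg_mem_chart_of_isIntegral ht
    (mul_mem (s18tlg_aeval_mem_K0 t b0) hzK) hb0z
  exact ⟨a, b0, hb0, by rw [mul_comm]; exact ha⟩

/-- `O' → F`. -/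
def s18tlgO'ToF (L : Type*) [Field L] [Algebra A L] [IsFractionRing A L] [Algebra L F]
    [IsScalarTower A L F] (hC : Prime (C ϖ : A[X])) (t : F) (htA : Transcendental A t) :
    ↥(s18tlgO' hC t htA) →+* F :=
  (algebraMap ↥L⟮t⟯ F).comp (s18tlgO'ToK0 L hC t htA)

theorem s18tlgO'ToF_apply (hC : Prime (C ϖ : A[X])) (t : F) (htA : Transcendental A t)
    (x : ↥(s18tlgO' hC t htA)) :
    s18tlgO'ToF L hC t htA x = ((x : ↥(s18tLoc A t (C ϖ) hC)) : F) := rfl

/-- traces of elements integral over `O'` lie in `O'`. -/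
theorem s18tlg_trace_mem_O' (hC : Prime (C ϖ : A[X])) {t : F} (ht : Transcendental L t)
    [FiniteDimensional L⟮t⟯ F] (z : F)
    (hz : (s18tlgO'ToF L hC t (s18tb_transcendental ht)).IsIntegralElem z) :
    ∃ q : A[X], ∃ o ∈ s18tLoc A t (C ϖ) hC,
      ((Algebra.trace ↥L⟮t⟯ F z : ↥L⟮t⟯) : F) = aeval t q + algebraMap A F ϖ * o := by
  have htA : Transcendental A t := s18tb_transcendental ht
  letI : Algebra ↥(s18tlgO' hC t htA) ↥L⟮t⟯ := (s18tlgO'ToK0 L hC t htA).toAlgebra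
  letI : Algebra ↥(s18tlgO' hC t htA) F := (s18tlgO'ToF L hC t htA).toAlgebra
  haveI : IsScalarTower ↥(s18tlgO' hC t htA) ↥L⟮t⟯ F :=
    IsScalarTower.of_algebraMap_eq (fun _ => rfl)
  have hz' : IsIntegral ↥(s18tlgO' hC t htA) z := hz
  have h1 : IsIntegral ↥(s18tlgO' hC t htA) (Algebra.trace ↥L⟮t⟯ F z) :=
    Algebra.isIntegral_trace hz'
  have h2 : IsIntegral ↥(s18tlgO' hC t htA) ((Algebra.trace ↥L⟮t⟯ F z : ↥L⟮t⟯) : F) :=
    h1.algebraMap
  set τ : F := ((Algebra.trace ↥L⟮t⟯ F z : ↥L⟮t⟯) : F) with hτ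
  have h2' : ((algebraMap ↥(s18tLoc A t (C ϖ) hC) F).comp
      (s18tlgO' hC t htA).subtype).IsIntegralElem τ := h2
  have h3 : τ ∈ s18tIntLoc A t (C ϖ) hC := by
    rw [mem_s18tIntLoc]
    exact RingHom.IsIntegralElem.of_comp h2'
  have h4 : τ ∈ s18tLoc A t (C ϖ) hC :=
    s18tlg_mem_loc_of_mem_intLoc ht (C ϖ) hC h3 (SetLike.coe_mem _)
  have h5 : (s18tlgO' hC t htA).subtype.IsIntegralElem (⟨τ, h4⟩ : ↥(s18tLoc A t (C ϖ) hC)) :=
    RingHom.IsIntegralElem.of_map (g := algebraMap ↥(s18tLoc A t (C ϖ) hC) F)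
      Subtype.val_injective h2'
  have h6 := s18tlg_mem_comap_of_isIntegralElem (s18tlgPhi hC t htA) ⟨τ, h4⟩ h5
  exact s18tlg_O'_decomp hC t htA ⟨τ, h4⟩ h6

/-- elements of `P` are integral over `O'`. -/
theorem s18tlg_isIntegralElem_of_mem_int (hC : Prime (C ϖ : A[X])) (t : F)
    (htA : Transcendental A t) {z : F} (hz : z ∈ s18tInt A t) :
    (s18tlgO'ToF L hC t htA).IsIntegralElem z := by
  let f : ↥(s18tChart A t) →+* ↥(s18tlgO' hC t htA) :=
    { toFun := fun r => ⟨s18tbIncl t (C ϖ) hC r, by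
        obtain ⟨a, rfl⟩ := s18tlgE_surj t htA r
        have : s18tbIncl t (C ϖ) hC (s18tlgE t htA a) =
            ⟨aeval t a, s18tlg_aeval_mem_loc t (C ϖ) hC a⟩ :=
          Subtype.ext (s18tlgE_coe t htA a)
        rw [this]
        exact s18tlg_aeval_mem_O' hC t htA a⟩
      map_one' := rfl
      map_mul' := fun _ _ => rfl
      map_zero' := rfl
      map_add' := fun _ _ => rfl }
  have hz' : ((s18tlgO'ToF L hC t htA).comp f).IsIntegralElem z := (mem_s18tInt A).mp hz
  exact RingHom.IsIntegralElem.of_comp hz'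

/-- elements of `ϖ P_(ϖ)` are integral over `O'`. -/
theorem s18tlg_isIntegralElem_unif_mul (hC : Prime (C ϖ : A[X])) (t : F)
    (htA : Transcendental A t) {y : F} (hy : y ∈ s18tIntLoc A t (C ϖ) hC) :
    (s18tlgO'ToF L hC t htA).IsIntegralElem (algebraMap A F ϖ * y) := by
  obtain ⟨b0, hb0, hb0y⟩ := s18tb_exists_mul_mem t htA (C ϖ) hC y hy
  have hb0t : aeval t b0 ≠ 0 := s18tlg_aeval_ne_zero htA (s18tlg_ne_zero_of_not_dvd hb0)
  let w : ↥(s18tLoc A t (C ϖ) hC) := ⟨aeval t 1 / aeval t b0, s18tlg_div_mem_loc htA (C ϖ) hC 1 hb0⟩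
  let x : ↥(s18tLoc A t (C ϖ) hC) :=
    ⟨aeval t (C ϖ) / aeval t b0, s18tlg_div_mem_loc htA (C ϖ) hC (C ϖ) hb0⟩
  have hx : x ∈ s18tlgO' hC t htA := by
    refine s18tlg_unif_mul_mem_O' hC t htA x w ?_
    change aeval t (C ϖ) / aeval t b0 = algebraMap A F ϖ * (aeval t 1 / aeval t b0)
    rw [aeval_C, map_one, mul_one_div]
  have h1 : algebraMap A F ϖ * y = s18tlgO'ToF L hC t htA ⟨x, hx⟩ * (aeval t b0 * y) := by
    rw [s18tlgO'ToF_apply]
    change _ = aeval t (C ϖ) / aeval t b0 * (aeval t b0 * y)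
    rw [aeval_C]
    field_simp
  rw [h1]
  exact RingHom.IsIntegralElem.mul _ (RingHom.isIntegralElem_map _)
    (s18tlg_isIntegralElem_of_mem_int hC t htA hb0y)

/-- an idempotent modulo `ϖ P_(ϖ)` is integral over `O'`. -/
theorem s18tlg_isIntegralElem_idem (hC : Prime (C ϖ : A[X])) (t : F)
    (htA : Transcendental A t) {e y : F} (hy : y ∈ s18tIntLoc A t (C ϖ) hC)
    (hee : e ^ 2 - e = algebraMap A F ϖ * y) :
    (s18tlgO'ToF L hC t htA).IsIntegralElem e := by
  letI : Algebra ↥(s18tlgO' hC t htA) F := (s18tlgO'ToF L hC t htA).toAlgebra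
  have hw : IsIntegral ↥(s18tlgO' hC t htA) (algebraMap A F ϖ * y) :=
    s18tlg_isIntegralElem_unif_mul (L := L) hC t htA hy
  let w' : ↥(integralClosure ↥(s18tlgO' hC t htA) F) := ⟨algebraMap A F ϖ * y, hw⟩
  have hdeg : (X + C w' : (↥(integralClosure ↥(s18tlgO' hC t htA) F))[X]).degree < (2 : ℕ) := by
    refine lt_of_le_of_lt (degree_add_le _ _) ?_
    rw [max_lt_iff]
    refine ⟨lt_of_le_of_lt degree_X_le (by norm_num), lt_of_le_of_lt degree_C_le (by norm_num)⟩
  have hint : IsIntegral ↥(integralClosure ↥(s18tlgO' hC t htA) F) e := by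
    refine ⟨X ^ 2 - (X + C w'), monic_X_pow_sub hdeg, ?_⟩
    rw [eval₂_sub, eval₂_add, eval₂_pow, eval₂_X, eval₂_C]
    change e ^ 2 - (e + algebraMap A F ϖ * y) = 0
    rw [← hee]; ring
  exact isIntegral_trans (R := ↥(s18tlgO' hC t htA)) e hint

end Integral

section Main

variable {A : Type*} [CommRing A] [IsDomain A] [IsDiscreteValuationRing A] [CharZero A]
variable {L : Type*} [Field L] [Algebra A L] [IsFractionRing A L]
variable {F : Type u} [Field F] [Algebra A F] [Algebra L F] [IsScalarTower A L F]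
variable {ϖ : A}

/-- (T2+T3), LOCAL form: Gauss self-duality + self-duality at every horizontal prime through the
closed point `γ` ⟹ every idempotent of `P_(ϖ)/ϖ` is local at `γ`. -/
theorem s18tlg_local_good' (hC : Prime (C ϖ : A[X])) (t : F) (ht : Transcendental L t)
    [FiniteDimensional L⟮t⟯ F]
    (hG : S18SelfDual A L t (C ϖ) hC)
    (e : F) (he : e ∈ s18tIntLoc A t (C ϖ) hC)
    (hee : ∃ y ∈ s18tIntLoc A t (C ϖ) hC, e ^ 2 - e = algebraMap A F ϖ * y)
    (γ : (IsLocalRing.ResidueField A)[X]) (hγ : Irreducible γ)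
    (hloc : ∀ (g : A[X]) (hg : Prime g), ¬ Associated g (C ϖ) →
      γ ∣ g.map (IsLocalRing.residue A) → S18SelfDual A L t g hg) :
    ∃ c : A[X], ¬ γ ∣ c.map (IsLocalRing.residue A) ∧
      ∃ p ∈ s18tInt A t, ∃ y ∈ s18tIntLoc A t (C ϖ) hC,
        aeval t c * e - p = algebraMap A F ϖ * y := by
  classical
  have htA : Transcendental A t := s18tb_transcendental ht
  obtain ⟨n, B, hBP, h2⟩ := s18tlg_exists_basis hC t ht
  choose M' hM' using fun i j =>
    s18tlg_trace_mem_chart ht (Subring.mul_mem _ (hBP i) (hBP j))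
  have hdet := s18tlg_not_dvd_map_det hC ht B h2 (Matrix.of M') (fun i j => hM' i j) hG γ hγ hloc
  refine ⟨(Matrix.of M').det, hdet, ?_⟩
  obtain ⟨ev, hev, hee'⟩ := s18tlg_spanLoc ht B h2 (C ϖ) hC (s18tlg_gauss_not_dvd hC) e he
  obtain ⟨y0, hy0, hey0⟩ := hee
  have heint := s18tlg_isIntegralElem_idem (L := L) hC t htA hy0 hey0
  have hτ : ∀ j, ∃ q : A[X], ∃ o ∈ s18tLoc A t (C ϖ) hC,
      ((Algebra.trace ↥L⟮t⟯ F (B j * e) : ↥L⟮t⟯) : F) = aeval t q + algebraMap A F ϖ * o :=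
    fun j => s18tlg_trace_mem_O' hC ht _ (RingHom.IsIntegralElem.mul _
      (s18tlg_isIntegralElem_of_mem_int hC t htA (hBP j)) heint)
  choose q o ho hqo using hτ
  have hτ2 : ∀ j, aeval t (q j) + algebraMap A F ϖ * o j = ∑ i, ev i * aeval t (M' j i) := by
    intro j
    rw [← hqo j, hee', s18tlg_trace_sum (B j) ev B (fun i => s18tlg_loc_le_K0 htA (hev i))]
    simp only [hM']
  set Mf : Matrix (Fin n) (Fin n) F := (aeval t).mapMatrix (Matrix.of M') with hMfdef
  have hMf : Mf.mulVec ev = fun j => aeval t (q j) + algebraMap A F ϖ * o j := by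
    ext j
    rw [hτ2 j]
    simp only [Matrix.mulVec, dotProduct, hMfdef, AlgHom.mapMatrix_apply, Matrix.map_apply,
      Matrix.of_apply]
    exact Finset.sum_congr rfl fun i _ => mul_comm _ _
  have hcr : Mf.det • ev =
      Mf.adjugate.mulVec (fun j => aeval t (q j) + algebraMap A F ϖ * o j) := by
    rw [← hMf, Matrix.mulVec_mulVec, Matrix.adjugate_mul, Matrix.smul_mulVec, Matrix.one_mulVec]
  have hdetF : Mf.det = aeval t (Matrix.of M').det := by
    rw [hMfdef, ← AlgHom.map_det]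
  have hadj : ∀ i j, Mf.adjugate i j = aeval t ((Matrix.of M').adjugate i j) := by
    intro i j
    rw [hMfdef, ← AlgHom.map_adjugate]
    rfl
  refine ⟨∑ i, aeval t (∑ j, (Matrix.of M').adjugate i j * q j) * B i, ?_,
    ∑ i, (∑ j, aeval t ((Matrix.of M').adjugate i j) * o j) * B i, ?_, ?_⟩
  · exact Subring.sum_mem _ fun i _ => Subring.mul_mem _ (s18tlg_aeval_mem_int t _) (hBP i)
  · refine Subring.sum_mem _ fun i _ => Subring.mul_mem _ (Subring.sum_mem _ fun j _ => ?_)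
      (s18tlg_int_le_intLoc t (C ϖ) hC (hBP i))
    exact Subring.mul_mem _ (s18tlg_int_le_intLoc t (C ϖ) hC (s18tlg_aeval_mem_int t _))
      (s18tlg_loc_le_intLoc t (C ϖ) hC (ho j))
  · have h1 : aeval t (Matrix.of M').det * e = ∑ i, (Mf.det • ev) i * B i := by
      rw [hee', Finset.mul_sum, ← hdetF]
      refine Finset.sum_congr rfl fun i _ => ?_
      rw [Pi.smul_apply, smul_eq_mul, mul_assoc]
    rw [h1, hcr, Finset.mul_sum, ← Finset.sum_sub_distrib]
    refine Finset.sum_congr rfl fun i _ => ?_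
    rw [← sub_mul, ← mul_assoc, Finset.mul_sum]
    congr 1
    rw [map_sum, Matrix.mulVec, dotProduct, ← Finset.sum_sub_distrib]
    refine Finset.sum_congr rfl fun j _ => ?_
    rw [hadj, map_mul]
    ring

/-- (T2+T3) the statement `s18t_local_good` of `S18/T/Spec.lean`, with the chart hypothesis
`unram` and the black box (TU) as explicit hypotheses. -/
theorem s18tlg_local_good (hC : Prime (C ϖ : A[X])) (t : F) (ht : Transcendental L t)
    [FiniteDimensional L⟮t⟯ F] (S : Finset A)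
    (hunram : ∀ g : A[X], Prime g → ¬ Associated g (C ϖ) →
      (∀ s ∈ S, ¬ Associated g (X - C s)) → S18UnramAbove A L t g)
    (hTU : ∀ (g : A[X]) (hg : Prime g), ¬ Associated g (C ϖ) → S18UnramAbove A L t g →
      S18SelfDual A L t g hg)
    (hG : S18SelfDual A L t (C ϖ) hC)
    (e : F) (he : e ∈ s18tIntLoc A t (C ϖ) hC)
    (hee : ∃ y ∈ s18tIntLoc A t (C ϖ) hC, e ^ 2 - e = algebraMap A F ϖ * y)
    (γ : (IsLocalRing.ResidueField A)[X]) (hγ : Irreducible γ)
    (hS : ∀ s ∈ S, γ.eval (IsLocalRing.residue A s) ≠ 0) :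
    ∃ c : A[X], ¬ γ ∣ c.map (IsLocalRing.residue A) ∧
      ∃ p ∈ s18tInt A t, ∃ y ∈ s18tIntLoc A t (C ϖ) hC,
        aeval t c * e - p = algebraMap A F ϖ * y := by
  refine s18tlg_local_good' hC t ht hG e he hee γ hγ fun g hg hgϖ hgγ => ?_
  refine hTU g hg hgϖ (hunram g hg hgϖ fun s hs hass => hS s hs ?_)
  have h1 : g.map (IsLocalRing.residue A) ∣ (X - C s : A[X]).map (IsLocalRing.residue A) :=
    Polynomial.map_dvd _ hass.dvd
  rw [Polynomial.map_sub, Polynomial.map_X, Polynomial.map_C] at h1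
  have h2 : Associated γ (X - C (IsLocalRing.residue A s)) :=
    hγ.associated_of_dvd (Polynomial.irreducible_X_sub_C _) (hgγ.trans h1)
  exact dvd_iff_isRoot.mp h2.symm.dvd

end Main

end Fermat.Agent.S18
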