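import Mathlib
import Fermat.Agent.S18.T.Defs

/-!
# S18, package T, row 345 (T-g): the Kummer package for `F' = F(z)`, `z ^ w = a ∈ F`, `ζ_w ∈ F`
-/

set_option autoImplicit false
set_option linter.unusedSectionVars false

noncomputable section

namespace Fermat.Agent.S18

open Polynomial IntermediateField

universe u

section Kummer

variable {F : Type u} [Field F]
variable (F' : Type u) [Field F'] [Algebra F F']

/-- `F[z] = F'`. -/
theorem s18tg_adjoin_eq_top (w : ℕ) (hw : w ≠ 0) (a : F) (z : F')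
    (hz : z ^ w = algebraMap F F' a) (hF' : F⟮z⟯ = ⊤) : Algebra.adjoin F {z} = ⊤ := by
  have hzint : IsIntegral F z := by
    refine ⟨X ^ w - C a, monic_X_pow_sub_C a hw, ?_⟩
    simp [hz]
  have := IntermediateField.adjoin_simple_toSubalgebra_of_isAlgebraic hzint.isAlgebraic
  rw [hF'] at this
  exact this.symm.trans (by simp)

/-- `F'/F` is finite Galois. -/
theorem s18tg_isGalois [CharZero F] (w : ℕ) (hw : w ≠ 0) (ζ : F) (hζ : IsPrimitiveRoot ζ w)
    (a : F) (ha : a ≠ 0) (z : F') (hz : z ^ w = algebraMap F F' a) (hF' : F⟮z⟯ = ⊤) :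
    IsGalois F F' ∧ FiniteDimensional F F' := by
  have hζ' : IsPrimitiveRoot (algebraMap F F' ζ) w :=
    hζ.map_of_injective (algebraMap F F').injective
  have hsplit : ((X ^ w - C a : F[X]).map (algebraMap F F')).Splits := by
    rw [Polynomial.map_sub, Polynomial.map_pow, map_X, map_C]
    exact X_pow_sub_C_splits_of_isPrimitiveRoot hζ' hz
  have hroot : z ∈ (X ^ w - C a : F[X]).rootSet F' := by
    rw [mem_rootSet]
    refine ⟨fun h => ?_, by simp [hz]⟩
    have := congrArg natDegree h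
    rw [natDegree_X_pow_sub_C, natDegree_zero] at this
    exact hw this
  have hsf : (X ^ w - C a : F[X]).IsSplittingField F F' := by
    refine ⟨hsplit, ?_⟩
    rw [eq_top_iff, ← s18tg_adjoin_eq_top F' w hw a z hz hF']
    exact Algebra.adjoin_mono (Set.singleton_subset_iff.mpr hroot)
  have hsep : (X ^ w - C a : F[X]).Separable :=
    separable_X_pow_sub_C a (by exact_mod_cast hw) ha
  exact ⟨IsGalois.of_separable_splitting_field hsep,
    Polynomial.IsSplittingField.finiteDimensional F' (X ^ w - C a : F[X])⟩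

/-- Every `F`-automorphism multiplies `z` by a `w`-th root of unity of `F`. -/
theorem s18tg_aut_apply (w : ℕ) (hw : w ≠ 0) (ζ : F) (hζ : IsPrimitiveRoot ζ w)
    (a : F) (ha : a ≠ 0) (z : F') (hz : z ^ w = algebraMap F F' a) (σ : F' ≃ₐ[F] F') :
    ∃ i : ℕ, i < w ∧ σ z = algebraMap F F' (ζ ^ i) * z := by
  have hζ' : IsPrimitiveRoot (algebraMap F F' ζ) w :=
    hζ.map_of_injective (algebraMap F F').injective
  have hz0 : z ≠ 0 := by
    rintro rfl
    rw [zero_pow hw] at hz
    exact ha ((algebraMap F F').injective (by rw [← hz, map_zero]))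
  have h1 : (σ z / z) ^ w = 1 := by
    rw [div_pow, ← map_pow, hz, AlgEquiv.commutes, div_self]
    rw [← hz]; exact pow_ne_zero _ hz0
  have : NeZero w := ⟨hw⟩
  obtain ⟨i, hi, hi'⟩ := hζ'.eq_pow_of_pow_eq_one h1
  refine ⟨i, hi, ?_⟩
  rw [map_pow, hi', div_mul_cancel₀ _ hz0]

/-- An automorphism fixing `z` is the identity. -/
theorem s18tg_aut_eq_one (w : ℕ) (hw : w ≠ 0) (a : F) (z : F')
    (hz : z ^ w = algebraMap F F' a) (hF' : F⟮z⟯ = ⊤) (σ : F' ≃ₐ[F] F') (hσ : σ z = z) :
    σ = 1 := by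
  have htop := s18tg_adjoin_eq_top F' w hw a z hz hF'
  have : (σ : F' →ₐ[F] F') = AlgHom.id F F' := by
    apply AlgHom.ext_of_adjoin_eq_top htop
    intro x hx
    rw [Set.mem_singleton_iff] at hx
    subst hx
    simpa using hσ
  ext x
  exact congrArg (fun φ : F' →ₐ[F] F' => φ x) this

/-- Orthogonality: `w · x = ∑_{j < w} z^{-j} · Tr_{F'/F}(x z^j)`. -/
theorem s18tg_recover [CharZero F] (w : ℕ) (hw : w ≠ 0) (ζ : F) (hζ : IsPrimitiveRoot ζ w)
    (a : F) (ha : a ≠ 0) (z : F') (hz : z ^ w = algebraMap F F' a) (hF' : F⟮z⟯ = ⊤) (x : F') :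
    (w : F') * x =
      ∑ j ∈ Finset.range w, (z⁻¹) ^ j * algebraMap F F' (Algebra.trace F F' (x * z ^ j)) := by
  classical
  obtain ⟨hgal, hfin⟩ := s18tg_isGalois F' w hw ζ hζ a ha z hz hF'
  have hz0 : z ≠ 0 := by
    rintro rfl
    rw [zero_pow hw] at hz
    exact ha ((algebraMap F F').injective (by rw [← hz, map_zero]))
  simp_rw [trace_eq_sum_automorphisms, Finset.mul_sum]
  rw [Finset.sum_comm]
  -- the inner sums
  have hinner : ∀ σ : F' ≃ₐ[F] F',
      ∑ j ∈ Finset.range w, (z⁻¹) ^ j * σ (x * z ^ j) =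
        if σ = 1 then (w : F') * x else 0 := by
    intro σ
    obtain ⟨i, -, hi⟩ := s18tg_aut_apply F' w hw ζ hζ a ha z hz σ
    set ξ : F' := algebraMap F F' (ζ ^ i) with hξ
    have hξw : ξ ^ w = 1 := by
      rw [hξ, ← map_pow, ← pow_mul, mul_comm, pow_mul, hζ.pow_eq_one, one_pow, map_one]
    have hterm : ∀ j, (z⁻¹) ^ j * σ (x * z ^ j) = σ x * ξ ^ j := by
      intro j
      rw [map_mul, map_pow, hi, mul_pow, inv_pow]
      field_simp
    simp_rw [hterm, ← Finset.mul_sum]
    split_ifs with hσ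
    · subst hσ
      have hξ1 : ξ = 1 := by
        have : ξ * z = z := by rw [← hi]; rfl
        exact (mul_left_inj' hz0).mp (by rw [this, one_mul])
      simp [hξ1, mul_comm]
    · have hξ1 : ξ ≠ 1 := by
        intro h1
        apply hσ
        apply s18tg_aut_eq_one F' w hw a z hz hF' σ
        rw [hi, h1, one_mul]
      have hgeom : (ξ - 1) * ∑ j ∈ Finset.range w, ξ ^ j = 0 := by
        rw [mul_comm, geom_sum_mul, hξw, sub_self]
      rw [(mul_eq_zero.mp hgeom).resolve_left (sub_ne_zero.mpr hξ1), mul_zero]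
  simp_rw [hinner]
  rw [Finset.sum_ite_eq' Finset.univ (1 : F' ≃ₐ[F] F')]
  simp

/-- The degree `[F' : F]` divides `w`. -/
theorem s18tg_finrank_dvd [CharZero F] (w : ℕ) (hw : w ≠ 0) (ζ : F) (hζ : IsPrimitiveRoot ζ w)
    (a : F) (ha : a ≠ 0) (z : F') (hz : z ^ w = algebraMap F F' a) (hF' : F⟮z⟯ = ⊤) :
    Module.finrank F F' ∣ w := by
  classical
  obtain ⟨hgal, hfin⟩ := s18tg_isGalois F' w hw ζ hζ a ha z hz hF'
  have hz0 : z ≠ 0 := by
    rintro rfl
    rw [zero_pow hw] at hz
    exact ha ((algebraMap F F').injective (by rw [← hz, map_zero]))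
  have : NeZero w := ⟨hw⟩
  have hζ' : IsPrimitiveRoot (algebraMap F F' ζ) w :=
    hζ.map_of_injective (algebraMap F F').injective
  -- the character
  have hχw : ∀ σ : F' ≃ₐ[F] F', (σ z / z) ^ w = 1 := by
    intro σ
    rw [div_pow, ← map_pow, hz, AlgEquiv.commutes, div_self]
    rw [← hz]; exact pow_ne_zero _ hz0
  have hχ0 : ∀ σ : F' ≃ₐ[F] F', σ z / z ≠ 0 := fun σ =>
    div_ne_zero ((map_ne_zero σ).mpr hz0) hz0
  let χ : (F' ≃ₐ[F] F') →* rootsOfUnity w F' :=
    { toFun := fun σ => ⟨Units.mk0 (σ z / z) (hχ0 σ), by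
        rw [mem_rootsOfUnity]; ext; simpa using hχw σ⟩
      map_one' := by
        ext; simp [hz0]
      map_mul' := by
        intro σ τ
        ext
        obtain ⟨i, -, hi⟩ := s18tg_aut_apply F' w hw ζ hζ a ha z hz τ
        simp only [AlgEquiv.mul_apply, Subgroup.coe_mul, Units.val_mul, Units.val_mk0]
        rw [hi, map_mul, AlgEquiv.commutes]
        field_simp }
  have hinj : Function.Injective χ := by
    rw [injective_iff_map_eq_one]
    intro σ hσ
    apply s18tg_aut_eq_one F' w hw a z hz hF' σ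
    have h1 : ((χ σ : F'ˣ) : F') = 1 := by rw [hσ]; rfl
    have h2 : σ z / z = 1 := h1
    rwa [div_eq_one_iff_eq hz0] at h2
  have hcard := Subgroup.card_dvd_of_injective χ hinj
  rw [hζ'.card_rootsOfUnity, IsGalois.card_aut_eq_finrank] at hcard
  exact hcard

end Kummer

end Fermat.Agent.S18
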