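import Mathlib
import Fermat.Agent.S18.T.Defs
import Fermat.Agent.S18.T.Unram
import Fermat.Agent.S18.T.Formal
import Fermat.Agent.S18.T.AbhyankarCore
import Fermat.Agent.S18.T.TameKummer

/-!
# S18, package T, row 345 (T-g), piece (g2): Gauss self-duality passes from `F/L(t)` to `F'/L(z)`
-/

set_option autoImplicit false
set_option linter.unusedSectionVars false
set_option linter.style.haveILetI false

noncomputable section

namespace Fermat.Agent.S18

open Polynomial IntermediateField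

universe u

variable {A : Type*} [CommRing A] [IsDomain A] [IsDiscreteValuationRing A] [CharZero A]
variable {L : Type*} [Field L] [Algebra A L] [IsFractionRing A L]
variable {F : Type u} [Field F] [Algebra A F] [Algebra L F] [IsScalarTower A L F]
variable {ϖ : A}

/-- The Gauss valuation ring `A[t]_(ϖ)` has fraction field `L(t)`. -/
theorem s18tg_isFractionRing_gauss (hC : Prime (C ϖ : A[X])) (t : F) (ht : Transcendental L t) :
    letI : Algebra ↥(s18tLoc A t (C ϖ) hC) ↥L⟮t⟯ := (s18tuIncl (L := L) t (C ϖ) hC ht).toAlgebra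
    IsFractionRing ↥(s18tLoc A t (C ϖ) hC) ↥L⟮t⟯ := by
  letI : Algebra ↥(s18tLoc A t (C ϖ) hC) ↥L⟮t⟯ := (s18tuIncl (L := L) t (C ϖ) hC ht).toAlgebra
  have hinj : Function.Injective (algebraMap ↥(s18tLoc A t (C ϖ) hC) ↥L⟮t⟯) := by
    intro a b hab
    have h1 : ((algebraMap ↥(s18tLoc A t (C ϖ) hC) ↥L⟮t⟯ a : ↥L⟮t⟯) : F) =
        ((algebraMap ↥(s18tLoc A t (C ϖ) hC) ↥L⟮t⟯ b : ↥L⟮t⟯) : F) := congrArg Subtype.val hab
    exact Subtype.ext h1
  haveI : FaithfulSMul ↥(s18tLoc A t (C ϖ) hC) ↥L⟮t⟯ :=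
    (faithfulSMul_iff_algebraMap_injective _ _).mpr hinj
  refine IsFractionRing.of_field _ _ fun x => ?_
  obtain ⟨a, b, hb, hx⟩ := s18tc_exists_div_of_mem_adjoin (A := A) (L := L) t x.2
  refine ⟨⟨aeval t a, s18tu_aeval_mem t (C ϖ) hC a⟩, ⟨aeval t b, s18tu_aeval_mem t (C ϖ) hC b⟩, ?_⟩
  apply Subtype.ext
  rw [IntermediateField.coe_div]
  exact hx

section Geometric

variable (F' : Type u) [Field F'] [Algebra F F'] [Algebra A F'] [Algebra L F']
  [IsScalarTower A F F'] [IsScalarTower L F F'] [IsScalarTower A L F']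

/-- (g2), with the two integrality inputs (ascent `P_(ϖ) ⊆ P'_(ϖ)` and `A[z]_(ϖ)` integral over
`A[t]_(ϖ)`) as hypotheses. -/
theorem s18tg_selfDual_gauss_of (hC : Prime (C ϖ : A[X])) (t : F) (ht : Transcendental L t)
    [FiniteDimensional L⟮t⟯ F] (s : A) (w : ℕ) (hw : IsUnit (w : A))
    (hζ : ∃ ζ : L, IsPrimitiveRoot ζ w)
    (z : F') (hz : z ^ w = algebraMap F F' (t - algebraMap A F s)) (hF' : F⟮z⟯ = ⊤)
    (hint : ∀ y : F', y ∈ s18tLoc A z (C ϖ) hC → IsIntegral ↥(s18tLoc A t (C ϖ) hC) y)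
    (hasc : ∀ b : F, b ∈ s18tIntLoc A t (C ϖ) hC →
      algebraMap F F' b ∈ s18tIntLoc A z (C ϖ) hC)
    (hG : S18SelfDual A L t (C ϖ) hC) : S18SelfDual A L z (C ϖ) hC := by
  classical
  intro x hx
  -- basic facts
  have hw0 : w ≠ 0 := by
    rintro rfl
    simp at hw
  haveI charL : CharZero L := charZero_of_injective_algebraMap (IsFractionRing.injective A L)
  haveI charF : CharZero F := charZero_of_injective_algebraMap (algebraMap L F).injective
  obtain ⟨ζ, hζ⟩ := hζ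
  have hζF : IsPrimitiveRoot (algebraMap L F ζ) w :=
    hζ.map_of_injective (algebraMap L F).injective
  set a : F := t - algebraMap A F s with ha
  have ha0 : a ≠ 0 := by
    intro h0
    apply ht
    have : t = algebraMap L F (algebraMap A L s) := by
      rw [← IsScalarTower.algebraMap_apply]
      exact sub_eq_zero.mp h0
    rw [this]
    exact isAlgebraic_algebraMap _
  obtain ⟨hgal, hfinFF'⟩ := s18tg_isGalois F' w hw0 _ hζF a ha0 z hz hF'
  have hz0 : z ≠ 0 := by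
    rintro rfl
    rw [zero_pow hw0] at hz
    exact ha0 ((algebraMap F F').injective (by rw [← hz, map_zero]))
  have htz : Transcendental L z := s18ta_transcendental t ht s w F' z hz
  haveI hfinz : FiniteDimensional L⟮z⟯ F' :=
    s18ta_finiteDimensional (L := L) t s w hw0 F' z hz hF'
  set φ := algebraMap F F' with hφ
  -- `L(t) → L(z)`
  have hle : L⟮t⟯ ≤ (L⟮z⟯).comap (IsScalarTower.toAlgHom L F F') := by
    rw [IntermediateField.adjoin_simple_le_iff]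
    have : algebraMap F F' t = z ^ w + algebraMap L F' (algebraMap A L s) := by
      rw [hz, ha, map_sub, ← IsScalarTower.algebraMap_apply A L F',
        ← IsScalarTower.algebraMap_apply A F F']
      ring
    show algebraMap F F' t ∈ L⟮z⟯
    rw [this]
    exact add_mem (pow_mem (IntermediateField.mem_adjoin_simple_self L z) w)
      (IntermediateField.algebraMap_mem _ _)
  let g : ↥L⟮t⟯ →+* ↥L⟮z⟯ :=
    ((algebraMap F F').comp (algebraMap ↥L⟮t⟯ F)).codRestrict L⟮z⟯ (fun x => hle x.2)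
  letI algK₀K₂ : Algebra ↥L⟮t⟯ ↥L⟮z⟯ := g.toAlgebra
  haveI tow2 : IsScalarTower ↥L⟮t⟯ ↥L⟮z⟯ F' := IsScalarTower.of_algebraMap_eq (fun _ => rfl)
  haveI finK₀F' : FiniteDimensional ↥L⟮t⟯ F' := Module.Finite.trans F F'
  haveI finK₀K₂ : FiniteDimensional ↥L⟮t⟯ ↥L⟮z⟯ :=
    FiniteDimensional.of_injective (IsScalarTower.toAlgHom ↥L⟮t⟯ ↥L⟮z⟯ F').toLinearMap
      (algebraMap ↥L⟮z⟯ F').injective
  -- `O`-structures
  letI algOK₀ : Algebra ↥(s18tLoc A t (C ϖ) hC) ↥L⟮t⟯ :=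
    (s18tuIncl (L := L) t (C ϖ) hC ht).toAlgebra
  haveI towO1 : IsScalarTower ↥(s18tLoc A t (C ϖ) hC) ↥L⟮t⟯ F :=
    IsScalarTower.of_algebraMap_eq fun _ => rfl
  letI algOK₂ : Algebra ↥(s18tLoc A t (C ϖ) hC) ↥L⟮z⟯ :=
    (g.comp (algebraMap ↥(s18tLoc A t (C ϖ) hC) ↥L⟮t⟯)).toAlgebra
  haveI towO2 : IsScalarTower ↥(s18tLoc A t (C ϖ) hC) ↥L⟮t⟯ ↥L⟮z⟯ :=
    IsScalarTower.of_algebraMap_eq fun _ => rfl
  haveI towO3 : IsScalarTower ↥(s18tLoc A t (C ϖ) hC) ↥L⟮z⟯ F' :=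
    IsScalarTower.of_algebraMap_eq fun _ => rfl
  haveI dvrO : IsDiscreteValuationRing ↥(s18tLoc A t (C ϖ) hC) :=
    s18tu_isDVR (L := L) t (C ϖ) hC ht
  haveI fracO : IsFractionRing ↥(s18tLoc A t (C ϖ) hC) ↥L⟮t⟯ :=
    s18tg_isFractionRing_gauss hC t ht
  -- (A1) the trace `L(z) → L(t)` maps `A[z]_(ϖ)` into `A[t]_(ϖ)`
  have hA1 : ∀ c : ↥L⟮z⟯, (c : F') ∈ s18tLoc A z (C ϖ) hC →
      ((Algebra.trace ↥L⟮t⟯ ↥L⟮z⟯ c : ↥L⟮t⟯) : F) ∈ s18tLoc A t (C ϖ) hC := by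
    intro c hc
    have h0 : IsIntegral ↥(s18tLoc A t (C ϖ) hC) (algebraMap ↥L⟮z⟯ F' c) := hint _ hc
    have h1 : IsIntegral ↥(s18tLoc A t (C ϖ) hC) c :=
      (isIntegral_algebraMap_iff (algebraMap ↥L⟮z⟯ F').injective).mp h0
    have h2 : IsIntegral ↥(s18tLoc A t (C ϖ) hC) (Algebra.trace ↥L⟮t⟯ ↥L⟮z⟯ c) :=
      Algebra.isIntegral_trace h1
    obtain ⟨o, ho⟩ := IsIntegrallyClosed.isIntegral_iff.mp h2
    rw [← ho]
    exact o.2
  -- `z ∈ P'_(ϖ)`, `z⁻¹ ∈ P'_(ϖ)`, `A ⊆ P'_(ϖ)`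
  have hzB : z ∈ s18tIntLoc A z (C ϖ) hC := by
    rw [mem_s18tIntLoc]
    have h1 : z ∈ s18tLoc A z (C ϖ) hC := by
      have := s18tu_aeval_mem z (C ϖ) hC (X : A[X])
      rwa [aeval_X] at this
    exact isIntegral_algebraMap (R := ↥(s18tLoc A z (C ϖ) hC)) (x := ⟨z, h1⟩)
  have hzinvB : z⁻¹ ∈ s18tIntLoc A z (C ϖ) hC := by
    rw [mem_s18tIntLoc]
    have h1 : z⁻¹ ∈ s18tLoc A z (C ϖ) hC := by
      refine ⟨1, X, ?_, by simp [hz0]⟩
      have := s18tc_not_dvd_X_pow hC 1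
      rwa [pow_one] at this
    exact isIntegral_algebraMap (R := ↥(s18tLoc A z (C ϖ) hC)) (x := ⟨z⁻¹, h1⟩)
  have hAB : ∀ c : A, algebraMap A F' c ∈ s18tIntLoc A z (C ϖ) hC := by
    intro c
    rw [mem_s18tIntLoc]
    have h1 : algebraMap A F' c ∈ s18tLoc A z (C ϖ) hC := by
      have := s18tu_aeval_mem z (C ϖ) hC (C c : A[X])
      rwa [aeval_C] at this
    exact isIntegral_algebraMap (R := ↥(s18tLoc A z (C ϖ) hC)) (x := ⟨_, h1⟩)
  -- Step B: `Tr_{F'/F}(x z^j) ∈ P_(ϖ)`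
  have hT : ∀ j : ℕ, Algebra.trace F F' (x * z ^ j) ∈ s18tIntLoc A t (C ϖ) hC := by
    intro j
    apply hG
    intro b hb
    have hy : φ b * z ^ j ∈ s18tIntLoc A z (C ϖ) hC :=
      Subring.mul_mem _ (hasc b hb) (Subring.pow_mem _ hzB j)
    have h1 := hx _ hy
    have h2 := hA1 _ h1
    rw [Algebra.trace_trace, ← Algebra.trace_trace (S := F)] at h2
    have h3 : Algebra.trace F F' (x * (φ b * z ^ j)) = Algebra.trace F F' (x * z ^ j) * b := by
      have : x * (φ b * z ^ j) = b • (x * z ^ j) := by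
        rw [Algebra.smul_def]; ring
      rw [this, map_smul, smul_eq_mul, mul_comm]
    rwa [h3] at h2
  -- Step C: recover `x`
  have hrec := s18tg_recover F' w hw0 _ hζF a ha0 z hz hF' x
  obtain ⟨winv, hwinv⟩ := hw.exists_right_inv
  have hsum : (∑ j ∈ Finset.range w,
      (z⁻¹) ^ j * algebraMap F F' (Algebra.trace F F' (x * z ^ j))) ∈
      s18tIntLoc A z (C ϖ) hC :=
    Subring.sum_mem _ fun j _ =>
      Subring.mul_mem _ (Subring.pow_mem _ hzinvB j) (hasc _ (hT j))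
  have hx' : x = algebraMap A F' winv * ∑ j ∈ Finset.range w,
      (z⁻¹) ^ j * algebraMap F F' (Algebra.trace F F' (x * z ^ j)) := by
    rw [← hrec, ← mul_assoc]
    have : algebraMap A F' winv * (w : F') = 1 := by
      rw [← map_natCast (algebraMap A F') w, ← map_mul, mul_comm, hwinv, map_one]
    rw [this, one_mul]
  rw [hx']
  exact Subring.mul_mem _ (hAB winv) hsum

end Geometric

end Fermat.Agent.S18
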