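import Mathlib

/-!
# S18, package T, row 345 (T-g): the norm polynomial (NP)

`c(X) · ∏_{0 < i < w} c(ζ^i X) = c''(X ^ w)` for a primitive `w`-th root of unity `ζ`.
-/

set_option autoImplicit false

noncomputable section

namespace Fermat.Agent.S18

open Polynomial

/-- The cofactor `m(X) = ∏_{0 < i < w} c(ζ^i X)`. -/
def s18tgCofactor {R : Type*} [CommRing R] (ζ : R) (w : ℕ) (c : R[X]) : R[X] :=
  ∏ i ∈ (Finset.range w).erase 0, c.comp (C (ζ ^ i) * X)

theorem s18tg_mul_cofactor {R : Type*} [CommRing R] (ζ : R) (w : ℕ) (hw : w ≠ 0) (c : R[X]) :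
    c * s18tgCofactor ζ w c = ∏ i ∈ Finset.range w, c.comp (C (ζ ^ i) * X) := by
  have h0 : 0 ∈ Finset.range w := Finset.mem_range.mpr (Nat.pos_of_ne_zero hw)
  rw [s18tgCofactor, ← Finset.mul_prod_erase _ _ h0]
  simp

/-- (NP) `c · m = expand w c''` with `c''(0) = c(0) ^ w`. -/
theorem s18tg_exists_norm_poly {R : Type*} [CommRing R] [IsDomain R] (ζ : R) (w : ℕ)
    (hζ : IsPrimitiveRoot ζ w) (hw : w ≠ 0) (c : R[X]) :
    ∃ c'' : R[X], c * s18tgCofactor ζ w c = expand R w c'' ∧ c''.coeff 0 = c.coeff 0 ^ w := by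
  classical
  set N : R[X] := ∏ i ∈ Finset.range w, c.comp (C (ζ ^ i) * X) with hN
  have hmul := s18tg_mul_cofactor ζ w hw c
  -- invariance under `X ↦ ζ X`
  have hcomp : ∀ i : ℕ, (c.comp (C (ζ ^ i) * X)).comp (C ζ * X) = c.comp (C (ζ ^ (i + 1)) * X) := by
    intro i
    rw [comp_assoc, mul_comp, C_comp, X_comp, ← mul_assoc, ← C_mul, ← pow_succ]
  have hinv : N.comp (C ζ * X) = N := by
    by_cases hc : c = 0
    · have h0 : 0 ∈ Finset.range w := Finset.mem_range.mpr (Nat.pos_of_ne_zero hw)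
      have : N = 0 := by
        rw [hN]
        exact Finset.prod_eq_zero h0 (by simp [hc])
      rw [this, zero_comp]
    have hNcomp : N.comp (C ζ * X) = ∏ i ∈ Finset.range w, c.comp (C (ζ ^ (i + 1)) * X) := by
      rw [hN, prod_comp]
      exact Finset.prod_congr rfl fun i _ => hcomp i
    have h1 := Finset.prod_range_succ' (fun i => c.comp (C (ζ ^ i) * X)) w
    have h2 := Finset.prod_range_succ (fun i => c.comp (C (ζ ^ i) * X)) w
    have hfw : c.comp (C (ζ ^ w) * X) = c.comp (C (ζ ^ 0) * X) := by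
      rw [hζ.pow_eq_one, pow_zero]
    have hf0 : c.comp (C (ζ ^ 0) * X) ≠ 0 := by
      simpa using hc
    rw [h1] at h2
    rw [hfw] at h2
    rw [hNcomp]
    exact mul_right_cancel₀ hf0 h2
  have hcoeff : ∀ k : ℕ, ¬ w ∣ k → N.coeff k = 0 := by
    intro k hk
    have h1 := congrArg (fun p => p.coeff k) hinv
    simp only [comp_C_mul_X_coeff] at h1
    have h2 : N.coeff k * (ζ ^ k - 1) = 0 := by rw [mul_sub, h1, mul_one, sub_self]
    rcases mul_eq_zero.mp h2 with h | h
    · exact h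
    · exact absurd ((hζ.pow_eq_one_iff_dvd k).mp (sub_eq_zero.mp h)) hk
  refine ⟨contract w N, ?_, ?_⟩
  · rw [hmul]
    ext n
    rw [coeff_expand (Nat.pos_of_ne_zero hw), coeff_contract hw]
    split_ifs with h
    · rw [Nat.div_mul_cancel h]
    · exact hcoeff n h
  · rw [coeff_contract hw, zero_mul, hN, coeff_zero_eq_eval_zero, eval_prod]
    have : ∀ i ∈ Finset.range w, eval 0 (c.comp (C (ζ ^ i) * X)) = c.coeff 0 := by
      intro i _
      rw [eval_comp, eval_mul, eval_X, mul_zero, coeff_zero_eq_eval_zero]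
    rw [Finset.prod_congr rfl this, Finset.prod_const, Finset.card_range]

/-- (NP') the cofactor of a nonzero polynomial is nonzero. -/
theorem s18tg_cofactor_ne_zero {R : Type*} [CommRing R] [IsDomain R] (ζ : R) (w : ℕ)
    (hζ0 : ζ ≠ 0) (c : R[X]) (hc : c ≠ 0) : s18tgCofactor ζ w c ≠ 0 := by
  rw [s18tgCofactor, Finset.prod_ne_zero_iff]
  intro i _ h0
  apply hc
  have hu : (ζ ^ i) ≠ 0 := pow_ne_zero _ hζ0
  -- compose back with `C (ζ^i)⁻¹ * X` over the fraction field is awkward; use degrees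
  have hdeg : (c.comp (C (ζ ^ i) * X)).natDegree = c.natDegree := by
    rw [natDegree_comp, natDegree_C_mul_X _ hu, mul_one]
  have hlead : (c.comp (C (ζ ^ i) * X)).coeff c.natDegree = c.leadingCoeff * (ζ ^ i) ^ c.natDegree := by
    rw [comp_C_mul_X_coeff]; rfl
  rw [h0, coeff_zero] at hlead
  rcases mul_eq_zero.mp hlead.symm with h | h
  · exact leadingCoeff_eq_zero.mp h
  · exact absurd h (pow_ne_zero _ hu)

/-- (NP'') the cofactor commutes with ring homomorphisms. -/
theorem s18tg_cofactor_map {R R' : Type*} [CommRing R] [CommRing R'] (φ : R →+* R') (ζ : R)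
    (w : ℕ) (c : R[X]) :
    (s18tgCofactor ζ w c).map φ = s18tgCofactor (φ ζ) w (c.map φ) := by
  rw [s18tgCofactor, s18tgCofactor, Polynomial.map_prod]
  refine Finset.prod_congr rfl fun i _ => ?_
  rw [Polynomial.map_comp, Polynomial.map_mul, map_C, map_X, map_pow]

end Fermat.Agent.S18
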