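import Mathlib
import Fermat.Agent.S18.T.Defs
import Fermat.Agent.S18.T.Unram
import Fermat.Agent.S18.T.AbhyankarCore
import Fermat.Agent.S18.T.Abhyankar

/-!
# S18, package T, row T-g, piece (G3)+(G4): self-duality of `F(z) / L(z)` above the horizontal
primes through the closed point `(ϖ, z)`

`F' = F(z)`, `z ^ w = t - s`, `s ∈ S`.  For a prime element `g` of `A[X]`, not associated to `C ϖ`,
whose reduction vanishes at `0` (i.e. `g(z)` passes through the closed point `(ϖ, z)` of the chart
`A[z]`):

* `s18tg_unramAbove_other` : if `g` is not associated to `X`, then `F' / L(z)` is unramified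
  (valuation form) above `g`.  Proof: a place `V'` with `v'(g(z)) < 1` lies over a place `V` of `F`
  above a prime `g₁` of `A[t]` (`s18to_exists_prime_below`) which is none of the `t - s'`, `s' ∈ S`
  (`s' = s`: `z` would be a non-unit, so `X ∣ g`; `s' ≠ s`: `g ∣ Z ^ w - (s' - s)` by Gauss, so
  `g(0)` is a unit, but `ϖ ∣ g(0)`); so `τ = g₁(t)` is a uniformiser of `V` (`unram`), `t - s` is a
  `V`-unit, the unramified step (`s18ta_unif_core` with `z τ` in place of `z`, `e = w`) shows that
  `τ` is a uniformiser of `V'`, and `v'(τ) = v'(g(z)) ^ k` with `k ≥ 1`.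
* `s18tg_selfDual_through` : `S18SelfDual A L z g hg` for every such `g` (associated to `X`:
  Abhyankar `s18t_selfDual_of_tame`; otherwise (TU) `s18t_selfDual_of_unram`).

The hypotheses `hsep`, `hunram`, `htame` are the fields of `S18Chart A L ϖ t S` (which lives in
`Spec.lean`) written out.
-/

set_option autoImplicit false
set_option linter.unusedSectionVars false

noncomputable section

namespace Fermat.Agent.S18

open Polynomial IntermediateField

section Val

variable {F' : Type*} [Field F'] {Γ : Type*} [LinearOrderedCommGroupWithZero Γ]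

/-- A root of a polynomial with `v`-integral coefficients and `v`-unit leading coefficient is
`v`-integral. -/
theorem s18to_val_le_one_of_root (v : Valuation F' Γ) (x : F') (p : F'[X])
    (hp : ∀ i, v (p.coeff i) ≤ 1) (hlead : v p.leadingCoeff = 1) (hroot : p.eval x = 0) :
    v x ≤ 1 := by
  by_contra hcon
  have hx1 : 1 < v x := not_le.mp hcon
  have hx0 : 0 < v x := lt_trans zero_lt_one hx1
  set n := p.natDegree with hn
  rw [eval_eq_sum_range, Finset.sum_range_succ] at hroot
  have h1 : p.leadingCoeff * x ^ n = -∑ i ∈ Finset.range n, p.coeff i * x ^ i := by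
    rw [eq_neg_iff_add_eq_zero, add_comm]; exact hroot
  have h2 : v x ^ n = v (∑ i ∈ Finset.range n, p.coeff i * x ^ i) := by
    have := congrArg v h1
    rwa [map_mul, hlead, one_mul, map_pow, Valuation.map_neg] at this
  rcases Nat.eq_zero_or_pos n with h0 | hpos
  · rw [h0, Finset.range_zero, Finset.sum_empty, map_zero, pow_zero] at h2
    exact one_ne_zero h2
  · have h3 : v (∑ i ∈ Finset.range n, p.coeff i * x ^ i) ≤ v x ^ (n - 1) := by
      refine v.map_sum_le fun i hi => ?_
      rw [map_mul, map_pow]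
      calc v (p.coeff i) * v x ^ i ≤ 1 * v x ^ (n - 1) := by
            gcongr
            · exact hp i
            · exact hx1.le
            · have := Finset.mem_range.mp hi; omega
        _ = _ := one_mul _
    rw [← h2] at h3
    have h4 : v x ^ n = v x ^ (n - 1) * v x := by
      rw [← pow_succ]; congr 1; omega
    rw [h4] at h3
    have h5 : v x ^ (n - 1) * v x ≤ v x ^ (n - 1) * 1 := by rwa [mul_one]
    have h6 := (mul_le_mul_iff_right₀ (pow_pos hx0 _)).mp h5
    exact hcon h6

variable {L : Type*} [Field L] [Algebra L F']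

/-- nonzero elements of `L[z]` have valuation a power of `v (G(z))`, for `G` irreducible with
`v (G(z)) < 1` and `z` integral. -/
theorem s18to_poly_val (v : Valuation F' Γ) (hL : ∀ c : L, v (algebraMap L F' c) ≤ 1)
    (z : F') (hz : v z ≤ 1) (G : L[X]) (hG : Irreducible G) (hGz : v (aeval z G) < 1)
    (q : L[X]) (hq : q ≠ 0) : ∃ k : ℕ, v (aeval z q) = v (aeval z G) ^ k := by
  obtain ⟨k, q1, hndvd, hq1⟩ := WfDvdMonoid.max_power_factor hq hG
  refine ⟨k, ?_⟩
  have hcop : IsCoprime G q1 := (Irreducible.coprime_iff_not_dvd hG).mpr hndvd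
  obtain ⟨α, β, hαβ⟩ := hcop
  have h1 : v (aeval z q1) = 1 := by
    refine le_antisymm (s18ta_val_aeval_le_one v hL z hz q1) ?_
    have e1 : aeval z β * aeval z q1 = 1 - aeval z α * aeval z G := by
      have := congrArg (aeval (R := L) z) hαβ
      rw [map_add, map_mul, map_mul, map_one] at this
      rw [← this]; ring
    have hv1 : v (aeval z β * aeval z q1) = 1 := by
      rw [e1]
      apply Valuation.map_one_sub_of_lt
      rw [map_mul]
      calc v (aeval z α) * v (aeval z G) ≤ 1 * v (aeval z G) := by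
            gcongr; exact s18ta_val_aeval_le_one v hL z hz α
        _ < 1 := by rwa [one_mul]
    rw [map_mul] at hv1
    calc (1 : Γ) = v (aeval z β) * v (aeval z q1) := hv1.symm
      _ ≤ 1 * v (aeval z q1) := by gcongr; exact s18ta_val_aeval_le_one v hL z hz β
      _ = _ := one_mul _
  rw [hq1, map_mul, map_pow, map_mul, map_pow, h1, mul_one]

/-- every nonzero `v`-integral element algebraic over `L[z]` is bounded below by a nonzero element
of `L[z]`. -/
theorem s18to_exists_poly_le (v : Valuation F' Γ) (hL : ∀ c : L, v (algebraMap L F' c) ≤ 1)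
    (z : F') (hz : v z ≤ 1) (x : F') (hx : x ≠ 0) (hvx : v x ≤ 1)
    (halg : IsAlgebraic (Algebra.adjoin L {z}) x) :
    ∃ q : L[X], q ≠ 0 ∧ v (aeval z q) ≤ v x := by
  obtain ⟨p, hp0, hpx⟩ := halg
  obtain ⟨p1, hp1, hndvd⟩ := exists_eq_pow_rootMultiplicity_mul_and_not_dvd p hp0 0
  simp only [map_zero, sub_zero] at hp1 hndvd
  have hc0 : p1.coeff 0 ≠ 0 := fun h => hndvd (X_dvd_iff.mpr h)
  have hp1x : aeval x p1 = 0 := by
    rw [hp1, map_mul, map_pow, aeval_X] at hpx
    exact (mul_eq_zero.mp hpx).resolve_left (pow_ne_zero _ hx)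
  have hco : ∀ c : Algebra.adjoin L {z}, v (algebraMap (Algebra.adjoin L {z}) F' c) ≤ 1 := by
    rintro ⟨c, hc⟩
    rw [Algebra.adjoin_singleton_eq_range_aeval] at hc
    obtain ⟨q, rfl⟩ := hc
    exact s18ta_val_aeval_le_one v hL z hz q
  have hd := divX_mul_X_add p1
  have h0 : aeval x (divX p1) * x + algebraMap (Algebra.adjoin L {z}) F' (p1.coeff 0) = 0 := by
    rw [← hp1x]
    conv_rhs => rw [← hd]
    simp
  have hmem : algebraMap (Algebra.adjoin L {z}) F' (p1.coeff 0) ∈ (aeval (R := L) z).range := by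
    have h2 : ∀ c : Algebra.adjoin L {z}, (c : F') ∈ (aeval (R := L) z).range := by
      rintro ⟨c, hc⟩
      rwa [Algebra.adjoin_singleton_eq_range_aeval] at hc
    exact h2 _
  obtain ⟨q, hq⟩ := hmem
  have hq0 : q ≠ 0 := by
    rintro rfl
    apply hc0
    apply Subtype.ext
    simpa using hq.symm
  refine ⟨q, hq0, ?_⟩
  have hq' : aeval z q = algebraMap (Algebra.adjoin L {z}) F' (p1.coeff 0) := hq
  rw [hq', eq_neg_of_add_eq_zero_right h0, Valuation.map_neg, map_mul]
  calc v (aeval x (divX p1)) * v x ≤ 1 * v x := by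
        gcongr; exact s18ta_val_aeval_le_one v hco x hvx _
    _ = v x := one_mul _

/-- Archimedean property with respect to `G(z)`. -/
theorem s18to_arch (v : Valuation F' Γ) (hL : ∀ c : L, v (algebraMap L F' c) ≤ 1)
    (z : F') (hz : v z ≤ 1) (G : L[X]) (hG : Irreducible G) (hGz : v (aeval z G) < 1)
    (x : F') (hx : x ≠ 0) (halg : IsAlgebraic (Algebra.adjoin L {z}) x) :
    ∃ K : ℕ, v (aeval z G) ^ K ≤ v x := by
  by_cases hvx : v x ≤ 1
  · obtain ⟨q, hq0, hq⟩ := s18to_exists_poly_le v hL z hz x hx hvx halg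
    obtain ⟨k, hk⟩ := s18to_poly_val v hL z hz G hG hGz q hq0
    exact ⟨k, by rw [← hk]; exact hq⟩
  · exact ⟨0, by rw [pow_zero]; exact (not_le.mp hvx).le⟩

end Val

/-- In a UFD, a nonzero element on which a multiplicative `≤ 1` function is `< 1` has a prime
factor with the same property. -/
theorem s18to_exists_prime_lt_one {M : Type*} [CommMonoidWithZero M]
    [UniqueFactorizationMonoid M]
    {Γ : Type*} [LinearOrderedCommGroupWithZero Γ] (μ : M →* Γ) (hμ : ∀ x, μ x ≤ 1)
    (q : M) (hq : q ≠ 0) (hq1 : μ q < 1) : ∃ p : M, Prime p ∧ μ p < 1 := by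
  revert hq hq1
  induction q using UniqueFactorizationMonoid.induction_on_prime with
  | h₁ => intro h; exact absurd rfl h
  | h₂ u hu =>
    intro _ hlt
    exfalso
    obtain ⟨u', rfl⟩ := hu
    have h1 : μ (u' : M) * μ ((u'⁻¹ : Mˣ) : M) = 1 := by
      rw [← map_mul, Units.mul_inv, map_one]
    have h2 : μ (u' : M) * μ ((u'⁻¹ : Mˣ) : M) < 1 :=
      calc μ (u' : M) * μ ((u'⁻¹ : Mˣ) : M) ≤ μ (u' : M) * 1 := by gcongr; exact hμ _
        _ = μ (u' : M) := mul_one _
        _ < 1 := hlt
    exact absurd h1 h2.ne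
  | h₃ a p ha hp ih =>
    intro _ hlt
    by_cases hp1 : μ p < 1
    · exact ⟨p, hp, hp1⟩
    · have hp1' : μ p = 1 := le_antisymm (hμ p) (not_lt.mp hp1)
      rw [map_mul, hp1', one_mul] at hlt
      exact ih ha hlt

universe u

variable {A : Type*} [CommRing A] [IsDomain A] [IsDiscreteValuationRing A] [CharZero A]
variable {L : Type*} [Field L] [Algebra A L] [IsFractionRing A L]
variable {F : Type u} [Field F] [Algebra A F] [Algebra L F] [IsScalarTower A L F]
variable {ϖ : A}

/-- Every place of `F / L` at which `t` is integral lies above a prime element of `A[X]`. -/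
theorem s18to_exists_prime_below (t : F) [FiniteDimensional L⟮t⟯ F]
    (V : ValuationSubring F) (hV : S18IsPlace L V) (htV : t ∈ V) :
    ∃ g₁ : A[X], Prime g₁ ∧ V.valuation (aeval t g₁) < 1 := by
  obtain ⟨hVtop, hVL⟩ := hV
  set v := V.valuation with hv
  have hvL : ∀ c : L, v (algebraMap L F c) ≤ 1 := fun c => (V.valuation_le_one_iff _).mpr (hVL c)
  have hvA : ∀ c : A, v (algebraMap A F c) ≤ 1 := fun c => by
    rw [IsScalarTower.algebraMap_apply A L F]; exact hvL _
  obtain ⟨x, hx⟩ : ∃ x : F, x ∉ V := by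
    by_contra hcon
    push Not at hcon
    exact hVtop (eq_top_iff.mpr fun x _ => hcon x)
  have hx1 : 1 < v x := by rw [← not_le, V.valuation_le_one_iff]; exact hx
  have hx0 : x ≠ 0 := by rintro rfl; exact hx V.zero_mem
  have hy1 : v x⁻¹ < 1 := by rw [map_inv₀]; exact inv_lt_one_of_one_lt₀ hx1
  obtain ⟨q, hq0, hq⟩ := s18to_exists_poly_le v hvL t ((V.valuation_le_one_iff _).mpr htV) x⁻¹
    (inv_ne_zero hx0) hy1.le (s18ta_isAlgebraic_adjoin t x⁻¹)
  obtain ⟨b, _, hb⟩ := IsLocalization.integerNormalization_spec (nonZeroDivisors A) q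
  set q' := IsLocalization.integerNormalization (nonZeroDivisors A) q with hq'
  have hq'0 : q' ≠ 0 := (IsFractionRing.integerNormalization_eq_zero_iff).not.mpr hq0
  have hvq' : v (aeval t q') < 1 := by
    have hsm : aeval t (b • q) = algebraMap A F b * aeval t q := by
      rw [Algebra.smul_def, map_mul, IsScalarTower.algebraMap_apply A L L[X],
        Polynomial.algebraMap_apply, Algebra.algebraMap_self, RingHom.id_apply, aeval_C,
        ← IsScalarTower.algebraMap_apply]
    rw [← aeval_map_algebraMap L t q', hb, hsm, map_mul]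
    calc v (algebraMap A F b) * v (aeval t q) ≤ 1 * v (aeval t q) := by gcongr; exact hvA _
      _ = v (aeval t q) := one_mul _
      _ ≤ v x⁻¹ := hq
      _ < 1 := hy1
  let μ : A[X] →* V.ValueGroup :=
    (v : F →* V.ValueGroup).comp ((aeval t : A[X] →ₐ[A] F) : A[X] →* F)
  have hμ : ∀ p : A[X], μ p ≤ 1 := fun p =>
    s18ta_val_aeval_le_one v hvA t ((V.valuation_le_one_iff _).mpr htV) p
  obtain ⟨g₁, hg₁, hg₁v⟩ := s18to_exists_prime_lt_one μ hμ q' hq'0 hvq'
  exact ⟨g₁, hg₁, hg₁v⟩

/-- (T-g, piece G3) `F' = F(z)`, `z ^ w = t - s`, `s ∈ S`: above a horizontal prime `g` of `A[z]`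
through the closed point `(ϖ, z)` which is not associated to `z`, the extension `F' / L(z)` is
unramified (valuation form). -/
theorem s18tg_unramAbove_other (hϖ : Irreducible ϖ) (t : F) (ht : Transcendental L t)
    [FiniteDimensional L⟮t⟯ F] (S : Finset A) (s : A)
    (hsep : ∀ s' ∈ S, s ≠ s' → IsUnit (s - s'))
    (hunram : ∀ g₁ : A[X], Prime g₁ → ¬ Associated g₁ (C ϖ) →
      (∀ s' ∈ S, ¬ Associated g₁ (X - C s')) → S18UnramAbove A L t g₁)
    (w : ℕ) (hw : w ≠ 0)
    (F' : Type u) [Field F'] [Algebra F F'] [Algebra A F'] [Algebra L F']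
    [IsScalarTower A F F'] [IsScalarTower L F F'] [IsScalarTower A L F']
    (z : F') (hz : z ^ w = algebraMap F F' (t - algebraMap A F s)) (hF' : F⟮z⟯ = ⊤)
    (g : A[X]) (hg : Prime g) (hgϖ : ¬ Associated g (C ϖ)) (hgX : ¬ Associated g X)
    (hg0 : (X : (IsLocalRing.ResidueField A)[X]) ∣ g.map (IsLocalRing.residue A)) :
    S18UnramAbove A L z g := by
  intro V' hV' hgV'
  obtain ⟨hV'top, hV'L⟩ := hV'
  have hchar : CharZero L := charZero_of_injective_algebraMap (IsFractionRing.injective A L)
  have hfd : FiniteDimensional L⟮z⟯ F' := s18ta_finiteDimensional (L := L) t s w hw F' z hz hF'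
  set f := algebraMap F F' with hf
  set v' := V'.valuation with hv'
  have hvL : ∀ c : L, v' (algebraMap L F' c) ≤ 1 := fun c =>
    (V'.valuation_le_one_iff _).mpr (hV'L c)
  have hvA : ∀ c : A, v' (algebraMap A F' c) ≤ 1 := fun c => by
    rw [IsScalarTower.algebraMap_apply A L F']; exact hvL _
  have hvA1 : ∀ c : A, c ≠ 0 → v' (algebraMap A F' c) = 1 := fun c hc => by
    rw [IsScalarTower.algebraMap_apply A L F']
    exact s18ta_val_algebraMap v' hvL _
      ((map_ne_zero_iff _ (IsFractionRing.injective A L)).mpr hc)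
  have hinjA : Function.Injective (algebraMap A F') := by
    rw [IsScalarTower.algebraMap_eq A L F']
    exact (algebraMap L F').injective.comp (IsFractionRing.injective A L)
  -- `g` over `L`
  have hdeg : 0 < g.natDegree := s18tu_natDegree_pos g hg hgϖ hϖ
  have hprim : g.IsPrimitive := hg.irreducible.isPrimitive hdeg.ne'
  have hGirr : Irreducible (g.map (algebraMap A L)) :=
    (hprim.irreducible_iff_irreducible_map_fraction_map).mp hg.irreducible
  have hGz : v' (aeval z (g.map (algebraMap A L))) < 1 := by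
    rw [aeval_map_algebraMap]; exact hgV'
  -- (1) `z` is integral at `V'`
  have hz1 : v' z ≤ 1 := by
    refine s18to_val_le_one_of_root v' z (g.map (algebraMap A F') - C (aeval z g)) ?_ ?_ ?_
    · intro i
      rw [coeff_sub, coeff_map, coeff_C]
      split_ifs
      · exact (Valuation.map_sub _ _ _).trans (max_le (hvA _) hgV'.le)
      · rw [sub_zero]; exact hvA _
    · have hd : (C (aeval z g) : F'[X]).degree < (g.map (algebraMap A F')).degree := by
        rw [degree_map_eq_of_injective hinjA]
        exact lt_of_le_of_lt degree_C_le (natDegree_pos_iff_degree_pos.mp hdeg)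
      rw [leadingCoeff_sub_of_degree_lt hd,
        leadingCoeff_map_of_injective hinjA]
      exact hvA1 _ (leadingCoeff_ne_zero.mpr hg.ne_zero)
    · rw [eval_sub, eval_C, eval_map_algebraMap, sub_self]
  -- (2) the place `V = V' ∩ F`
  set a : F := t - algebraMap A F s with ha
  have ha0 : a ≠ 0 := by
    intro h0
    apply ht
    have : t = algebraMap L F (algebraMap A L s) := by
      rw [← IsScalarTower.algebraMap_apply]
      exact sub_eq_zero.mp h0
    rw [this]
    exact isAlgebraic_algebraMap _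
  have hfs : ∀ c : A, f (algebraMap A F c) = algebraMap A F' c := fun c =>
    (IsScalarTower.algebraMap_apply A F F' c).symm
  have hft : f t = z ^ w + algebraMap A F' s := by
    rw [hz, ha, map_sub, hfs]; ring
  have hvt : v' (f t) ≤ 1 := by
    rw [hft]
    refine (Valuation.map_add _ _ _).trans (max_le ?_ (hvA s))
    rw [map_pow]; exact pow_le_one' hz1 w
  set V : ValuationSubring F := V'.comap f with hV
  have hequiv : (V'.valuation.comap f).IsEquiv V.valuation :=
    Valuation.isEquiv_of_val_le_one fun x => by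
      rw [Valuation.comap_apply, V'.valuation_le_one_iff, V.valuation_le_one_iff]
      rfl
  have hzint : IsIntegral F z := by
    refine ⟨X ^ w - C a, monic_X_pow_sub_C a hw, ?_⟩
    simp [hz, ha, hf]
  have hF'alg : ∀ x : F', IsIntegral F x := by
    intro x
    have h1 : Algebra.IsIntegral F F⟮z⟯ :=
      (IntermediateField.isAlgebraic_adjoin_simple hzint).isIntegral
    have hx : x ∈ F⟮z⟯ := by rw [hF']; trivial
    have h2 : IsIntegral F (⟨x, hx⟩ : F⟮z⟯) := h1.isIntegral _
    exact (isIntegral_algebraMap_iff (A := F⟮z⟯) (B := F')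
      (algebraMap F⟮z⟯ F').injective).mpr h2
  have hVplace : S18IsPlace L V := by
    refine ⟨fun htop => hV'top (eq_top_iff.mpr fun x _ => ?_), fun c => ?_⟩
    · rw [← V'.valuation_le_one_iff]
      refine s18to_val_le_one_of_root v' x ((minpoly F x).map f) (fun i => ?_) ?_ ?_
      · rw [coeff_map]
        have : (minpoly F x).coeff i ∈ V := by rw [htop]; exact ValuationSubring.mem_top _
        exact (V'.valuation_le_one_iff _).mpr this
      · rw [(minpoly.monic (hF'alg x)).map f |>.leadingCoeff, map_one]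
      · rw [eval_map_algebraMap, minpoly.aeval]
    · show f (algebraMap L F c) ∈ V'
      rw [hf, ← IsScalarTower.algebraMap_apply]
      exact hV'L c
  have htV : t ∈ V := (V'.valuation_le_one_iff _).mp hvt
  -- (3) a prime of `A[t]` below `V`
  obtain ⟨g₁, hg₁, hg₁V⟩ := s18to_exists_prime_below (A := A) (L := L) t V hVplace htV
  have hfaeval : ∀ q : A[X], f (aeval t q) = aeval (f t) q := fun q => by
    rw [hf, ← aeval_algebraMap_apply]
  have hvaeval : ∀ q : A[X], v' (aeval (f t) q) ≤ 1 := fun q =>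
    s18ta_val_aeval_le_one v' hvA (f t) hvt q
  have hg₁v' : v' (aeval (f t) g₁) < 1 := by
    rw [← hfaeval]
    exact hequiv.lt_one_iff_lt_one.mpr hg₁V
  -- divisors of `g₁` are non-units at `V'`
  have hdvd_lt : ∀ q : A[X], g₁ ∣ q → v' (aeval (f t) q) < 1 := by
    rintro q ⟨r, rfl⟩
    rw [map_mul, map_mul]
    calc v' (aeval (f t) g₁) * v' (aeval (f t) r) ≤ v' (aeval (f t) g₁) * 1 := by
          gcongr; exact hvaeval r
      _ = v' (aeval (f t) g₁) := mul_one _
      _ < 1 := hg₁v'
  have hg₁ϖ : ¬ Associated g₁ (C ϖ) := by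
    intro hass
    have := hdvd_lt _ hass.dvd
    rw [aeval_C, hvA1 ϖ hϖ.ne_zero] at this
    exact lt_irrefl _ this
  -- (4a) `z` is a unit at `V'`
  have hzunit : ¬ v' z < 1 := by
    intro hzlt
    apply hgX
    have hd := divX_mul_X_add g
    have h1' : aeval z g = aeval z (divX g) * z + algebraMap A F' (g.coeff 0) := by
      conv_lhs => rw [← hd]
      simp
    have h1 : algebraMap A F' (g.coeff 0) = aeval z g - aeval z (divX g) * z := by
      rw [h1']; ring
    have h2 : v' (algebraMap A F' (g.coeff 0)) < 1 := by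
      rw [h1]
      refine lt_of_le_of_lt (Valuation.map_sub _ _ _) (max_lt hgV' ?_)
      rw [map_mul]
      calc v' (aeval z (divX g)) * v' z ≤ 1 * v' z := by
            gcongr; exact s18ta_val_aeval_le_one v' hvA z hz1 _
        _ < 1 := by rwa [one_mul]
    have h3 : g.coeff 0 = 0 := by
      by_contra hne
      rw [hvA1 _ hne] at h2
      exact lt_irrefl _ h2
    exact (Polynomial.prime_X.associated_of_dvd hg (X_dvd_iff.mpr h3)).symm
  have hvz : v' z = 1 := le_antisymm hz1 (not_lt.mp hzunit)
  have hva : v' (f a) = 1 := by rw [← hz, map_pow, hvz, one_pow]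
  have hvaevalz : ∀ q : L[X], v' (aeval z q) ≤ 1 := fun q =>
    s18ta_val_aeval_le_one v' hvL z hz1 q
  -- (4) `g₁` is not one of the special primes
  have hnotS : ∀ s' ∈ S, ¬ Associated g₁ (X - C s') := by
    intro s' hs' hass
    have hlt := hdvd_lt _ hass.dvd
    rw [map_sub, aeval_X, aeval_C] at hlt
    by_cases hss : s = s'
    · subst hss
      rw [hft, add_sub_cancel_right, map_pow, hvz, one_pow] at hlt
      exact lt_irrefl _ hlt
    · have hunit := hsep s' hs' hss
      set Wp : A[X] := X ^ w - C (s' - s) with hWp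
      have hWz : aeval z Wp = f t - algebraMap A F' s' := by
        rw [hWp, map_sub, map_pow, aeval_X, aeval_C, hft, map_sub]; ring
      have hWlt : v' (aeval z (Wp.map (algebraMap A L))) < 1 := by
        rw [aeval_map_algebraMap, hWz]; exact hlt
      have hdvdL : g.map (algebraMap A L) ∣ Wp.map (algebraMap A L) := by
        by_contra hnd
        obtain ⟨α, β, hαβ⟩ := (Irreducible.coprime_iff_not_dvd hGirr).mpr hnd
        have h1 := congrArg (aeval (R := L) z) hαβ
        rw [map_add, map_mul, map_mul, map_one] at h1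
        have hlt1 : v' (1 : F') < 1 := by
          rw [← h1]
          refine lt_of_le_of_lt (Valuation.map_add _ _ _) (max_lt ?_ ?_)
          · rw [map_mul]
            calc v' (aeval z α) * v' (aeval z (g.map (algebraMap A L)))
                ≤ 1 * v' (aeval z (g.map (algebraMap A L))) := by gcongr; exact hvaevalz α
              _ < 1 := by rwa [one_mul]
          · rw [map_mul]
            calc v' (aeval z β) * v' (aeval z (Wp.map (algebraMap A L)))
                ≤ 1 * v' (aeval z (Wp.map (algebraMap A L))) := by gcongr; exact hvaevalz β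
              _ < 1 := by rwa [one_mul]
        rw [map_one] at hlt1
        exact lt_irrefl _ hlt1
      obtain ⟨q, hq⟩ := hprim.dvd_of_fraction_map_dvd_fraction_map hdvdL
      have hc0 : Wp.coeff 0 = -(s' - s) := by
        rw [hWp, coeff_sub, coeff_X_pow, coeff_C_zero, if_neg hw.symm, zero_sub]
      have h5 : g.coeff 0 * q.coeff 0 = -(s' - s) := by
        rw [← hc0, hq, mul_coeff_zero]
      have hg00 : g.coeff 0 ∈ IsLocalRing.maximalIdeal A := by
        rw [X_dvd_iff, coeff_map] at hg0
        exact (IsLocalRing.residue_eq_zero_iff _).mp hg0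
      have hu : IsUnit (g.coeff 0 * q.coeff 0) := by
        rw [h5, neg_sub]; exact hunit
      exact (IsLocalRing.mem_maximalIdeal _).mp hg00 (isUnit_of_mul_isUnit_left hu)
  -- (5) `τ = g₁(t)` is a uniformiser of `V`
  set τ : F := aeval t g₁ with hτdef
  obtain ⟨hτ1V, hτV⟩ := hunram g₁ hg₁ hg₁ϖ hnotS V hVplace hg₁V
  have hτ1 : v' (f τ) < 1 := hequiv.lt_one_iff_lt_one.mpr hτ1V
  have hτ : ∀ x : F, v' (f x) < 1 → v' (f x) ≤ v' (f τ) := fun x hx =>
    (hequiv x τ).mpr (hτV x (hequiv.lt_one_iff_lt_one.mp hx))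
  have hτ0 : τ ≠ 0 := by
    intro h0
    have : g₁ = 0 := s18tu_aeval_injective (L := L) t ht (by rw [map_zero]; exact h0)
    exact hg₁.ne_zero this
  have hfτ0 : f τ ≠ 0 := (map_ne_zero f).mpr hτ0
  -- (6) `v'(τ)` is a positive power of `v'(g(z))`
  have hfτ_eq : f τ = aeval z ((g₁.comp (X ^ w + C s)).map (algebraMap A L)) := by
    rw [aeval_map_algebraMap, aeval_comp, hτdef, hfaeval, hft]
    simp
  have hQ0 : (g₁.comp (X ^ w + C s)).map (algebraMap A L) ≠ 0 := by
    intro h0
    rw [h0, map_zero] at hfτ_eq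
    exact hfτ0 hfτ_eq
  obtain ⟨k, hk⟩ := s18to_poly_val v' hvL z hz1 _ hGirr hGz _ hQ0
  rw [← hfτ_eq, aeval_map_algebraMap] at hk
  have hk0 : k ≠ 0 := by
    rintro rfl
    rw [pow_zero] at hk
    rw [hk] at hτ1
    exact lt_irrefl _ hτ1
  have hτle : v' (f τ) ≤ v' (aeval z g) := by
    rw [hk]; exact pow_le_of_le_one zero_le hgV'.le hk0
  have hvzτ : v' (z * f τ) = v' (f τ) := by rw [map_mul, hvz, one_mul]
  -- (7) the unramified step
  have hcore := s18ta_unif_core (L := L) V' hV'L (z * f τ) (by rw [hvzτ]; exact hτ1)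
    (a * τ ^ w) (mul_ne_zero ha0 (pow_ne_zero _ hτ0)) w hw
    (by rw [mul_pow, hz, map_mul, map_pow]) ?_ ?_ τ w (dvd_refl w) hτ1 hτ
    (by rw [map_mul, map_mul, hva, one_mul, map_pow, map_pow])
  · refine ⟨hgV', fun x hx => ?_⟩
    exact ((hcore x hx).trans hvzτ.le).trans hτle
  · -- spanning
    have := IntermediateField.adjoin_simple_toSubalgebra_of_isAlgebraic hzint.isAlgebraic
    rw [hF', Algebra.adjoin_singleton_eq_range_aeval] at this
    intro x
    have hx : x ∈ (aeval (R := F) z).range := by rw [← this]; trivial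
    obtain ⟨p, hp⟩ := hx
    refine ⟨p.comp (C τ⁻¹ * X), ?_⟩
    rw [aeval_comp, map_mul, aeval_C, aeval_X, ← hp]
    congr 1
    rw [← hf, map_inv₀, mul_comm z, ← mul_assoc, inv_mul_cancel₀ hfτ0, one_mul]
  · -- archimedean property
    intro x hx
    obtain ⟨K, hK⟩ := s18to_arch v' hvL z hz1 _ hGirr hGz x hx (s18ta_isAlgebraic_adjoin z x)
    refine ⟨K, le_trans ?_ hK⟩
    rw [hvzτ, aeval_map_algebraMap]
    exact pow_le_pow_left₀ zero_le hτle K

/-- `S18SelfDual` only depends on the prime up to associates. -/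
theorem s18to_selfDual_of_associated (z : F) {g g' : A[X]} (hg : Prime g) (hg' : Prime g')
    (hass : Associated g g') (h : S18SelfDual A L z g' hg') : S18SelfDual A L z g hg := by
  have hloc : s18tLoc A z g hg = s18tLoc A z g' hg' := by
    ext x
    simp only [mem_s18tLoc]
    constructor
    · rintro ⟨a, b, hb, hx⟩
      exact ⟨a, b, fun hd => hb (hass.dvd_iff_dvd_left.mpr hd), hx⟩
    · rintro ⟨a, b, hb, hx⟩
      exact ⟨a, b, fun hd => hb (hass.dvd_iff_dvd_left.mp hd), hx⟩
  have hint : ∀ R₁ R₂ : Subring F, R₁ = R₂ →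
      (integralClosure R₁ F).toSubring = (integralClosure R₂ F).toSubring := by
    rintro _ _ rfl; rfl
  have hintLoc : s18tIntLoc A z g hg = s18tIntLoc A z g' hg' := hint _ _ hloc
  intro x hx
  rw [hintLoc]
  refine h x fun y hy => ?_
  rw [← hloc]
  exact hx y (by rw [hintLoc]; exact hy)

/-- (T-g, pieces G3 + G4) self-duality of `F(z) / L(z)` above EVERY horizontal prime through the
closed point `(ϖ, z)`: hypothesis (ii) of the local form of `s18t_local_good` for
`(F', z, γ = X)`. -/
theorem s18tg_selfDual_through (hϖ : Irreducible ϖ) (t : F) (ht : Transcendental L t)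
    [FiniteDimensional L⟮t⟯ F] (S : Finset A) (s : A)
    (hsep : ∀ s' ∈ S, s ≠ s' → IsUnit (s - s'))
    (hunram : ∀ g₁ : A[X], Prime g₁ → ¬ Associated g₁ (C ϖ) →
      (∀ s' ∈ S, ¬ Associated g₁ (X - C s')) → S18UnramAbove A L t g₁)
    (w : ℕ) (hw : IsUnit (w : A)) (hζ : ∃ ζ : L, IsPrimitiveRoot ζ w)
    (htame : S18TameAbove A L t s w)
    (F' : Type u) [Field F'] [Algebra F F'] [Algebra A F'] [Algebra L F']
    [IsScalarTower A F F'] [IsScalarTower L F F'] [IsScalarTower A L F']
    (z : F') (hz : z ^ w = algebraMap F F' (t - algebraMap A F s)) (hF' : F⟮z⟯ = ⊤)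
    (g : A[X]) (hg : Prime g) (hgϖ : ¬ Associated g (C ϖ))
    (hg0 : (X : (IsLocalRing.ResidueField A)[X]) ∣ g.map (IsLocalRing.residue A)) :
    S18SelfDual A L z g hg := by
  have hw0 : w ≠ 0 := by
    rintro rfl
    simp at hw
  by_cases hgX : Associated g X
  · exact s18to_selfDual_of_associated z hg Polynomial.prime_X hgX
      (s18t_selfDual_of_tame t ht s w hw hζ htame F' z hz hF')
  · have hfd : FiniteDimensional L⟮z⟯ F' :=
      s18ta_finiteDimensional (L := L) t s w hw0 F' z hz hF'
    exact s18t_selfDual_of_unram (L := L) z (s18ta_transcendental t ht s w F' z hz) g hg hgϖ hϖ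
      (s18tg_unramAbove_other hϖ t ht S s hsep hunram w hw0 F' z hz hF' g hg hgϖ hgX hg0)

section Geometric

variable (F' : Type u) [Field F'] [Algebra F F'] [Algebra A F'] [Algebra L F']
  [IsScalarTower A F F'] [IsScalarTower L F F'] [IsScalarTower A L F']

/-- (g1) of `S18/T/TameSpec.lean` (origin/helper3 78ab97d), statement VERBATIM: a horizontal prime
`g(z)` of `A[z]` through the closed point `(ϖ, z)`, other than `z`, is unramified in `F'/L(z)`. -/
theorem s18tg_unramAbove_of_ne (hϖ : Irreducible ϖ) (t : F) (ht : Transcendental L t)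
    [FiniteDimensional L⟮t⟯ F] (S : Finset A)
    (hsep : ∀ s ∈ S, ∀ s' ∈ S, s ≠ s' → IsUnit (s - s'))
    (hunram : ∀ g : A[X], Prime g → ¬ Associated g (C ϖ) →
      (∀ s ∈ S, ¬ Associated g (X - C s)) → S18UnramAbove A L t g)
    (s : A) (hs : s ∈ S) (w : ℕ) (hw : IsUnit (w : A))
    (z : F') (hz : z ^ w = algebraMap F F' (t - algebraMap A F s)) (hF' : F⟮z⟯ = ⊤)
    (g : A[X]) (hg : Prime g) (hgϖ : ¬ Associated g (C ϖ)) (hgX : ¬ Associated g X)
    (hg0 : (X : (IsLocalRing.ResidueField A)[X]) ∣ g.map (IsLocalRing.residue A)) :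
    S18UnramAbove A L z g := by
  have hw0 : w ≠ 0 := by
    rintro rfl
    simp at hw
  exact s18tg_unramAbove_other hϖ t ht S s (hsep s hs) hunram w hw0 F' z hz hF' g hg hgϖ hgX hg0

end Geometric

end Fermat.Agent.S18
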