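import Mathlib
import Fermat.Agent.S18.T.Defs
import Fermat.Agent.S18.T.Saturated
import Fermat.Agent.S18.T.LocalGood
import Fermat.Agent.S18.T.TameNorm

/-!
# S18, package T, row 345 (T-g), piece (g3): ascent and descent of integrality along `F'/F`

`F' ⊇ F`, `z ∈ F'`, `z ^ w = t - s`.  Statements VERBATIM from `S18/T/TameSpec.lean`
(origin/helper3 78ab97d):

* `s18tg_map_mem_intLoc`   (g3-a) ascent `P_(ϖ) ⊆ P'_(ϖ)`;
* `s18tg_trace_mem_int`    (g3-b) descent `Tr_{F'/F}(P') ⊆ P`;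
* `s18tg_trace_mem_intLoc` (g3-c) descent `Tr_{F'/F}(P'_(ϖ)) ⊆ P_(ϖ)` (uses (NP), `S18/T/TameNP.lean`:
  `b(z) m(z) = N(t)` with `ϖ ∤ N`).
-/

set_option autoImplicit false
set_option linter.unusedSectionVars false
set_option linter.style.haveILetI false

noncomputable section

namespace Fermat.Agent.S18

open Polynomial IntermediateField

universe u

variable {A : Type*} [CommRing A] [IsDomain A] [IsDiscreteValuationRing A] [CharZero A]
variable {L : Type*} [Field L] [Algebra A L] [IsFractionRing A L]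
variable {F : Type u} [Field F] [Algebra A F] [Algebra L F] [IsScalarTower A L F]
variable {ϖ : A}

section Geometric

variable (F' : Type u) [Field F'] [Algebra F F'] [Algebra A F'] [Algebra L F']
  [IsScalarTower A F F'] [IsScalarTower L F F'] [IsScalarTower A L F']

/-- `a(t)`, seen in `F'`, is `(a ∘ (X^w + s))(z)`. -/
theorem s18tgt_map_aeval (t : F) (s : A) (w : ℕ) (z : F')
    (hz : z ^ w = algebraMap F F' (t - algebraMap A F s)) (a : A[X]) :
    algebraMap F F' (aeval t a) = aeval z (a.comp (X ^ w + C s)) := by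
  have ht' : algebraMap F F' t = z ^ w + algebraMap A F' s := by
    rw [hz, map_sub, ← IsScalarTower.algebraMap_apply A F F']
    ring
  rw [aeval_comp, map_add, map_pow, aeval_X, aeval_C, ← ht', aeval_algebraMap_apply]

/-- `ϖ ∤ b ⟹ ϖ ∤ b ∘ (X^w + s)`. -/
theorem s18tgt_not_dvd_comp (hC : Prime (C ϖ : A[X])) (s : A) (w : ℕ) (hw : w ≠ 0) (b : A[X])
    (hb : ¬ C ϖ ∣ b) : ¬ C ϖ ∣ b.comp (X ^ w + C s) := by
  rw [← s18tlg_map_eq_zero_iff hC] at hb ⊢
  rw [Polynomial.map_comp, Polynomial.map_add, Polynomial.map_pow, Polynomial.map_X,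
    Polynomial.map_C, Polynomial.comp_eq_zero_iff]
  rintro (h | ⟨-, h⟩)
  · exact hb h
  · have h1 := congrArg natDegree h
    rw [natDegree_X_pow_add_C, natDegree_C] at h1
    exact hw h1

/-- (g3-a) ascent: `P_(ϖ) ⊆ P'_(ϖ)`. -/
theorem s18tg_map_mem_intLoc (hC : Prime (C ϖ : A[X])) (t : F) (s : A) (w : ℕ) (hw : w ≠ 0)
    (z : F') (hz : z ^ w = algebraMap F F' (t - algebraMap A F s)) (x : F)
    (hx : x ∈ s18tIntLoc A t (C ϖ) hC) : algebraMap F F' x ∈ s18tIntLoc A z (C ϖ) hC := by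
  -- the ring hom `A[t]_(ϖ) → A[z]_(ϖ)`
  let ψ : ↥(s18tLoc A t (C ϖ) hC) →+* ↥(s18tLoc A z (C ϖ) hC) :=
    { toFun := fun u => ⟨algebraMap F F' (u : F), by
        obtain ⟨a, b, hb, hab⟩ := u.2
        refine ⟨a.comp (X ^ w + C s), b.comp (X ^ w + C s),
          s18tgt_not_dvd_comp hC s w hw b hb, ?_⟩
        rw [← s18tgt_map_aeval F' t s w z hz, ← s18tgt_map_aeval F' t s w z hz, ← map_mul, hab]⟩
      map_one' := Subtype.ext (map_one _)
      map_mul' := fun u v => Subtype.ext (map_mul _ _ _)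
      map_zero' := Subtype.ext (map_zero _)
      map_add' := fun u v => Subtype.ext (map_add _ _ _) }
  rw [mem_s18tIntLoc] at hx ⊢
  have h1 : ((algebraMap F F').comp (algebraMap ↥(s18tLoc A t (C ϖ) hC) F)).IsIntegralElem
      (algebraMap F F' x) := RingHom.IsIntegralElem.map hx (algebraMap F F')
  have h2 : ((algebraMap ↥(s18tLoc A z (C ϖ) hC) F').comp ψ).IsIntegralElem
      (algebraMap F F' x) := h1
  exact RingHom.IsIntegralElem.of_comp h2

/-- every element of `A[z]` is integral over `A[t]` (acting on `F'` through `F`). -/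
theorem s18tgt_isIntegral_chart (t : F) (s : A) (w : ℕ) (hw : w ≠ 0)
    (z : F') (hz : z ^ w = algebraMap F F' (t - algebraMap A F s)) {r : F'}
    (hr : r ∈ s18tChart A z) :
    IsIntegral ↥(s18tChart A t) r := by
  -- `z` is integral
  have hzint : IsIntegral ↥(s18tChart A t) z := by
    let r0 : ↥(s18tChart A t) := ⟨aeval t (X - C s), s18tb_aeval_mem_chart t _⟩
    refine ⟨X ^ w - C r0, monic_X_pow_sub_C r0 hw, ?_⟩
    rw [eval₂_sub, eval₂_pow, eval₂_X, eval₂_C, hz]
    change algebraMap F F' _ - algebraMap F F' (aeval t (X - C s)) = 0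
    have h0 : aeval t (X - C s : A[X]) = t - algebraMap A F s := by
      rw [map_sub, aeval_X, aeval_C]
    rw [h0, sub_self]
  -- constants are integral
  have hAint : ∀ a : A, IsIntegral ↥(s18tChart A t) (algebraMap A F' a) := by
    intro a
    have : algebraMap A F' a = algebraMap ↥(s18tChart A t) F' (algebraMap A ↥(s18tChart A t) a) := by
      rw [IsScalarTower.algebraMap_apply A F F']
      rfl
    rw [this]
    exact isIntegral_algebraMap
  obtain ⟨q, rfl⟩ := Algebra.adjoin_mem_exists_aeval A z hr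
  rw [aeval_eq_sum_range]
  refine IsIntegral.sum _ fun i _ => ?_
  rw [Algebra.smul_def]
  exact (hAint _).mul (hzint.pow i)

/-- elements of `P'` are integral over `A[t]`. -/
theorem s18tgt_isIntegral_int (t : F) (s : A) (w : ℕ) (hw : w ≠ 0)
    (z : F') (hz : z ^ w = algebraMap F F' (t - algebraMap A F s)) {y : F'}
    (hy : y ∈ s18tInt A z) :
    IsIntegral ↥(s18tChart A t) y := by
  let f : ↥(s18tChart A z) →+* ↥(integralClosure ↥(s18tChart A t) F') :=
    { toFun := fun r => ⟨(r : F'), s18tgt_isIntegral_chart F' t s w hw z hz r.2⟩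
      map_one' := rfl
      map_mul' := fun _ _ => rfl
      map_zero' := rfl
      map_add' := fun _ _ => rfl }
  have h1 : ((algebraMap ↥(integralClosure ↥(s18tChart A t) F') F').comp f).IsIntegralElem y :=
    (mem_s18tInt A).mp hy
  have h2 : IsIntegral ↥(integralClosure ↥(s18tChart A t) F') y :=
    RingHom.IsIntegralElem.of_comp h1
  exact isIntegral_trans (R := ↥(s18tChart A t)) y h2

/-- (g3-b) descent: `Tr_{F'/F}(P') ⊆ P`. -/
theorem s18tg_trace_mem_int (t : F) (s : A) (w : ℕ) (hw : w ≠ 0)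
    (z : F') (hz : z ^ w = algebraMap F F' (t - algebraMap A F s)) [FiniteDimensional F F']
    (y : F') (hy : y ∈ s18tInt A z) : Algebra.trace F F' y ∈ s18tInt A t := by
  have h1 : IsIntegral ↥(s18tChart A t) y := s18tgt_isIntegral_int F' t s w hw z hz hy
  exact (mem_s18tInt A).mpr (Algebra.isIntegral_trace h1)

/-- `z` is transcendental over `A`. -/
theorem s18tgt_transcendental (t : F) (htA : Transcendental A t) (s : A) (w : ℕ)
    (z : F') (hz : z ^ w = algebraMap F F' (t - algebraMap A F s)) : Transcendental A z := by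
  intro hzalg
  apply htA
  have h1 : IsAlgebraic A (z ^ w + algebraMap A F' s) := (hzalg.pow w).add (isAlgebraic_algebraMap s)
  have h2 : z ^ w + algebraMap A F' s = algebraMap F F' t := by
    rw [hz, map_sub, ← IsScalarTower.algebraMap_apply A F F']
    ring
  rw [h2] at h1
  exact (isAlgebraic_algebraMap_iff (algebraMap F F').injective).mp h1

/-- a primitive root of unity of `L = Frac A` lies in `A`. -/
theorem s18tgt_exists_root (w : ℕ) (hw : w ≠ 0) (hζ : ∃ ζ : L, IsPrimitiveRoot ζ w) :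
    ∃ ζ : A, IsPrimitiveRoot ζ w := by
  obtain ⟨ζ, hζ⟩ := hζ
  have hint : IsIntegral A ζ := by
    refine ⟨X ^ w - C 1, monic_X_pow_sub_C 1 hw, ?_⟩
    rw [eval₂_sub, eval₂_pow, eval₂_X, eval₂_C, hζ.pow_eq_one, map_one, sub_self]
  obtain ⟨y, hy⟩ := IsIntegrallyClosed.isIntegral_iff.mp hint
  exact ⟨y, IsPrimitiveRoot.of_map_of_injective (f := algebraMap A L) (hy.symm ▸ hζ)
    (IsFractionRing.injective A L)⟩

/-- (NP) in the form used here: `b(z) m(z) = N(t)` with `ϖ ∤ N`. -/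
theorem s18tgt_exists_norm (hC : Prime (C ϖ : A[X])) (t : F) (s : A) (w : ℕ) (hw : w ≠ 0)
    (hζ : ∃ ζ : L, IsPrimitiveRoot ζ w)
    (z : F') (hz : z ^ w = algebraMap F F' (t - algebraMap A F s)) (b : A[X])
    (hb : ¬ C ϖ ∣ b) :
    ∃ m N : A[X], ¬ C ϖ ∣ N ∧ aeval z m * aeval z b = algebraMap F F' (aeval t N) := by
  obtain ⟨ζ, hζA⟩ := s18tgt_exists_root (A := A) (L := L) w hw hζ
  obtain ⟨b'', hbm, -⟩ := s18tg_exists_norm_poly ζ w hζA hw b
  refine ⟨s18tgCofactor ζ w b, b''.comp (X - C s), ?_, ?_⟩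
  · -- reduction modulo `ϖ`
    have hζu : IsUnit ζ := hζA.isUnit hw
    have hζ0 : IsLocalRing.residue A ζ ≠ 0 := (hζu.map (IsLocalRing.residue A)).ne_zero
    have hb0 : b.map (IsLocalRing.residue A) ≠ 0 := fun h => hb ((s18tlg_map_eq_zero_iff hC b).mp h)
    have hm0 : (s18tgCofactor ζ w b).map (IsLocalRing.residue A) ≠ 0 := by
      rw [s18tg_cofactor_map]
      exact s18tg_cofactor_ne_zero _ w hζ0 _ hb0
    have h1 := congrArg (Polynomial.map (IsLocalRing.residue A)) hbm
    rw [Polynomial.map_mul, Polynomial.map_expand] at h1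
    have hb''0 : b''.map (IsLocalRing.residue A) ≠ 0 := by
      intro h
      rw [h, map_zero] at h1
      exact mul_ne_zero hb0 hm0 h1
    rw [← s18tlg_map_eq_zero_iff hC, Polynomial.map_comp, Polynomial.map_sub, Polynomial.map_X,
      Polynomial.map_C, Polynomial.comp_eq_zero_iff]
    rintro (h | ⟨-, h⟩)
    · exact hb''0 h
    · have h2 := congrArg natDegree h
      rw [natDegree_X_sub_C, natDegree_C] at h2
      exact one_ne_zero h2
  · rw [mul_comm, ← map_mul, hbm, expand_aeval, hz, aeval_algebraMap_apply, aeval_comp, map_sub,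
      aeval_X, aeval_C]

/-- (g3-c) descent: `Tr_{F'/F}(P'_(ϖ)) ⊆ P_(ϖ)`. -/
theorem s18tg_trace_mem_intLoc (hC : Prime (C ϖ : A[X])) (t : F) (ht : Transcendental L t)
    (s : A) (w : ℕ) (hw : w ≠ 0) (hζ : ∃ ζ : L, IsPrimitiveRoot ζ w)
    (z : F') (hz : z ^ w = algebraMap F F' (t - algebraMap A F s)) [FiniteDimensional F F']
    (y : F') (hy : y ∈ s18tIntLoc A z (C ϖ) hC) :
    Algebra.trace F F' y ∈ s18tIntLoc A t (C ϖ) hC := by
  have htA : Transcendental A t := s18tb_transcendental ht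
  have hzA : Transcendental A z := s18tgt_transcendental F' t htA s w z hz
  obtain ⟨b, hb, hby⟩ := s18tb_exists_mul_mem z hzA (C ϖ) hC y hy
  obtain ⟨m, N, hN, hmN⟩ := s18tgt_exists_norm (L := L) F' hC t s w hw hζ z hz b hb
  have hy1 : algebraMap F F' (aeval t N) * y ∈ s18tInt A z := by
    rw [← hmN, mul_assoc]
    exact Subring.mul_mem _ (s18tlg_aeval_mem_int z m) hby
  have htr : Algebra.trace F F' (algebraMap F F' (aeval t N) * y) =
      aeval t N * Algebra.trace F F' y := by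
    rw [← Algebra.smul_def, map_smul, smul_eq_mul]
  have h1 : aeval t N * Algebra.trace F F' y ∈ s18tInt A t := by
    rw [← htr]
    exact s18tg_trace_mem_int F' t s w hw z hz _ hy1
  have hN0 : aeval t N ≠ 0 := s18tlg_aeval_ne_zero htA (s18tlg_ne_zero_of_not_dvd hN)
  have h2 : Algebra.trace F F' y =
      (aeval t (1 : A[X]) / aeval t N) * (aeval t N * Algebra.trace F F' y) := by
    rw [map_one]
    field_simp
  rw [h2]
  exact Subring.mul_mem _
    (s18tlg_loc_le_intLoc t (C ϖ) hC (s18tlg_div_mem_loc htA (C ϖ) hC 1 hN))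
    (s18tlg_int_le_intLoc t (C ϖ) hC h1)

/-- (g3-d) `A[z]_(ϖ)` is integral over `A[t]_(ϖ)`: `y b(z) = a(z)`, `m(z) b(z) = N(t)` with
`ϖ ∤ N`, so `y = a(z) m(z) / N(t)`. -/
theorem s18tg_isIntegral_loc (hC : Prime (C ϖ : A[X])) (t : F) (ht : Transcendental L t)
    (s : A) (w : ℕ) (hw : w ≠ 0) (hζ : ∃ ζ : L, IsPrimitiveRoot ζ w)
    (z : F') (hz : z ^ w = algebraMap F F' (t - algebraMap A F s))
    (y : F') (hy : y ∈ s18tLoc A z (C ϖ) hC) :
    IsIntegral ↥(s18tLoc A t (C ϖ) hC) y := by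
  have htA : Transcendental A t := s18tb_transcendental ht
  obtain ⟨a, b, hb, hab⟩ := hy
  obtain ⟨m, N, hN, hmN⟩ := s18tgt_exists_norm (L := L) F' hC t s w hw hζ z hz b hb
  have hN0 : aeval t N ≠ 0 := s18tlg_aeval_ne_zero htA (s18tlg_ne_zero_of_not_dvd hN)
  have hN0' : algebraMap F F' (aeval t N) ≠ 0 :=
    (map_ne_zero_iff _ (algebraMap F F').injective).mpr hN0
  -- `r = a(z) m(z) ∈ A[z]` is integral over `A[t]`, hence over `A[t]_(ϖ)`
  have hr : aeval z (a * m) ∈ s18tChart A z := s18tb_aeval_mem_chart z (a * m)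
  have hr1 : IsIntegral ↥(s18tChart A t) (aeval z (a * m)) :=
    s18tgt_isIntegral_chart F' t s w hw z hz hr
  let ψ : ↥(s18tChart A t) →+* ↥(s18tLoc A t (C ϖ) hC) :=
    { toFun := fun u => ⟨(u : F), by
        obtain ⟨q, hq⟩ := Algebra.adjoin_mem_exists_aeval A t u.2
        rw [← hq]
        exact s18tlg_aeval_mem_loc t (C ϖ) hC q⟩
      map_one' := rfl
      map_mul' := fun _ _ => rfl
      map_zero' := rfl
      map_add' := fun _ _ => rfl }
  have hr2 : IsIntegral ↥(s18tLoc A t (C ϖ) hC) (aeval z (a * m)) := by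
    have h2 : ((algebraMap ↥(s18tLoc A t (C ϖ) hC) F').comp ψ).IsIntegralElem
        (aeval z (a * m)) := hr1
    exact RingHom.IsIntegralElem.of_comp h2
  -- `u = 1 / N(t) ∈ A[t]_(ϖ)`
  have hu : aeval t (1 : A[X]) / aeval t N ∈ s18tLoc A t (C ϖ) hC :=
    s18tlg_div_mem_loc htA (C ϖ) hC 1 hN
  have hy' : y = algebraMap ↥(s18tLoc A t (C ϖ) hC) F' ⟨_, hu⟩ * aeval z (a * m) := by
    have h1 : algebraMap ↥(s18tLoc A t (C ϖ) hC) F' ⟨_, hu⟩ =
        algebraMap F F' (aeval t (1 : A[X]) / aeval t N) := rfl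
    rw [h1, map_one, map_div₀, map_one, map_mul, ← hab]
    field_simp
    rw [← hmN]
    ring
  rw [hy']
  exact isIntegral_algebraMap.mul hr2

end Geometric

end Fermat.Agent.S18
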