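import Mathlib
import Fermat.Agent.S18.T.Defs
import Fermat.Agent.S18.T.Unram
import Fermat.Agent.S18.T.Abhyankar
import Fermat.Agent.S18.T.LocalGood
import Fermat.Agent.S18.T.TameTrace
import Fermat.Agent.S18.T.TameNorm
import Fermat.Agent.S18.T.TameOther
import Fermat.Agent.S18.T.TameKummer
import Fermat.Agent.S18.T.TameGauss

/-!
# S18, package T, row 345 (T-g): assembly of `s18t_local_tame`

`s18tg_local_tame` is the statement `s18t_local_tame` of `S18/T/Spec.lean` with the fields of
`S18Chart` unbundled, `S18LocalAt`/`S18DvdGauss` unfolded and an arbitrary proof `hC` of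
`Prime (C ϖ)`; wiring in `Spec.lean`:
`s18t_local_tame hϖ t ht S h hG e he hee s hs :=
  s18tg_local_tame (s18t_prime_C hϖ) hϖ t ht S h.sep h.unram h.tame hG e he hee s hs`.
-/

set_option autoImplicit false
set_option linter.unusedSectionVars false
set_option linter.style.haveILetI false

noncomputable section

namespace Fermat.Agent.S18

open Polynomial IntermediateField

universe u

variable {A : Type*} [CommRing A] [IsDomain A] [IsDiscreteValuationRing A] [CharZero A]
variable {L : Type*} [Field L] [Algebra A L] [IsFractionRing A L]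
variable {F : Type u} [Field F] [Algebra A F] [Algebra L F] [IsScalarTower A L F]
variable {ϖ : A}

/-- `s18tLoc` only depends on the prime up to association. -/
theorem s18tg_loc_congr (t : F) {g g' : A[X]} (hg : Prime g) (hg' : Prime g')
    (h : Associated g g') : s18tLoc A t g hg = s18tLoc A t g' hg' := by
  ext x
  simp only [mem_s18tLoc]
  constructor
  · rintro ⟨a, b, hb, hx⟩
    exact ⟨a, b, fun hd => hb (h.dvd.trans hd), hx⟩
  · rintro ⟨a, b, hb, hx⟩
    exact ⟨a, b, fun hd => hb (h.symm.dvd.trans hd), hx⟩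

/-- `S18SelfDual` only depends on the prime up to association. -/
theorem s18tg_selfDual_congr (t : F) {g g' : A[X]} (hg : Prime g) (hg' : Prime g')
    (h : Associated g g') (hsd : S18SelfDual A L t g hg) : S18SelfDual A L t g' hg' := by
  have hloc := s18tg_loc_congr t hg hg' h
  unfold S18SelfDual s18tIntLoc at hsd ⊢
  rw [← hloc]
  exact hsd

/-- a primitive `w`-th root of unity of `L = Frac A` comes from `A`. -/
theorem s18tg_exists_primitiveRoot (w : ℕ) (hw : w ≠ 0) (hζ : ∃ ζ : L, IsPrimitiveRoot ζ w) :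
    ∃ ζ : A, IsPrimitiveRoot ζ w := by
  obtain ⟨ζ, hζ⟩ := hζ
  have hint : IsIntegral A ζ :=
    ⟨X ^ w - 1, monic_X_pow_sub_C (1 : A) hw, by simp [hζ.pow_eq_one]⟩
  obtain ⟨ζA, rfl⟩ := (IsIntegrallyClosed.isIntegral_iff (R := A) (K := L)).mp hint
  exact ⟨ζA, hζ.of_map_of_injective (IsFractionRing.injective A L)⟩

/-- (T4) the closed point `X - s̄`, `s ∈ S`. -/
theorem s18tg_local_tame (hC : Prime (C ϖ : A[X])) (hϖ : Irreducible ϖ) (t : F)
    (ht : Transcendental L t) [FiniteDimensional L⟮t⟯ F] (S : Finset A)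
    (hsep : ∀ s ∈ S, ∀ s' ∈ S, s ≠ s' → IsUnit (s - s'))
    (hunram : ∀ g : A[X], Prime g → ¬ Associated g (C ϖ) →
      (∀ s ∈ S, ¬ Associated g (X - C s)) → S18UnramAbove A L t g)
    (htame : ∀ s ∈ S, ∃ w : ℕ, IsUnit (w : A) ∧ (∃ ζ : L, IsPrimitiveRoot ζ w) ∧
      S18TameAbove A L t s w)
    (hG : S18SelfDual A L t (C ϖ) hC)
    (e : F) (he : e ∈ s18tIntLoc A t (C ϖ) hC)
    (hee : ∃ y ∈ s18tIntLoc A t (C ϖ) hC, e ^ 2 - e = algebraMap A F ϖ * y)
    (s : A) (hs : s ∈ S) :
    ∃ c : A[X], ¬ (X - C (IsLocalRing.residue A s)) ∣ c.map (IsLocalRing.residue A) ∧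
      ∃ p ∈ s18tInt A t, ∃ y ∈ s18tIntLoc A t (C ϖ) hC,
        aeval t c * e - p = algebraMap A F ϖ * y := by
  classical
  obtain ⟨w, hw, hζ, htameV⟩ := htame s hs
  have hw0 : w ≠ 0 := by
    rintro rfl
    simp at hw
  haveI charL : CharZero L := charZero_of_injective_algebraMap (IsFractionRing.injective A L)
  haveI charF : CharZero F := charZero_of_injective_algebraMap (algebraMap L F).injective
  set a : F := t - algebraMap A F s with ha
  have ha0 : a ≠ 0 := by
    intro h0
    apply ht
    have : t = algebraMap L F (algebraMap A L s) := by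
      rw [← IsScalarTower.algebraMap_apply]
      exact sub_eq_zero.mp h0
    rw [this]
    exact isAlgebraic_algebraMap _
  -- the Kummer extension
  have hpoly0 : (X ^ w - C a : F[X]) ≠ 0 := (monic_X_pow_sub_C a hw0).ne_zero
  have hpolyu : ¬ IsUnit (X ^ w - C a : F[X]) := by
    intro hu
    have := natDegree_eq_zero_of_isUnit hu
    rw [natDegree_X_pow_sub_C] at this
    exact hw0 this
  obtain ⟨f, hf, hfdvd⟩ := WfDvdMonoid.exists_irreducible_factor hpolyu hpoly0
  haveI : Fact (Irreducible f) := ⟨hf⟩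
  let F' : Type u := AdjoinRoot f
  let z : F' := AdjoinRoot.root f
  have hz : z ^ w = algebraMap F F' (t - algebraMap A F s) := by
    obtain ⟨q, hq⟩ := hfdvd
    have h1 : aeval z (X ^ w - C a : F[X]) = 0 := by
      rw [hq, map_mul, AdjoinRoot.aeval_eq, AdjoinRoot.mk_self, zero_mul]
    rw [map_sub, map_pow, aeval_X, aeval_C] at h1
    exact sub_eq_zero.mp h1
  have hF' : F⟮z⟯ = ⊤ :=
    IntermediateField.adjoin_eq_top_of_algebra F {z} AdjoinRoot.adjoinRoot_eq_top
  have htz : Transcendental L z := s18ta_transcendental t ht s w F' z hz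
  haveI hfinz : FiniteDimensional L⟮z⟯ F' :=
    s18ta_finiteDimensional (L := L) t s w hw0 F' z hz hF'
  have hζF : ∃ ζ : F, IsPrimitiveRoot ζ w := by
    obtain ⟨ζ, hζ⟩ := hζ
    exact ⟨algebraMap L F ζ, hζ.map_of_injective (algebraMap L F).injective⟩
  obtain ⟨ζF, hζF⟩ := hζF
  obtain ⟨hgal, hfinFF'⟩ := s18tg_isGalois F' w hw0 ζF hζF a ha0 z hz hF'
  set φ := algebraMap F F' with hφ
  -- Gauss self-duality upstairs
  have hasc : ∀ b : F, b ∈ s18tIntLoc A t (C ϖ) hC → φ b ∈ s18tIntLoc A z (C ϖ) hC :=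
    fun b hb => s18tg_map_mem_intLoc F' hC t s w hw0 z hz b hb
  have hG' : S18SelfDual A L z (C ϖ) hC :=
    s18tg_selfDual_gauss_of F' hC t ht s w hw hζ z hz hF'
      (fun y hy => s18tg_isIntegral_loc F' hC t ht s w hw0 hζ z hz y hy) hasc hG
  -- the idempotent upstairs
  have he' : φ e ∈ s18tIntLoc A z (C ϖ) hC := hasc e he
  have hee' : ∃ y ∈ s18tIntLoc A z (C ϖ) hC, φ e ^ 2 - φ e = algebraMap A F' ϖ * y := by
    obtain ⟨y, hy, hey⟩ := hee
    refine ⟨φ y, hasc y hy, ?_⟩
    rw [← map_pow, ← map_sub, hey, map_mul, ← IsScalarTower.algebraMap_apply]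
  -- horizontal primes through the closed point
  have hloc : ∀ (g : A[X]) (hg : Prime g), ¬ Associated g (C ϖ) →
      (X : (IsLocalRing.ResidueField A)[X]) ∣ g.map (IsLocalRing.residue A) →
      S18SelfDual A L z g hg := by
    intro g hg hgϖ hg0
    by_cases hgX : Associated g X
    · exact s18tg_selfDual_congr z Polynomial.prime_X hg hgX.symm
        (s18t_selfDual_of_tame t ht s w hw hζ htameV F' z hz hF')
    · exact s18t_selfDual_of_unram (L := L) z htz g hg hgϖ hϖ
        (s18tg_unramAbove_of_ne F' hϖ t ht S hsep hunram s hs w hw z hz hF' g hg hgϖ hgX hg0)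
  -- local at `z̄ = 0` upstairs
  obtain ⟨c', hc', p', hp', y', hy', hcy⟩ :=
    s18tlg_local_good' hC z htz hG' (φ e) he' hee' X Polynomial.irreducible_X hloc
  -- the norm polynomial
  obtain ⟨ζA, hζA⟩ := s18tg_exists_primitiveRoot (A := A) (L := L) w hw0 hζ
  obtain ⟨c'', hNP, hc''0⟩ := s18tg_exists_norm_poly ζA w hζA hw0 c'
  set m : A[X] := s18tgCofactor ζA w c' with hm
  refine ⟨c''.comp (X - C s), ?_, ?_⟩
  · -- the reduction does not vanish at `s̄`
    intro hdvd
    apply hc'
    rw [Polynomial.map_comp, Polynomial.map_sub, map_X, map_C, dvd_iff_isRoot, IsRoot.def,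
      eval_comp, eval_sub, eval_X, eval_C, sub_self, ← coeff_zero_eq_eval_zero, coeff_map,
      hc''0, map_pow] at hdvd
    rw [X_dvd_iff, coeff_map]
    exact pow_eq_zero_iff hw0 |>.mp hdvd
  · -- descent
    have hn := s18tg_finrank_dvd F' w hw0 ζF hζF a ha0 z hz hF'
    set n := Module.finrank F F' with hndef
    obtain ⟨k, hk⟩ := hn
    have hnunit : IsUnit (n : A) := by
      have : (w : A) = (n : A) * (k : A) := by rw [hk]; push_cast; ring
      rw [this] at hw
      exact isUnit_of_mul_isUnit_left hw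
    obtain ⟨ninv, hninv⟩ := hnunit.exists_right_inv
    -- the relation upstairs, multiplied by the cofactor
    have hcm : aeval z (c' * m) = φ (aeval t (c''.comp (X - C s))) := by
      have h1 : aeval t (c''.comp (X - C s)) = aeval a c'' := by
        rw [aeval_comp]; simp [ha]
      rw [hNP, expand_aeval, hz, h1, hφ, aeval_algebraMap_apply]
    have hrel : φ (aeval t (c''.comp (X - C s)) * e) - aeval z m * p' =
        algebraMap A F' ϖ * (aeval z m * y') := by
      have : aeval z m * (aeval z c' * φ e - p') = aeval z m * (algebraMap A F' ϖ * y') := by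
        rw [hcy]
      rw [map_mul, ← hcm, map_mul]
      linear_combination this
    -- integrality upstairs
    have hmint : aeval z m ∈ s18tInt A z := by
      rw [mem_s18tInt]
      have h1 : aeval z m ∈ s18tChart A z := by
        unfold s18tChart
        rw [Algebra.adjoin_singleton_eq_range_aeval]
        exact ⟨m, rfl⟩
      exact isIntegral_algebraMap (R := ↥(s18tChart A z)) (x := ⟨_, h1⟩)
    have hmloc : aeval z m ∈ s18tIntLoc A z (C ϖ) hC := by
      rw [mem_s18tIntLoc]
      exact isIntegral_algebraMap (R := ↥(s18tLoc A z (C ϖ) hC))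
        (x := ⟨_, s18tu_aeval_mem z (C ϖ) hC m⟩)
    have hp'' : aeval z m * p' ∈ s18tInt A z := Subring.mul_mem _ hmint hp'
    have hy'' : aeval z m * y' ∈ s18tIntLoc A z (C ϖ) hC := Subring.mul_mem _ hmloc hy'
    -- take traces
    have htr := congrArg (Algebra.trace F F') hrel
    rw [map_sub, Algebra.trace_algebraMap, ← hndef] at htr
    have htrϖ : Algebra.trace F F' (algebraMap A F' ϖ * (aeval z m * y')) =
        algebraMap A F ϖ * Algebra.trace F F' (aeval z m * y') := by
      rw [IsScalarTower.algebraMap_apply A F F', ← smul_eq_mul (a := algebraMap A F ϖ),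
        ← map_smul, Algebra.smul_def]
    rw [htrϖ] at htr
    have hP := s18tg_trace_mem_int F' t s w hw0 z hz _ hp''
    have hB := s18tg_trace_mem_intLoc F' hC t ht s w hw0 hζ z hz _ hy''
    have hAint : ∀ c : A, algebraMap A F c ∈ s18tInt A t := fun c => s18tc_algebraMap_mem_int t c
    have hAloc : ∀ c : A, algebraMap A F c ∈ s18tIntLoc A t (C ϖ) hC := fun c =>
      s18tc_int_le_intLoc t (C ϖ) hC (hAint c)
    refine ⟨algebraMap A F ninv * Algebra.trace F F' (aeval z m * p'),
      Subring.mul_mem _ (hAint ninv) hP,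
      algebraMap A F ninv * Algebra.trace F F' (aeval z m * y'),
      Subring.mul_mem _ (hAloc ninv) hB, ?_⟩
    have hnn : algebraMap A F ninv * (n : F) = 1 := by
      rw [← map_natCast (algebraMap A F) n, ← map_mul, mul_comm, hninv, map_one]
    have h2 : algebraMap A F ninv * (n • (aeval t (c''.comp (X - C s)) * e) -
        Algebra.trace F F' (aeval z m * p')) =
        algebraMap A F ninv * (algebraMap A F ϖ * Algebra.trace F F' (aeval z m * y')) := by
      rw [htr]
    rw [nsmul_eq_mul] at h2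
    linear_combination h2 - (aeval t (c''.comp (X - C s)) * e) * hnn

end Fermat.Agent.S18
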