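import Mathlib
import Fermat.Agent.S18.T.Defs
import Fermat.Agent.S18.T.Basic
import Fermat.Agent.S18.T.Saturated
import Fermat.Agent.S18.T.Formal
import Fermat.Agent.S18.T.Unram
import Fermat.Agent.S18.T.Abhyankar
import Fermat.Agent.S18.T.LocalGood
import Fermat.Agent.S18.T.TameMain

/-!
# S18, package T : THEOREM (T) (integration of the leaf files; statements as in the spec)

Leaves: `Basic`, `Saturated` (helper13), `Formal` + `Glue` (helper8, helper3), `Unram` (helper23;
declares `s18t_selfDual_of_unram`), `Abhyankar` + `AbhyankarCore` (helper5; declares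
`s18t_selfDual_of_tame`), `LocalGood` (helper27), `Tame*` (helper3, helper5, helper27, helper13)

THEOREM (T) = `s18t_main`: a finite extension `F` of `L(t)` (`L = Frac A`, `A` a DVR of
characteristic `0` with uniformiser `ϖ`) which is
* unramified over `L(t)` outside a finite set `S` of `A`-integral points with pairwise distinct
  reductions (in both charts `t`, `t⁻¹`),
* tamely ramified over `S` with ramification indices dividing some `w` invertible in `A`,
* unramified (trace-self-dual) above the Gauss valuation of `L(t)`,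
* with `L` algebraically closed in `F`,
has NO nontrivial idempotent in (integral closure of the Gauss valuation ring in `F`) / `ϖ`,
i.e. the Gauss valuation has exactly one extension to `F`.

Notation of the blueprint (board msg 1117): `P = s18tInt A t`, `Q = s18tInt A t⁻¹`,
`P_(ϖ) = s18tIntLoc A t (C ϖ) _`.
-/

set_option autoImplicit false
set_option linter.unusedSectionVars false
set_option linter.unusedVariables false

noncomputable section

namespace Fermat.Agent.S18

open Polynomial IntermediateField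

universe u

variable {A : Type*} [CommRing A] [IsDomain A] [IsDiscreteValuationRing A] [CharZero A]
variable {L : Type*} [Field L] [Algebra A L] [IsFractionRing A L]
variable {F : Type u} [Field F] [Algebra A F] [Algebra L F] [IsScalarTower A L F]
variable {ϖ : A}

/-- `C ϖ` is a prime element of `A[X]`. -/
theorem s18t_prime_C (hϖ : Irreducible ϖ) : Prime (C ϖ : A[X]) := by
  rw [Polynomial.prime_C_iff]
  exact UniqueFactorizationMonoid.irreducible_iff_prime.mp hϖ

/-- `X - C s` is a prime element of `A[X]`. -/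
theorem s18t_prime_X_sub_C (s : A) : Prime (X - C s : A[X]) := Polynomial.prime_X_sub_C s

/-- The hypotheses attached to one chart `t` with special points `S ⊂ A`. -/
structure S18Chart (A : Type*) [CommRing A] (L : Type*) [Field L] {F : Type u} [Field F]
    [Algebra A F] [Algebra L F] (ϖ : A) (t : F) (S : Finset A) : Prop where
  /-- the special points have pairwise distinct reductions -/
  sep : ∀ s ∈ S, ∀ s' ∈ S, s ≠ s' → IsUnit (s - s')
  /-- unramified above every horizontal prime outside `S` -/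
  unram : ∀ g : A[X], Prime g → ¬ Associated g (C ϖ) → (∀ s ∈ S, ¬ Associated g (X - C s)) →
    S18UnramAbove A L t g
  /-- tame above the points of `S` -/
  tame : ∀ s ∈ S, ∃ w : ℕ, IsUnit (w : A) ∧ (∃ ζ : L, IsPrimitiveRoot ζ w) ∧
    S18TameAbove A L t s w

/-- Shorthand: `x ∈ ϖ · P_(ϖ)`. -/
def S18DvdGauss (hϖ : Irreducible ϖ) (t : F) (x : F) : Prop :=
  ∃ y ∈ s18tIntLoc A t (C ϖ) (s18t_prime_C hϖ), x = algebraMap A F ϖ * y

/-! ### Elementary leaves -/

/-- (T0) integral closure commutes with localisation at the Gauss prime. -/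
theorem s18t_intLoc_iff (hϖ : Irreducible ϖ) (t : F) (y : F) :
    y ∈ s18tIntLoc A t (C ϖ) (s18t_prime_C hϖ) ↔
      ∃ b : A[X], ¬ (C ϖ ∣ b) ∧ aeval t b * y ∈ s18tInt A t :=
  s18ta_intLoc_iff (C ϖ) (s18t_prime_C hϖ) t y

/-- (T0') the Gauss valuation ring of `L(t)` does not change under `t ↦ t⁻¹`. -/
theorem s18t_loc_inv (hϖ : Irreducible ϖ) (t : F) (ht : Transcendental L t) :
    s18tLoc A t⁻¹ (C ϖ) (s18t_prime_C hϖ) = s18tLoc A t (C ϖ) (s18t_prime_C hϖ) :=
  s18ta_loc_inv ϖ (s18t_prime_C hϖ) t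

/-- (T0'') hence Gauss self-duality does not depend on the chart. -/
theorem s18t_selfDual_inv (hϖ : Irreducible ϖ) (t : F) (ht : Transcendental L t)
    [FiniteDimensional L⟮t⟯ F]
    (hG : S18SelfDual A L t (C ϖ) (s18t_prime_C hϖ)) :
    S18SelfDual A L t⁻¹ (C ϖ) (s18t_prime_C hϖ) :=
  s18ta_selfDual_inv ϖ (s18t_prime_C hϖ) t hG

/-- (T1) saturation: `P ∩ ϖ P_(ϖ) = ϖ P`.
Proof: `y = x/ϖ`, `ϖ y ∈ P`, `g(t) y ∈ P` with `ϖ ∤ g`; the coefficients `c_i` of the minimal
polynomial of `y` over `L(t)` satisfy `ϖ^i c_i, g^i c_i ∈ A[t]` (integrally closed), and `A[X]` is a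
UFD in which `ϖ` is prime, so `c_i ∈ A[t]`. -/
theorem s18t_saturated (hϖ : Irreducible ϖ) (t : F) (ht : Transcendental L t)
    [FiniteDimensional L⟮t⟯ F] (y : F)
    (hy : y ∈ s18tIntLoc A t (C ϖ) (s18t_prime_C hϖ))
    (hx : algebraMap A F ϖ * y ∈ s18tInt A t) : y ∈ s18tInt A t :=
  s18tb_saturated (s18t_prime_C hϖ) t ht y hy hx

/-! ### Valuation form ⇒ trace-self-duality (used by (T3) for `F` and by (T4) for `F(z)`) -/

-- `s18t_selfDual_of_unram` is declared (VERBATIM) in its leaf file, imported above.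

-- `s18t_selfDual_of_tame` is declared (VERBATIM) in its leaf file, imported above.

/-! ### Local statements at the closed points of the special fibre of the chart

A closed point of `Spec k₀[X]` (`k₀ = A/ϖ`) is given by an irreducible `γ : k₀[X]`; "`e` lies in
`(P/ϖ)` localised at `γ`" is expressed by: `c(t) e ≡ p mod ϖ P_(ϖ)` for some `p ∈ P` and some
`c : A[X]` whose reduction is prime to `γ`. -/

/-- `e mod ϖ` lies in the localisation of `P/ϖ` at the closed point `γ`. -/
def S18LocalAt (hϖ : Irreducible ϖ) (t : F) (e : F)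
    (γ : (IsLocalRing.ResidueField A)[X]) : Prop :=
  ∃ c : A[X], ¬ γ ∣ c.map (IsLocalRing.residue A) ∧
    ∃ p ∈ s18tInt A t, S18DvdGauss hϖ t (aeval t c * e - p)

/-- (T3) closed points away from the special points: purity.
`P` is free over `R₁ = A[t]_(1 + ϖ A[t])` (lift a basis of the torsion-free `k₀[t]`-module `P/ϖ`,
Nakayama); the discriminant `d` of a basis is not divisible by `ϖ` (Gauss self-duality) nor by a
horizontal prime outside `S` (`unram` ⇒ self-dual at `g`); `R₁` is a UFD, so `d` is a unit at `γ`;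
a finite free algebra over the DVR `k₀[X]_(γ)` with unit discriminant is integrally closed in its
total ring of fractions, in particular contains the idempotents. -/
theorem s18t_local_good (hϖ : Irreducible ϖ) (t : F) (ht : Transcendental L t)
    [FiniteDimensional L⟮t⟯ F] (S : Finset A) (h : S18Chart A L ϖ t S)
    (hG : S18SelfDual A L t (C ϖ) (s18t_prime_C hϖ))
    (e : F) (he : e ∈ s18tIntLoc A t (C ϖ) (s18t_prime_C hϖ))
    (hee : S18DvdGauss hϖ t (e ^ 2 - e))
    (γ : (IsLocalRing.ResidueField A)[X]) (hγ : Irreducible γ)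
    (hS : ∀ s ∈ S, γ.eval (IsLocalRing.residue A s) ≠ 0) :
    S18LocalAt hϖ t e γ :=
  s18tlg_local_good (s18t_prime_C hϖ) t ht S h.unram
    (fun g hg hgϖ hu => s18t_selfDual_of_unram t ht g hg hgϖ hϖ hu) hG e he hee γ hγ hS

/-- (T4) the closed point `X - s̄`, `s ∈ S`: Abhyankar + invariants.
`F' = F(z)`, `z^w = t - s`; `F'/L(z)` satisfies the hypotheses of (T3) at the closed point `z̄ = 0`
(Gauss: transitivity of the different through the étale extension `F'/F` above `ϖ`; horizontal
primes through `(ϖ, z)` other than `z` lie over horizontal primes `≠ t - s'`, `s' ∈ S`, because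
the reductions of `S` are distinct; the prime `z`: Abhyankar's lemma from `tame`), so `e` is local
at `z̄` for `F'`; average over `Gal(F'/F)` (order dividing `w`, invertible in `A`). -/
theorem s18t_local_tame (hϖ : Irreducible ϖ) (t : F) (ht : Transcendental L t)
    [FiniteDimensional L⟮t⟯ F] (S : Finset A) (h : S18Chart A L ϖ t S)
    (hG : S18SelfDual A L t (C ϖ) (s18t_prime_C hϖ))
    (e : F) (he : e ∈ s18tIntLoc A t (C ϖ) (s18t_prime_C hϖ))
    (hee : S18DvdGauss hϖ t (e ^ 2 - e))
    (s : A) (hs : s ∈ S) :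
    S18LocalAt hϖ t e (X - C (IsLocalRing.residue A s)) :=
  s18tg_local_tame (s18t_prime_C hϖ) hϖ t ht S h.sep h.unram h.tame hG e he hee s hs

/-- (T5) globalisation: local at every closed point ⇒ global.
(The reductions `c̄` occurring in `S18LocalAt` form an ideal of the PID `k₀[X]` contained in no
maximal ideal.) -/
theorem s18t_global_of_local (hϖ : Irreducible ϖ) (t : F) (ht : Transcendental L t)
    [FiniteDimensional L⟮t⟯ F]
    (e : F) (he : e ∈ s18tIntLoc A t (C ϖ) (s18t_prime_C hϖ))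
    (hloc : ∀ γ : (IsLocalRing.ResidueField A)[X], Irreducible γ → S18LocalAt hϖ t e γ) :
    ∃ p ∈ s18tInt A t, S18DvdGauss hϖ t (e - p) :=
  s18ta_global_of_local hϖ (s18t_prime_C hϖ) t e he hloc

/-- (TN) the chart theorem: every idempotent of `P_(ϖ)/ϖ` lies in `P/ϖ`. -/
theorem s18t_chart (hϖ : Irreducible ϖ) (t : F) (ht : Transcendental L t)
    [FiniteDimensional L⟮t⟯ F] (S : Finset A) (h : S18Chart A L ϖ t S)
    (hG : S18SelfDual A L t (C ϖ) (s18t_prime_C hϖ))
    (e : F) (he : e ∈ s18tIntLoc A t (C ϖ) (s18t_prime_C hϖ))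
    (hee : S18DvdGauss hϖ t (e ^ 2 - e)) :
    ∃ p ∈ s18tInt A t, S18DvdGauss hϖ t (e - p) := by
  classical
  refine s18t_global_of_local (L := L) hϖ t ht e he fun γ hγ => ?_
  by_cases hS : ∀ s ∈ S, γ.eval (IsLocalRing.residue A s) ≠ 0
  · exact s18t_local_good hϖ t ht S h hG e he hee γ hγ hS
  · push Not at hS
    obtain ⟨s, hs, hroot⟩ := hS
    have hdvd : (X - C (IsLocalRing.residue A s)) ∣ γ := dvd_iff_isRoot.mpr hroot
    have hassoc : Associated (X - C (IsLocalRing.residue A s)) γ :=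
      (Polynomial.irreducible_X_sub_C _).associated_of_dvd hγ hdvd
    obtain ⟨c, hc, p, hp, hcp⟩ := s18t_local_tame hϖ t ht S h hG e he hee s hs
    exact ⟨c, fun hγc => hc (hassoc.dvd.trans hγc), p, hp, hcp⟩

/-- (T6) elementary "theorem on formal functions": an idempotent of `P/ϖ ∩ Q/ϖ` is trivial.
`H = P[1/t]/(P + Q)` is a finitely generated `A`-module, idempotents lift uniquely modulo `ϖ^n`,
`P ∩ Q = A` because `L` is algebraically closed in `F`. -/
theorem s18t_formal (hϖ : Irreducible ϖ) (t : F) (ht : Transcendental L t)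
    [FiniteDimensional L⟮t⟯ F]
    (hL : ∀ x : F, IsAlgebraic L x → x ∈ (algebraMap L F).range)
    (p q : F) (hp : p ∈ s18tInt A t) (hq : q ∈ s18tInt A t⁻¹)
    (hpq : S18DvdGauss hϖ t (p - q))
    (hpp : S18DvdGauss hϖ t (p ^ 2 - p)) :
    S18DvdGauss hϖ t p ∨ S18DvdGauss hϖ t (1 - p) :=
  s18tc_formal (s18t_prime_C hϖ) t ht hL p q hp hq hpq hpp

/-- `ϖ P_(ϖ)` does not depend on the chart. -/
theorem s18t_dvdGauss_inv (hϖ : Irreducible ϖ) (t : F) (ht : Transcendental L t) (x : F) :
    S18DvdGauss hϖ t⁻¹ x ↔ S18DvdGauss hϖ t x := by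
  unfold S18DvdGauss s18tIntLoc
  rw [s18t_loc_inv (L := L) hϖ t ht]

/-- `ϖ P_(ϖ)` is closed under addition, negation and multiplication by `P_(ϖ)`. -/
theorem S18DvdGauss.add (hϖ : Irreducible ϖ) {t x y : F}
    (hx : S18DvdGauss hϖ t x) (hy : S18DvdGauss hϖ t y) : S18DvdGauss hϖ t (x + y) := by
  obtain ⟨a, ha, rfl⟩ := hx
  obtain ⟨b, hb, rfl⟩ := hy
  exact ⟨a + b, Subring.add_mem _ ha hb, by ring⟩

theorem S18DvdGauss.neg (hϖ : Irreducible ϖ) {t x : F}
    (hx : S18DvdGauss hϖ t x) : S18DvdGauss hϖ t (-x) := by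
  obtain ⟨a, ha, rfl⟩ := hx
  exact ⟨-a, Subring.neg_mem _ ha, by ring⟩

theorem S18DvdGauss.mul_mem (hϖ : Irreducible ϖ) {t x y : F}
    (hx : S18DvdGauss hϖ t x) (hy : y ∈ s18tIntLoc A t (C ϖ) (s18t_prime_C hϖ)) :
    S18DvdGauss hϖ t (x * y) := by
  obtain ⟨a, ha, rfl⟩ := hx
  exact ⟨a * y, Subring.mul_mem _ ha hy, by ring⟩

/-- `P ⊆ P_(ϖ)`. -/
theorem s18tInt_le_intLoc (hϖ : Irreducible ϖ) (t : F) {x : F} (hx : x ∈ s18tInt A t) :
    x ∈ s18tIntLoc A t (C ϖ) (s18t_prime_C hϖ) :=
  (s18t_intLoc_iff hϖ t x).mpr ⟨1, fun h => (s18t_prime_C hϖ).not_isUnit (isUnit_of_dvd_one h),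
    by simpa using hx⟩

/-- THEOREM (T). -/
theorem s18t_main (hϖ : Irreducible ϖ) (t : F) (ht : Transcendental L t)
    [FiniteDimensional L⟮t⟯ F]
    (hL : ∀ x : F, IsAlgebraic L x → x ∈ (algebraMap L F).range)
    (S S' : Finset A) (h0 : S18Chart A L ϖ t S) (hinf : S18Chart A L ϖ t⁻¹ S')
    (hG : S18SelfDual A L t (C ϖ) (s18t_prime_C hϖ))
    (e : F) (he : e ∈ s18tIntLoc A t (C ϖ) (s18t_prime_C hϖ))
    (hee : S18DvdGauss hϖ t (e ^ 2 - e)) :
    S18DvdGauss hϖ t e ∨ S18DvdGauss hϖ t (1 - e) := by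
  have ht' : Transcendental L t⁻¹ := by
    intro h
    exact ht (by simpa using h.inv)
  have hfd : FiniteDimensional L⟮t⁻¹⟯ F := by
    have hEq : L⟮t⁻¹⟯ = L⟮t⟯ := by
      apply le_antisymm
      · rw [IntermediateField.adjoin_simple_le_iff]
        exact inv_mem (IntermediateField.mem_adjoin_simple_self L t)
      · rw [IntermediateField.adjoin_simple_le_iff]
        have := inv_mem (IntermediateField.mem_adjoin_simple_self L t⁻¹)
        simpa using this
    rw [hEq]; infer_instance
  have hloc := s18t_loc_inv (L := L) hϖ t ht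
  have he' : e ∈ s18tIntLoc A t⁻¹ (C ϖ) (s18t_prime_C hϖ) := by
    unfold s18tIntLoc; rw [hloc]; exact he
  -- chart `t`
  obtain ⟨p, hp, hep⟩ := s18t_chart hϖ t ht S h0 hG e he hee
  -- chart `t⁻¹`
  obtain ⟨q, hq, heq⟩ := s18t_chart hϖ t⁻¹ ht' S' hinf (s18t_selfDual_inv hϖ t ht hG) e he'
    ((s18t_dvdGauss_inv (L := L) hϖ t ht _).mpr hee)
  rw [s18t_dvdGauss_inv (L := L) hϖ t ht] at heq
  have hpI := s18tInt_le_intLoc hϖ t hp
  -- `p - q ∈ ϖ P_(ϖ)`
  have hpq : S18DvdGauss hϖ t (p - q) := by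
    have := (S18DvdGauss.neg hϖ hep).add hϖ heq
    convert this using 1; ring
  -- `p² - p ∈ ϖ P_(ϖ)`
  have hpp : S18DvdGauss hϖ t (p ^ 2 - p) := by
    have h1 : S18DvdGauss hϖ t ((e - p) * (1 - e - p)) :=
      hep.mul_mem hϖ (Subring.sub_mem _ (Subring.sub_mem _ (Subring.one_mem _) he) hpI)
    have := hee.add hϖ h1
    convert this using 1; ring
  rcases s18t_formal hϖ t ht hL p q hp (by simpa using hq) hpq hpp with h | h
  · left
    have := hep.add hϖ h
    convert this using 1; ring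
  · right
    have := (S18DvdGauss.neg hϖ hep).add hϖ h
    convert this using 1; ring

end Fermat.Agent.S18
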